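import Mathlib

/-!
# Brick RED: the residue field of a valuation subring of an algebraically closed field

* `Fermat.Agent.RED.isAlgClosed_residueField`: it is algebraically closed.
* `Fermat.Agent.RED.charP_residueField`: it has characteristic `ℓ` when the prime number `ℓ`
  is a non-unit of `A`.
-/

set_option autoImplicit false

namespace Fermat.Agent.RED

open Polynomial

variable {K : Type*} [Field K] (A : ValuationSubring K)

/-- An element of `K` which is a root of a monic polynomial over `A` lies in `A`. -/
theorem mem_of_monic_root {q : A[X]} (hq : q.Monic) {α : K}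
    (hα : (q.map A.subtype).eval α = 0) : α ∈ A := by
  have hint : IsIntegral A α := by
    refine ⟨q, hq, ?_⟩
    rw [← eval_map]
    exact hα
  obtain ⟨a, ha⟩ := IsIntegrallyClosed.isIntegral_iff.1 hint
  rw [← ha]
  exact a.2

/-- The residue field of a valuation subring of an algebraically closed field is algebraically
closed. -/
theorem isAlgClosed_residueField [IsAlgClosed K] : IsAlgClosed (IsLocalRing.ResidueField A) := by
  apply IsAlgClosed.of_exists_root
  intro p hp hirr
  have hsurj : Function.Surjective (IsLocalRing.residue A) := IsLocalRing.residue_surjective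
  have hlift : p ∈ lifts (IsLocalRing.residue A) := by
    obtain ⟨q, hq⟩ := map_surjective _ hsurj p
    exact ⟨q, hq⟩
  obtain ⟨q, hqmap, hqdeg, hqmonic⟩ := lifts_and_degree_eq_and_monic hlift hp
  have hdeg : (q.map A.subtype).degree ≠ 0 := by
    rw [degree_map_eq_of_injective Subtype.val_injective, hqdeg]
    exact (degree_pos_of_irreducible hirr).ne'
  obtain ⟨α, hα⟩ := IsAlgClosed.exists_root (q.map A.subtype) hdeg
  have hαA : α ∈ A := mem_of_monic_root A hqmonic hα
  refine ⟨IsLocalRing.residue A ⟨α, hαA⟩, ?_⟩
  have h0 : q.eval (⟨α, hαA⟩ : A) = 0 := by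
    apply Subtype.val_injective
    have h1 : (q.map A.subtype).eval α = 0 := hα
    rw [eval_map] at h1
    have h2 : eval₂ A.subtype (A.subtype (⟨α, hαA⟩ : A)) q = 0 := h1
    rw [eval₂_at_apply] at h2
    exact h2
  rw [← hqmap, eval_map, eval₂_at_apply, h0, map_zero]

/-- The residue field has characteristic `ℓ` if the prime `ℓ` is a non-unit of `A`. -/
theorem charP_residueField {ℓ : ℕ} (hℓ : ℓ.Prime) (hA : (ℓ : K) ∈ A.nonunits) :
    CharP (IsLocalRing.ResidueField A) ℓ := by
  rw [CharP.charP_iff_prime_eq_zero hℓ]
  have h1 : ((ℓ : A) : K) ∈ A.nonunits := by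
    have : ((ℓ : A) : K) = (ℓ : K) := by push_cast; rfl
    rw [this]; exact hA
  have h2 : (ℓ : A) ∈ IsLocalRing.maximalIdeal A := ValuationSubring.coe_mem_nonunits_iff.1 h1
  have h3 := (IsLocalRing.residue_eq_zero_iff (ℓ : A)).2 h2
  rw [map_natCast] at h3
  exact h3

end Fermat.Agent.RED
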