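import Fermat.Agent.RED.Link

/-!
# Brick RED: good reduction ⇒ inertia acts trivially on prime-to-`ℓ` torsion

`W : WeierstrassCurve ℤ`, `ℓ` a prime of good reduction, `A` a valuation subring of `ℚ̄` over `ℓ`,
`σ` in the inertia group of `A`, `ℓ ∤ n`, `n • P = 0` ⇒ `σ • P = P`
(easy direction of Néron–Ogg–Shafarevich).  No restriction `ℓ ≠ 2`.
-/

set_option autoImplicit false
set_option linter.unusedSectionVars false

namespace Fermat.Agent.RED

open WeierstrassCurve WeierstrassCurve.Affine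

section Main

variable {W : WeierstrassCurve ℤ} {ℓ : ℕ} [Fact ℓ.Prime]
  {A : ValuationSubring (AlgebraicClosure ℚ)}
  [DecidableEq (IsLocalRing.ResidueField A)] [Algebra (ZMod ℓ) (IsLocalRing.ResidueField A)]

/-- `redQ` is invariant under the inertia group of `A`. -/
theorem redQ_inertia (hΔ : IsUnit (modelA W A).Δ)
    {σ : AlgebraicClosure ℚ ≃ₐ[ℚ] AlgebraicClosure ℚ} (hσ : σ ∈ A.inertiaSubgroupIn ℚ)
    (P : ((W.map (Int.castRingHom ℚ)).toAffine⁄(AlgebraicClosure ℚ)).Point) :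
    redQ (ℓ := ℓ) hΔ (σ • P) = redQ (ℓ := ℓ) hΔ P := by
  rcases P with _ | ⟨x, y, h⟩
  · show redQ (ℓ := ℓ) hΔ
      (σ • (0 : ((W.map (Int.castRingHom ℚ)).toAffine⁄(AlgebraicClosure ℚ)).Point)) =
      redQ (ℓ := ℓ) hΔ 0
    rw [Fermat.Agent.S05.galois_smul_zero]
  · rw [Fermat.Agent.S05.galois_smul_some]
    have hns : ((W.map (Int.castRingHom ℚ)).toAffine⁄(AlgebraicClosure ℚ)).Nonsingular
        (σ x) (σ y) :=
      ((W.map (Int.castRingHom ℚ)).toAffine.baseChange_nonsingular (f := σ.toAlgHom)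
        σ.toAlgHom.injective x y).mpr h
    by_cases hx : x ∈ A
    · have hσx : σ x ∈ A := (Fermat.Agent.S05.inertia_apply_mem_iff hσ x).2 hx
      obtain ⟨hy, h', e⟩ := redQ_some_of_mem (ℓ := ℓ) hΔ h hx
      obtain ⟨hσy, h'', e'⟩ := redQ_some_of_mem (ℓ := ℓ) hΔ hns hσx
      rw [e]
      refine e'.trans (some_congr _ _ ?_ ?_)
      · rw [residue_eq_iff_sub_mem_nonunits]
        exact Fermat.Agent.S05.inertia_apply_sub_mem_nonunits hσ hx
      · rw [residue_eq_iff_sub_mem_nonunits]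
        exact Fermat.Agent.S05.inertia_apply_sub_mem_nonunits hσ hy
    · have hσx : σ x ∉ A := fun h' => hx ((Fermat.Agent.S05.inertia_apply_mem_iff hσ x).1 h')
      have e1 := redQ_some_of_not_mem (ℓ := ℓ) hΔ hns hσx
      have e2 := redQ_some_of_not_mem (ℓ := ℓ) hΔ h hx
      rw [e2]
      exact e1

end Main

/-- **Good reduction ⇒ unramified** (pointwise form): inertia at a good prime `ℓ` fixes every
point of `(W.map (Int.castRingHom ℚ))(ℚ̄)` killed by an integer prime to `ℓ`. -/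
theorem inertia_smul_eq_of_good (W : WeierstrassCurve ℤ) {ℓ : ℕ} (hℓ : ℓ.Prime)
    (hgood : W.IsGoodPrimeFor ℓ) (A : ValuationSubring (AlgebraicClosure ℚ))
    (hA : A.LiesOverPrime ℓ) {σ : AlgebraicClosure ℚ ≃ₐ[ℚ] AlgebraicClosure ℚ}
    (hσ : σ ∈ A.inertiaSubgroupIn ℚ) {n : ℕ} (hn : ¬ ℓ ∣ n)
    (P : ((W.map (Int.castRingHom ℚ)).toAffine⁄(AlgebraicClosure ℚ)).Point) (hP : n • P = 0) :
    σ • P = P := by
  have : Fact ℓ.Prime := ⟨hℓ⟩
  let _ : DecidableEq (IsLocalRing.ResidueField A) := Classical.decEq _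
  have : CharP (IsLocalRing.ResidueField A) ℓ := charP_residueField A hℓ hA
  let _ : Algebra (ZMod ℓ) (IsLocalRing.ResidueField A) := ZMod.algebra _ ℓ
  have hΔ : IsUnit (modelA W A).Δ := isUnit_Δ_modelA hℓ hA hgood
  have hσn : n • (σ • P) = 0 := by
    have := Point.algEquiv_smul_zsmul σ (n : ℤ) P
    rw [natCast_zsmul, natCast_zsmul, hP, smul_zero] at this
    exact this.symm
  apply sub_eq_zero.1
  apply eq_zero_of_redQ_eq_zero (ℓ := ℓ) hΔ hA hn
  · rw [nsmul_sub, hσn, hP, sub_zero]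
  · rw [map_sub, redQ_inertia hΔ hσ, sub_self]

/-- **Good reduction ⇒ unramified**, in the prelude's form: the mod-`n` representation of
`W.map (Int.castRingHom ℚ)` is unramified at every good prime `ℓ ∤ n`. -/
theorem galoisRepUnramifiedAt_of_good (W : WeierstrassCurve ℤ) {ℓ : ℕ} (hℓ : ℓ.Prime)
    (hgood : W.IsGoodPrimeFor ℓ) {n : ℕ} (hn : ¬ ℓ ∣ n) :
    Point.GaloisRepUnramifiedAt (K := AlgebraicClosure ℚ) ℚ
      (W.map (Int.castRingHom ℚ)).toAffine n ℓ := by
  intro A hA σ hσ x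
  apply Subtype.ext
  have hx : n • (x : ((W.map (Int.castRingHom ℚ)).toAffine⁄(AlgebraicClosure ℚ)).Point) = 0 := by
    have := x.2
    rw [Submodule.mem_torsionBy_iff] at this
    rw [← natCast_zsmul]
    exact this
  exact inertia_smul_eq_of_good W hℓ hgood A hA hσ hn x hx

end Fermat.Agent.RED
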