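import Fermat.Agent.RED.ModelTrace
import Fermat.Agent.HW.Char2.Final

/-!
# Brick RED, the LINK for EVERY good prime `ℓ` (including `ℓ = 2`)

Same statements as `RED/Link.lean` and `RED/ModelTrace.lean`, without the hypothesis `ℓ ≠ 2`
(consumes `Fermat.Agent.HW.frobenius_relation_all`).
-/

set_option autoImplicit false

namespace Fermat.Agent.RED

open WeierstrassCurve WeierstrassCurve.Affine WeierstrassCurve.Affine.Point
open Fermat.Agent.EC.DetChar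

/-- **The LINK, every good prime.** -/
theorem frobenius_relation_of_torsion_all (W : WeierstrassCurve ℤ) {ℓ : ℕ} (hℓ : ℓ.Prime)
    (hgood : W.IsGoodPrimeFor ℓ) (A : ValuationSubring (AlgebraicClosure ℚ))
    (hA : A.LiesOverPrime ℓ) (τ : AlgebraicClosure ℚ ≃ₐ[ℚ] AlgebraicClosure ℚ)
    (hτ : A.IsFrobeniusAt τ ℓ) {n : ℕ} (hn : ¬ ℓ ∣ n)
    (P : ((W.map (Int.castRingHom ℚ)).toAffine⁄(AlgebraicClosure ℚ)).Point) (hP : n • P = 0) :
    τ • τ • P - W.apOfModel ℓ • τ • P + (ℓ : ℤ) • P = 0 := by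
  have : Fact ℓ.Prime := ⟨hℓ⟩
  let _ : DecidableEq (IsLocalRing.ResidueField A) := Classical.decEq _
  have : CharP (IsLocalRing.ResidueField A) ℓ := charP_residueField A hℓ hA
  let _ : Algebra (ZMod ℓ) (IsLocalRing.ResidueField A) := ZMod.algebra _ ℓ
  have : IsAlgClosed (IsLocalRing.ResidueField A) := isAlgClosed_residueField A
  have hΔ : IsUnit (modelA W A).Δ := isUnit_Δ_modelA hℓ hA hgood
  have hΔℓ : (W.reductionMod ℓ).Δ ≠ 0 := by
    rw [WeierstrassCurve.reductionMod, WeierstrassCurve.map_Δ]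
    intro h0
    apply hgood
    have : ((W.Δ : ℤ) : ZMod ℓ) = 0 := by simpa using h0
    exact (ZMod.intCast_zmod_eq_zero_iff_dvd W.Δ ℓ).1 this
  have hτn : ∀ Q : ((W.map (Int.castRingHom ℚ)).toAffine⁄(AlgebraicClosure ℚ)).Point,
      n • Q = 0 → n • (τ • Q) = 0 := by
    intro Q hQ
    have := Point.algEquiv_smul_zsmul τ (n : ℤ) Q
    rw [natCast_zsmul, natCast_zsmul, hQ, smul_zero] at this
    exact this.symm
  apply eq_zero_of_redQ_eq_zero (ℓ := ℓ) hΔ hA hn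
  · rw [nsmul_add, nsmul_sub, smul_comm n (W.apOfModel ℓ), smul_comm n (ℓ : ℤ), hP,
      hτn _ (hτn _ hP), hτn _ hP, zsmul_zero, zsmul_zero, sub_zero, add_zero]
  · rw [map_add, map_sub, map_zsmul, map_zsmul, redQ_frob hΔ hτ, redQ_frob hΔ hτ]
    exact Fermat.Agent.HW.frobenius_relation_all ℓ (W.reductionMod ℓ)
      (IsLocalRing.ResidueField A) hΔℓ _

/-- The LINK on `E[n]`, every good prime. -/
theorem frobenius_relation_torsionBy_all (W : WeierstrassCurve ℤ) {ℓ : ℕ} (hℓ : ℓ.Prime)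
    (hgood : W.IsGoodPrimeFor ℓ) (A : ValuationSubring (AlgebraicClosure ℚ))
    (hA : A.LiesOverPrime ℓ) (τ : AlgebraicClosure ℚ ≃ₐ[ℚ] AlgebraicClosure ℚ)
    (hτ : A.IsFrobeniusAt τ ℓ) {n : ℕ} (hn : ¬ ℓ ∣ n)
    (x : Submodule.torsionBy ℤ
      ((W.map (Int.castRingHom ℚ)).toAffine⁄(AlgebraicClosure ℚ)).Point n) :
    τ • τ • x - W.apOfModel ℓ • τ • x + (ℓ : ℤ) • x = 0 := by
  apply Subtype.ext
  have hx : n • (x : ((W.map (Int.castRingHom ℚ)).toAffine⁄(AlgebraicClosure ℚ)).Point) = 0 := by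
    have := x.2
    rw [Submodule.mem_torsionBy_iff] at this
    rw [← natCast_zsmul]
    exact this
  exact frobenius_relation_of_torsion_all W hℓ hgood A hA τ hτ hn x hx

/-- **(REL) for an integral model**, `2` not excluded. -/
theorem frobRel_of_model_all (W : WeierstrassCurve ℤ) (p : ℕ) (S₀ : Finset ℕ)
    (hpS : ∀ ℓ : ℕ, ℓ.Prime → ℓ ∣ p → ℓ ∈ S₀)
    (hbad : ∀ ℓ : ℕ, ℓ.Prime → ℓ ∉ S₀ → W.IsGoodPrimeFor ℓ) :
    FrobRel (W.map (Int.castRingHom ℚ)) p W.apOfModel S₀ := by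
  intro ℓ hℓ hℓS A hA τ hτ x
  have hn : ¬ ℓ ∣ p := fun h => hℓS (hpS ℓ hℓ h)
  exact frobenius_relation_torsionBy_all W hℓ (hbad ℓ hℓ hℓS) A hA τ hτ hn x

/-- The exceptional set `{primes dividing p} ∪ {primes dividing Δ}`. -/
noncomputable def excSetAll (W : WeierstrassCurve ℤ) (p : ℕ) : Finset ℕ :=
  p.primeFactors ∪ W.Δ.natAbs.primeFactors

theorem not_mem_excSetAll_iff (W : WeierstrassCurve ℤ) (hΔ : W.Δ ≠ 0) {p : ℕ} (hp : p ≠ 0)
    {ℓ : ℕ} (hℓ : ℓ.Prime) : ℓ ∉ excSetAll W p ↔ ¬ ℓ ∣ p ∧ W.IsGoodPrimeFor ℓ := by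
  unfold excSetAll WeierstrassCurve.IsGoodPrimeFor
  rw [Finset.mem_union, Nat.mem_primeFactors, Nat.mem_primeFactors, Int.natCast_dvd]
  have hΔ' : W.Δ.natAbs ≠ 0 := Int.natAbs_ne_zero.mpr hΔ
  constructor
  · intro h
    exact ⟨fun hd => h (Or.inl ⟨hℓ, hd, hp⟩), fun hd => h (Or.inr ⟨hℓ, hd, hΔ'⟩)⟩
  · rintro ⟨hd, hg⟩ (h | h)
    · exact hd h.2.1
    · exact hg h.2.1

theorem frobRel_excSetAll (W : WeierstrassCurve ℤ) (hΔ : W.Δ ≠ 0) {p : ℕ} (hp : p ≠ 0) :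
    FrobRel (W.map (Int.castRingHom ℚ)) p W.apOfModel (excSetAll W p) := by
  apply frobRel_of_model_all
  · intro ℓ hℓ hd
    by_contra h
    exact ((not_mem_excSetAll_iff W hΔ hp hℓ).1 h).1 hd
  · intro ℓ hℓ h
    exact ((not_mem_excSetAll_iff W hΔ hp hℓ).1 h).2

variable {p : ℕ} [Fact p.Prime]

/-- **Trace of Frobenius on `E[p]` = `a_ℓ` of the model**, every good prime `ℓ ≠ p`. -/
theorem galoisTrace_frob_of_model_all (W : WeierstrassCurve ℤ) (hΔ : W.Δ ≠ 0)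
    (hirr : W.ModRepIsIrreducible p) {ℓ : ℕ} (hℓ : ℓ.Prime) (hℓp : ℓ ≠ p)
    (hgood : W.IsGoodPrimeFor ℓ) {A : ValuationSubring (AlgebraicClosure ℚ)}
    (hA : A.LiesOverPrime ℓ) {τ : AlgebraicClosure ℚ ≃ₐ[ℚ] AlgebraicClosure ℚ}
    (hτ : A.IsFrobeniusAt τ ℓ) :
    galoisTrace (K := AlgebraicClosure ℚ) ℚ (W.map (Int.castRingHom ℚ)) p τ =
      (W.apOfModel ℓ : ZMod p) := by
  have hp : p.Prime := Fact.out
  have hd : ¬ ℓ ∣ p := fun h => hℓp ((Nat.prime_dvd_prime_iff_eq hℓ hp).1 h)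
  exact galoisTrace_frob_of_irred hirr (card_torsQbar W hΔ hp.ne_zero)
    (frobRel_excSetAll W hΔ hp.ne_zero) hℓ
    ((not_mem_excSetAll_iff W hΔ hp.ne_zero hℓ).2 ⟨hd, hgood⟩) hℓp hA hτ

end Fermat.Agent.RED
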