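import Mathlib
import Fermat.Agent.S05.Kernel

/-!
# Brick RED: reduction of points at a place of good reduction — basic definitions

`A` is a valuation subring of a field `K`, `W₀` a Weierstrass curve with coefficients in `A`
whose discriminant is a unit of `A`.  `curveK` is the curve over `K`, `curveRes` the curve over
the residue field of `A`.  We define the reduction map `redPt` on points and prove its first
properties (compatibility with negation, description of the kernel).
-/

set_option autoImplicit false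

namespace Fermat.Agent.RED

open WeierstrassCurve

variable {K : Type*} [Field K] (A : ValuationSubring K) (W₀ : WeierstrassCurve A)

/-- The curve over the field `K`. -/
abbrev curveK : WeierstrassCurve K := W₀.map A.subtype

/-- The reduced curve over the residue field. -/
abbrev curveRes : WeierstrassCurve (IsLocalRing.ResidueField A) :=
  W₀.map (IsLocalRing.residue A)

lemma curveK_a₁ : (curveK A W₀).a₁ = (W₀.a₁ : K) := rfl
lemma curveK_a₂ : (curveK A W₀).a₂ = (W₀.a₂ : K) := rfl
lemma curveK_a₃ : (curveK A W₀).a₃ = (W₀.a₃ : K) := rfl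
lemma curveK_a₄ : (curveK A W₀).a₄ = (W₀.a₄ : K) := rfl
lemma curveK_a₆ : (curveK A W₀).a₆ = (W₀.a₆ : K) := rfl

lemma curveK_a₁_mem : (curveK A W₀).a₁ ∈ A := (W₀.a₁).2
lemma curveK_a₂_mem : (curveK A W₀).a₂ ∈ A := (W₀.a₂).2
lemma curveK_a₃_mem : (curveK A W₀).a₃ ∈ A := (W₀.a₃).2
lemma curveK_a₄_mem : (curveK A W₀).a₄ ∈ A := (W₀.a₄).2
lemma curveK_a₆_mem : (curveK A W₀).a₆ ∈ A := (W₀.a₆).2

/-- On an integral Weierstrass equation, an integral `x` forces an integral `y`. -/
theorem y_mem_of_x_mem {x y : K} (h : (curveK A W₀).toAffine.Equation x y) (hx : x ∈ A) :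
    y ∈ A := by
  by_contra hy
  obtain ⟨hy0, hv⟩ := Fermat.Agent.S05.vs_inv_of_not_mem A hy
  have heq := (Affine.equation_iff _ _).1 h
  have key : (1 : K) = y⁻¹ * ((x ^ 3 + (curveK A W₀).a₂ * x ^ 2 + (curveK A W₀).a₄ * x
      + (curveK A W₀).a₆) * y⁻¹ - (curveK A W₀).a₁ * x - (curveK A W₀).a₃) := by
    field_simp
    linear_combination heq
  have hmem : y⁻¹ * ((x ^ 3 + (curveK A W₀).a₂ * x ^ 2 + (curveK A W₀).a₄ * x
      + (curveK A W₀).a₆) * y⁻¹ - (curveK A W₀).a₁ * x - (curveK A W₀).a₃) ∈ A.nonunits := by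
    refine Fermat.Agent.S05.vs_mul_mem_nonunits' A hv ?_
    exact sub_mem (sub_mem (mul_mem (add_mem (add_mem (add_mem (pow_mem hx 3)
      (mul_mem (curveK_a₂_mem A W₀) (pow_mem hx 2))) (mul_mem (curveK_a₄_mem A W₀) hx))
      (curveK_a₆_mem A W₀)) (Fermat.Agent.S05.vs_mem_of_nonunits A hv))
      (mul_mem (curveK_a₁_mem A W₀) hx)) (curveK_a₃_mem A W₀)
  rw [← key] at hmem
  have : A.valuation (1 : K) < 1 := A.mem_nonunits_iff.1 hmem
  rw [map_one] at this
  exact lt_irrefl _ this

/-- The equation over `K` at integral coordinates descends to `A`. -/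
theorem equation_of_coe {a b : A} (h : (curveK A W₀).toAffine.Equation (a : K) (b : K)) :
    W₀.toAffine.Equation a b :=
  (Affine.map_equation (W := W₀) (f := A.subtype) Subtype.val_injective a b).1 h

variable {A W₀}

/-- Good reduction: the reduced discriminant is nonzero. -/
theorem curveRes_Δ_ne_zero (hΔ : IsUnit W₀.Δ) : (curveRes A W₀).Δ ≠ 0 := by
  rw [WeierstrassCurve.map_Δ]
  intro h0
  have h1 : IsUnit ((IsLocalRing.residue A) W₀.Δ) := hΔ.map _
  rw [h0] at h1
  exact not_isUnit_zero h1

/-- The reduction of an integral point is a nonsingular point of the reduced curve. -/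
theorem nonsingular_res (hΔ : IsUnit W₀.Δ) {a b : A}
    (h : (curveK A W₀).toAffine.Equation (a : K) (b : K)) :
    (curveRes A W₀).toAffine.Nonsingular (IsLocalRing.residue A a) (IsLocalRing.residue A b) :=
  (Affine.equation_iff_nonsingular_of_Δ_ne_zero (curveRes_Δ_ne_zero hΔ)).1
    ((equation_of_coe A W₀ h).map (IsLocalRing.residue A))

/-- Equality of two `some` points from equality of coordinates. -/
theorem some_congr {F : Type*} [CommRing F] {W : WeierstrassCurve F} {x y x' y' : F}
    (h : W.toAffine.Nonsingular x y) (h' : W.toAffine.Nonsingular x' y')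
    (hx : x = x') (hy : y = y') : Affine.Point.some x y h = Affine.Point.some x' y' h' := by
  subst hx; subst hy; rfl

open Classical in
/-- **The reduction map** on points: an affine point with integral `x` goes to its
coordinatewise reduction, every other point goes to `0`. -/
noncomputable def redPt (hΔ : IsUnit W₀.Δ) :
    (curveK A W₀).toAffine.Point → (curveRes A W₀).toAffine.Point
  | .zero => 0
  | .some x y h =>
    if hx : x ∈ A then
      Affine.Point.some (IsLocalRing.residue A ⟨x, hx⟩)
        (IsLocalRing.residue A ⟨y, y_mem_of_x_mem A W₀ h.1 hx⟩)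
        (nonsingular_res hΔ (a := ⟨x, hx⟩) (b := ⟨y, y_mem_of_x_mem A W₀ h.1 hx⟩) h.1)
    else 0

@[simp] theorem redPt_zero (hΔ : IsUnit W₀.Δ) : redPt hΔ (0 : (curveK A W₀).toAffine.Point) = 0 :=
  rfl

theorem redPt_some_of_mem (hΔ : IsUnit W₀.Δ) {x y : K}
    (h : (curveK A W₀).toAffine.Nonsingular x y) (hx : x ∈ A) :
    redPt hΔ (Affine.Point.some x y h) =
      Affine.Point.some (IsLocalRing.residue A ⟨x, hx⟩)
        (IsLocalRing.residue A ⟨y, y_mem_of_x_mem A W₀ h.1 hx⟩)
        (nonsingular_res hΔ (a := ⟨x, hx⟩) (b := ⟨y, y_mem_of_x_mem A W₀ h.1 hx⟩) h.1) := by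
  simp only [redPt, dif_pos hx]

theorem redPt_some_of_not_mem (hΔ : IsUnit W₀.Δ) {x y : K}
    (h : (curveK A W₀).toAffine.Nonsingular x y) (hx : x ∉ A) :
    redPt hΔ (Affine.Point.some x y h) = 0 := by
  simp only [redPt, dif_neg hx]

/-- Reduction of a point given by elements of `A`. -/
theorem redPt_coe (hΔ : IsUnit W₀.Δ) {a b : A}
    (h : (curveK A W₀).toAffine.Nonsingular (a : K) (b : K)) :
    redPt hΔ (Affine.Point.some (a : K) (b : K) h) =
      Affine.Point.some (IsLocalRing.residue A a) (IsLocalRing.residue A b)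
        (nonsingular_res hΔ h.1) := by
  rw [redPt_some_of_mem hΔ h a.2]

/-- The kernel predicate: `P = 0` or `x(P) ∉ A`. -/
def InKer (P : (curveK A W₀).toAffine.Point) : Prop :=
  match P with
  | .zero => True
  | .some x _ _ => x ∉ A

theorem inKer_zero : InKer (0 : (curveK A W₀).toAffine.Point) := trivial

theorem inKer_some_iff {x y : K} (h : (curveK A W₀).toAffine.Nonsingular x y) :
    InKer (Affine.Point.some x y h) ↔ x ∉ A := Iff.rfl

theorem redPt_eq_zero_iff (hΔ : IsUnit W₀.Δ) (P : (curveK A W₀).toAffine.Point) :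
    redPt hΔ P = 0 ↔ InKer P := by
  rcases P with _ | ⟨x, y, h⟩
  · exact ⟨fun _ => trivial, fun _ => rfl⟩
  · by_cases hx : x ∈ A
    · rw [redPt_some_of_mem hΔ h hx]
      exact ⟨fun h0 => absurd h0 (Affine.Point.some_ne_zero _), fun hk => absurd hx hk⟩
    · rw [redPt_some_of_not_mem hΔ h hx]
      exact ⟨fun _ => hx, fun _ => rfl⟩

theorem inKer_neg {P : (curveK A W₀).toAffine.Point} (hP : InKer P) : InKer (-P) := by
  rcases P with _ | ⟨x, y, h⟩
  · exact hP
  · exact hP

theorem redPt_neg (hΔ : IsUnit W₀.Δ) (P : (curveK A W₀).toAffine.Point) :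
    redPt hΔ (-P) = -redPt hΔ P := by
  rcases P with _ | ⟨x, y, h⟩
  · rfl
  · by_cases hx : x ∈ A
    · have hy : y ∈ A := y_mem_of_x_mem A W₀ h.1 hx
      rw [Affine.Point.neg_some, redPt_some_of_mem hΔ _ hx, redPt_some_of_mem hΔ h hx,
        Affine.Point.neg_some]
      refine some_congr _ _ rfl ?_
      have e : (curveK A W₀).toAffine.negY x y
          = ((W₀.toAffine.negY ⟨x, hx⟩ ⟨y, hy⟩ : A) : K) := by
        simp only [Affine.negY]
        push_cast
        rfl
      have e2 : (⟨(curveK A W₀).toAffine.negY x y,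
          y_mem_of_x_mem A W₀ ((Affine.nonsingular_neg ..).mpr h).1 hx⟩ : A)
          = W₀.toAffine.negY ⟨x, hx⟩ ⟨y, hy⟩ := Subtype.ext e
      rw [e2]
      exact (Affine.map_negY (W' := W₀) (IsLocalRing.residue A) _ _).symm
    · rw [Affine.Point.neg_some, redPt_some_of_not_mem hΔ _ hx, redPt_some_of_not_mem hΔ h hx]
      exact Affine.Point.neg_zero.symm

end Fermat.Agent.RED
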