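import Mathlib
import Fermat.Agent.RED.Basic
import Fermat.Agent.S13.Local.KeyAny

/-!
# Brick RED, steps F2, F3, F4: the kernel of reduction

* `sub_inKer_of_res_eq` (F2): two integral points with the same reduction differ by a point of
  the kernel (from `Fermat.Agent.S13.key_nonsing_any`).
* `add_ker_x` (F4): adding a nonzero point of the kernel to an integral point gives an integral
  point with the same `x`-coordinate modulo the maximal ideal (x-only formulas).
* `inKer_add` (F3): the kernel is closed under addition.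
-/

set_option autoImplicit false
set_option linter.unusedSectionVars false

namespace Fermat.Agent.RED

open WeierstrassCurve Fermat.Agent.S05

variable {K : Type*} [Field K] [DecidableEq K] {A : ValuationSubring K}
  {W₀ : WeierstrassCurve A}

/-- membership in `A` in terms of the valuation -/
theorem val_le_one_of_mem {x : K} (hx : x ∈ A) : A.valuation x ≤ 1 :=
  (A.valuation_le_one_iff x).2 hx

theorem residue_eq_iff_sub_mem_nonunits {a b : A} :
    IsLocalRing.residue A a = IsLocalRing.residue A b ↔ ((a : K) - (b : K)) ∈ A.nonunits := by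
  rw [← sub_eq_zero, ← map_sub, IsLocalRing.residue_eq_zero_iff]
  have : ((a : K) - (b : K)) = ((a - b : A) : K) := by push_cast; rfl
  rw [this, ValuationSubring.coe_mem_nonunits_iff]

theorem residue_ne_zero_iff_val_eq_one {a : A} :
    IsLocalRing.residue A a ≠ 0 ↔ A.valuation (a : K) = 1 := by
  rw [IsLocalRing.residue_ne_zero_iff_isUnit, ValuationSubring.valuation_eq_one_iff]

/-- **F2.**  Two distinct integral points with the same reduction differ by a nonzero point
of the kernel of reduction. -/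
theorem sub_inKer_of_res_eq (hΔ : IsUnit W₀.Δ) {a₁ b₁ a₂ b₂ : A}
    (h₁ : (curveK A W₀).toAffine.Nonsingular (a₁ : K) (b₁ : K))
    (h₂ : (curveK A W₀).toAffine.Nonsingular (a₂ : K) (b₂ : K))
    (hx : IsLocalRing.residue A a₁ = IsLocalRing.residue A a₂)
    (hy : IsLocalRing.residue A b₁ = IsLocalRing.residue A b₂) :
    InKer (Affine.Point.some _ _ h₁ - Affine.Point.some _ _ h₂) := by
  by_cases hne : Affine.Point.some _ _ h₁ = Affine.Point.some _ _ h₂
  · rw [hne, sub_self]; exact inKer_zero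
  · -- nonsingularity of the reduction of the second point
    have hns := nonsingular_res hΔ h₂.1
    rw [Affine.nonsingular_iff'] at hns
    have hns' : A.valuation (Fermat.Agent.S13.polyY (curveK A W₀) (a₂ : K) (b₂ : K)) = 1 ∨
        A.valuation (Fermat.Agent.S13.polyX (curveK A W₀) (a₂ : K) (b₂ : K)) = 1 := by
      rcases hns.2 with h | h
      · right
        have e : Fermat.Agent.S13.polyX (curveK A W₀) (a₂ : K) (b₂ : K) =
            ((3 * a₂ ^ 2 + 2 * W₀.a₂ * a₂ + W₀.a₄ - W₀.a₁ * b₂ : A) : K) := by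
          simp only [Fermat.Agent.S13.polyX]; push_cast; rfl
        rw [e, ← residue_ne_zero_iff_val_eq_one]
        intro h0
        apply h
        have : (curveRes A W₀).a₁ * IsLocalRing.residue A b₂
            - (3 * IsLocalRing.residue A a₂ ^ 2 + 2 * (curveRes A W₀).a₂ * IsLocalRing.residue A a₂
              + (curveRes A W₀).a₄)
            = -IsLocalRing.residue A (3 * a₂ ^ 2 + 2 * W₀.a₂ * a₂ + W₀.a₄ - W₀.a₁ * b₂) := by
          simp only [map_sub, map_add, map_mul, map_pow, map_ofNat]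
          have e₂ : (curveRes A W₀).a₂ = IsLocalRing.residue A W₀.a₂ := rfl
          have e₄ : (curveRes A W₀).a₄ = IsLocalRing.residue A W₀.a₄ := rfl
          have e₁ : (curveRes A W₀).a₁ = IsLocalRing.residue A W₀.a₁ := rfl
          rw [e₁, e₂, e₄]
          ring
        rw [this, h0, neg_zero]
      · left
        have e : Fermat.Agent.S13.polyY (curveK A W₀) (a₂ : K) (b₂ : K) =
            ((2 * b₂ + W₀.a₁ * a₂ + W₀.a₃ : A) : K) := by
          simp only [Fermat.Agent.S13.polyY]; push_cast; rfl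
        rw [e, ← residue_ne_zero_iff_val_eq_one]
        intro h0
        apply h
        have : 2 * IsLocalRing.residue A b₂ + (curveRes A W₀).a₁ * IsLocalRing.residue A a₂
            + (curveRes A W₀).a₃ = IsLocalRing.residue A (2 * b₂ + W₀.a₁ * a₂ + W₀.a₃) := by
          simp only [map_add, map_mul, map_ofNat]
          rfl
        rw [this, h0]
    obtain ⟨x'', y'', h'', hsub, hlt⟩ :=
      Fermat.Agent.S13.key_nonsing_any A.valuation
        (val_le_one_of_mem (curveK_a₁_mem A W₀)) (val_le_one_of_mem (curveK_a₂_mem A W₀))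
        (val_le_one_of_mem (curveK_a₃_mem A W₀)) h₂ h₁
        (val_le_one_of_mem a₂.2) (val_le_one_of_mem b₂.2)
        (A.mem_nonunits_iff.1 (residue_eq_iff_sub_mem_nonunits.1 hx))
        (A.mem_nonunits_iff.1 (residue_eq_iff_sub_mem_nonunits.1 hy)) hne hns'
    rw [hsub, inKer_some_iff]
    intro hmem
    exact absurd (val_le_one_of_mem hmem) (not_le.2 hlt)

/-- **F4.**  Adding a nonzero point of the kernel to an integral point: the sum is integral with
the same `x`-coordinate modulo the maximal ideal. -/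
theorem add_ker_x {x₁ y₁ x₂ y₂ : K}
    (h₁ : (curveK A W₀).toAffine.Nonsingular x₁ y₁)
    (h₂ : (curveK A W₀).toAffine.Nonsingular x₂ y₂) (hx₁ : x₁ ∈ A) (hx₂ : x₂ ∉ A) :
    ∃ (X Y : K) (h : (curveK A W₀).toAffine.Nonsingular X Y),
      Affine.Point.some _ _ h₁ + Affine.Point.some _ _ h₂ = Affine.Point.some X Y h ∧
      X ∈ A ∧ X - x₁ ∈ A.nonunits := by
  have hx : x₁ ≠ x₂ := fun h => hx₂ (h ▸ hx₁)
  obtain ⟨Xp, Yp, Xm, Ym, hp, hm, hadd, hsub, hmul, hsum⟩ := xo_add_sub_points h₁ h₂ hx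
  obtain ⟨hb₂, hb₄, hb₆, hb₈⟩ := kernel_b_mem (W := curveK A W₀) A (curveK_a₁_mem A W₀)
    (curveK_a₂_mem A W₀) (curveK_a₃_mem A W₀) (curveK_a₄_mem A W₀) (curveK_a₆_mem A W₀)
  obtain ⟨hx₂0, hu⟩ := vs_inv_of_not_mem A hx₂
  set u : K := x₂⁻¹ with hudef
  have huA : u ∈ A := vs_mem_of_nonunits A hu
  have hxu : x₂ * u = 1 := mul_inv_cancel₀ hx₂0
  -- `t = 1 - x₁ u` is a unit
  have hts : -(x₁ * u) ∈ A.nonunits := neg_mem (vs_mul_mem_nonunits A hx₁ hu)
  obtain ⟨ht0, htA, htinvA⟩ := vs_one_add A hts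
  set t : K := 1 + -(x₁ * u) with htdef
  have htinv1 : t⁻¹ - 1 ∈ A.nonunits := by
    have : t⁻¹ - 1 = t⁻¹ * (x₁ * u) := by
      field_simp
      rw [htdef]; ring
    rw [this]
    exact vs_mul_mem_nonunits A htinvA (vs_mul_mem_nonunits A hx₁ hu)
  have hd2 : (x₁ - x₂) ^ 2 ≠ 0 := pow_ne_zero 2 (sub_ne_zero.2 hx)
  -- the sum and the product
  set s : K := Xp + Xm with hsdef
  set p : K := Xp * Xm with hpdef
  set G' : K := 2 * x₁ * (x₁ * u + 1) + (curveK A W₀).b₂ * (x₁ * u)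
    + (curveK A W₀).b₄ * (x₁ * u ^ 2 + u) + (curveK A W₀).b₆ * u ^ 2 with hG'
  set F' : K := x₁ ^ 2 - (curveK A W₀).b₄ * (x₁ * u) - (curveK A W₀).b₆ * (x₁ * u ^ 2 + u)
    - (curveK A W₀).b₈ * u ^ 2 with hF'
  have hsG : s = G' * (t⁻¹) ^ 2 := by
    have e1 : s = xoG (curveK A W₀) x₁ x₂ / (x₁ - x₂) ^ 2 := by
      rw [eq_div_iff hd2]; exact hsum
    rw [e1, hG', htdef, hudef]
    simp only [xoG]
    have hne : x₂ - x₁ ≠ 0 := sub_ne_zero.2 (Ne.symm hx)
    have hne' : x₁ - x₂ ≠ 0 := sub_ne_zero.2 hx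
    have ht' : (1 + -(x₁ * x₂⁻¹)) = (x₂ - x₁) / x₂ := by field_simp; ring
    rw [ht']
    field_simp
    ring
  have hpF : p = F' * (t⁻¹) ^ 2 := by
    have e1 : p = xoF (curveK A W₀) x₁ x₂ / (x₁ - x₂) ^ 2 := by
      rw [eq_div_iff hd2]; exact hmul
    rw [e1, hF', htdef, hudef]
    simp only [xoF]
    have hne : x₂ - x₁ ≠ 0 := sub_ne_zero.2 (Ne.symm hx)
    have hne' : x₁ - x₂ ≠ 0 := sub_ne_zero.2 hx
    have ht' : (1 + -(x₁ * x₂⁻¹)) = (x₂ - x₁) / x₂ := by field_simp; ring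
    rw [ht']
    field_simp
    ring
  have hG'A : G' ∈ A := by
    rw [hG']
    exact add_mem (add_mem (add_mem (mul_mem (mul_mem (ofNat_mem A 2) hx₁)
      (add_mem (mul_mem hx₁ huA) A.one_mem)) (mul_mem hb₂ (mul_mem hx₁ huA)))
      (mul_mem hb₄ (add_mem (mul_mem hx₁ (pow_mem huA 2)) huA))) (mul_mem hb₆ (pow_mem huA 2))
  have hF'A : F' ∈ A := by
    rw [hF']
    exact sub_mem (sub_mem (sub_mem (pow_mem hx₁ 2) (mul_mem hb₄ (mul_mem hx₁ huA)))
      (mul_mem hb₆ (add_mem (mul_mem hx₁ (pow_mem huA 2)) huA))) (mul_mem hb₈ (pow_mem huA 2))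
  have hu2 : u ^ 2 ∈ A.nonunits := by
    rw [pow_two]; exact vs_mul_mem_nonunits A huA hu
  have hG'2 : G' - 2 * x₁ ∈ A.nonunits := by
    have : G' - 2 * x₁ = u * (2 * x₁ * x₁ + (curveK A W₀).b₂ * x₁
        + (curveK A W₀).b₄ * (x₁ * u + 1) + (curveK A W₀).b₆ * u) := by
      rw [hG']; ring
    rw [this]
    refine vs_mul_mem_nonunits' A hu ?_
    exact add_mem (add_mem (add_mem (mul_mem (mul_mem (ofNat_mem A 2) hx₁) hx₁) (mul_mem hb₂ hx₁))
      (mul_mem hb₄ (add_mem (mul_mem hx₁ huA) A.one_mem))) (mul_mem hb₆ huA)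
  have hF'2 : F' - x₁ ^ 2 ∈ A.nonunits := by
    have : F' - x₁ ^ 2 = u * (-((curveK A W₀).b₄ * x₁) - (curveK A W₀).b₆ * (x₁ * u + 1)
        - (curveK A W₀).b₈ * u) := by
      rw [hF']; ring
    rw [this]
    refine vs_mul_mem_nonunits' A hu ?_
    exact sub_mem (sub_mem (neg_mem (mul_mem hb₄ hx₁))
      (mul_mem hb₆ (add_mem (mul_mem hx₁ huA) A.one_mem))) (mul_mem hb₈ huA)
  have htinv2A : (t⁻¹) ^ 2 ∈ A := pow_mem htinvA 2
  have htinv2 : (t⁻¹) ^ 2 - 1 ∈ A.nonunits := by
    have : (t⁻¹) ^ 2 - 1 = (t⁻¹ - 1) * (t⁻¹ + 1) := by ring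
    rw [this]
    exact vs_mul_mem_nonunits' A htinv1 (add_mem htinvA A.one_mem)
  have hsA : s ∈ A := by rw [hsG]; exact mul_mem hG'A htinv2A
  have hpA : p ∈ A := by rw [hpF]; exact mul_mem hF'A htinv2A
  have hs2 : s - 2 * x₁ ∈ A.nonunits := by
    have : s - 2 * x₁ = G' * ((t⁻¹) ^ 2 - 1) + (G' - 2 * x₁) := by rw [hsG]; ring
    rw [this]
    exact add_mem (vs_mul_mem_nonunits A hG'A htinv2) hG'2
  have hp2 : p - x₁ ^ 2 ∈ A.nonunits := by
    have : p - x₁ ^ 2 = F' * ((t⁻¹) ^ 2 - 1) + (F' - x₁ ^ 2) := by rw [hpF]; ring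
    rw [this]
    exact add_mem (vs_mul_mem_nonunits A hF'A htinv2) hF'2
  -- `Xp` is integral
  have hXpA : Xp ∈ A := by
    by_contra hXp
    obtain ⟨hXp0, hw⟩ := vs_inv_of_not_mem A hXp
    have hwA := vs_mem_of_nonunits A hw
    have key : (1 : K) = s * Xp⁻¹ - p * (Xp⁻¹) ^ 2 := by
      rw [hsdef, hpdef]
      field_simp
      ring
    have hmem : s * Xp⁻¹ - p * (Xp⁻¹) ^ 2 ∈ A.nonunits := by
      refine sub_mem (vs_mul_mem_nonunits A hsA hw) (vs_mul_mem_nonunits A hpA ?_)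
      rw [pow_two]; exact vs_mul_mem_nonunits A hwA hw
    rw [← key] at hmem
    have : A.valuation (1 : K) < 1 := A.mem_nonunits_iff.1 hmem
    rw [map_one] at this
    exact lt_irrefl _ this
  have hXmA : Xm ∈ A := by
    have : Xm = s - Xp := by rw [hsdef]; ring
    rw [this]; exact sub_mem hsA hXpA
  have hprod : (Xp - x₁) * (Xm - x₁) ∈ A.nonunits := by
    have : (Xp - x₁) * (Xm - x₁) = (p - x₁ ^ 2) - x₁ * (s - 2 * x₁) := by
      rw [hsdef, hpdef]; ring
    rw [this]
    exact sub_mem hp2 (vs_mul_mem_nonunits A hx₁ hs2)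
  refine ⟨Xp, Yp, hp, hadd, hXpA, ?_⟩
  rcases vs_prime A (sub_mem hXpA hx₁) (sub_mem hXmA hx₁) hprod with h | h
  · exact h
  · have : Xp - x₁ = (s - 2 * x₁) - (Xm - x₁) := by rw [hsdef]; ring
    rw [this]
    exact sub_mem hs2 h

/-- **F3.**  The kernel of reduction is closed under addition. -/
theorem inKer_add {P Q : (curveK A W₀).toAffine.Point} (hP : InKer P) (hQ : InKer Q) :
    InKer (P + Q) := by
  rcases P with _ | ⟨x₁, y₁, h₁⟩
  · have : (Affine.Point.zero : (curveK A W₀).toAffine.Point) = 0 := rfl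
    rw [this, zero_add]; exact hQ
  rcases Q with _ | ⟨x₂, y₂, h₂⟩
  · have : (Affine.Point.zero : (curveK A W₀).toAffine.Point) = 0 := rfl
    rw [this, add_zero]; exact hP
  rw [inKer_some_iff] at hP hQ
  -- the sum
  rcases hR : Affine.Point.some _ _ h₁ + Affine.Point.some _ _ h₂ with _ | ⟨X, Y, h⟩
  · exact inKer_zero
  · rw [inKer_some_iff]
    intro hX
    -- `P = R + (-Q)` would be integral
    have hnegQ : (curveK A W₀).toAffine.Nonsingular x₂ ((curveK A W₀).toAffine.negY x₂ y₂) :=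
      (Affine.nonsingular_neg ..).mpr h₂
    obtain ⟨X', Y', h', hadd, hX', -⟩ := add_ker_x h hnegQ hX hQ
    have hneg : Affine.Point.some x₂ ((curveK A W₀).toAffine.negY x₂ y₂) hnegQ =
        -Affine.Point.some x₂ y₂ h₂ := (Affine.Point.neg_some h₂).symm
    rw [hneg, ← hR] at hadd
    have hP' : Affine.Point.some _ _ h₁ = Affine.Point.some X' Y' h' := by
      rw [← hadd]
      abel
    have hxe : x₁ = X' := by
      injection hP'
    exact hP (hxe ▸ hX')

end Fermat.Agent.RED
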