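import Mathlib
import Fermat.Agent.RED.Basic

/-!
# Brick RED, step F1: the slope reduces

If `P`, `Q` are integral points whose reductions are not opposite, the slope of the line through
them is integral and reduces to the slope of the line through the reductions; hence
`red (P + Q) = red P + red Q` in this case.
-/

set_option autoImplicit false

namespace Fermat.Agent.RED

open WeierstrassCurve

variable {K : Type*} [Field K] {A : ValuationSubring K} {W₀ : WeierstrassCurve A}

/-- An element of `A` with nonzero residue has an inverse in `A`. -/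
theorem exists_inv_of_residue_ne_zero {d : A} (hd : IsLocalRing.residue A d ≠ 0) :
    ∃ e : A, d * e = 1 := by
  obtain ⟨u, hu⟩ := (IsLocalRing.residue_ne_zero_iff_isUnit d).1 hd
  exact ⟨↑u⁻¹, by rw [← hu]; exact u.mul_inv⟩

/-- Division by a unit of `A`: the quotient in `K` and in the residue field. -/
theorem div_of_mul_eq_one {n d e : A} (he : d * e = 1) :
    ((n * e : A) : K) = (n : K) / (d : K) ∧
      IsLocalRing.residue A (n * e) = IsLocalRing.residue A n / IsLocalRing.residue A d := by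
  have hK : (d : K) * (e : K) = 1 := by exact_mod_cast congrArg (fun z : A => (z : K)) he
  have hd0 : (d : K) ≠ 0 := left_ne_zero_of_mul_eq_one hK
  have hk : IsLocalRing.residue A d * IsLocalRing.residue A e = 1 := by
    rw [← map_mul, he, map_one]
  have hd0' : IsLocalRing.residue A d ≠ 0 := left_ne_zero_of_mul_eq_one hk
  constructor
  · push_cast
    rw [eq_div_iff hd0, mul_assoc, mul_comm (e : K), hK, mul_one]
  · rw [map_mul, eq_div_iff hd0', mul_assoc, mul_comm (IsLocalRing.residue A e), hk, mul_one]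

variable [DecidableEq K] [DecidableEq (IsLocalRing.ResidueField A)]

/-- The secant identity: `(y₁ - y₂)(y₁ - negY x₂ y₂) = (x₁ - x₂) N`. -/
theorem secant_identity {R : Type*} [CommRing R] {W : WeierstrassCurve R} {x₁ y₁ x₂ y₂ : R}
    (h₁ : W.toAffine.Equation x₁ y₁) (h₂ : W.toAffine.Equation x₂ y₂) :
    (y₁ - y₂) * (y₁ - W.toAffine.negY x₂ y₂) =
      (x₁ - x₂) * (x₁ ^ 2 + x₁ * x₂ + x₂ ^ 2 + W.a₂ * (x₁ + x₂) + W.a₄ - W.a₁ * y₁) := by
  have e₁ := (Affine.equation_iff _ _).1 h₁
  have e₂ := (Affine.equation_iff _ _).1 h₂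
  simp only [Affine.negY]
  linear_combination e₁ - e₂

/-- **F1, slope form.**  The slope of two integral points with non-opposite reductions is
integral and reduces to the slope of the reductions. -/
theorem exists_slope {a₁ b₁ a₂ b₂ : A}
    (h₁ : W₀.toAffine.Equation a₁ b₁) (h₂ : W₀.toAffine.Equation a₂ b₂)
    (hne : ¬(IsLocalRing.residue A a₁ = IsLocalRing.residue A a₂ ∧
      IsLocalRing.residue A b₁ = (curveRes A W₀).toAffine.negY (IsLocalRing.residue A a₂)
        (IsLocalRing.residue A b₂))) :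
    ∃ l : A, (l : K) = (curveK A W₀).toAffine.slope (a₁ : K) (a₂ : K) (b₁ : K) (b₂ : K) ∧
      IsLocalRing.residue A l = (curveRes A W₀).toAffine.slope (IsLocalRing.residue A a₁)
        (IsLocalRing.residue A a₂) (IsLocalRing.residue A b₁) (IsLocalRing.residue A b₂) := by
  have h₁K : (curveK A W₀).toAffine.Equation (a₁ : K) (b₁ : K) := h₁.map A.subtype
  have h₂K : (curveK A W₀).toAffine.Equation (a₂ : K) (b₂ : K) := h₂.map A.subtype
  have h₁k := h₁.map (IsLocalRing.residue A)
  have h₂k := h₂.map (IsLocalRing.residue A)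
  by_cases hx : IsLocalRing.residue A a₁ = IsLocalRing.residue A a₂
  · -- same `x` in the residue field, `y₁ ≠ negY`
    have hy : IsLocalRing.residue A b₁ ≠ (curveRes A W₀).toAffine.negY
        (IsLocalRing.residue A a₂) (IsLocalRing.residue A b₂) := fun h => hne ⟨hx, h⟩
    have hyy : IsLocalRing.residue A b₁ = IsLocalRing.residue A b₂ :=
      Affine.Y_eq_of_Y_ne h₁k h₂k hx hy
    -- the denominator
    set D : A := b₁ - W₀.toAffine.negY a₂ b₂ with hD
    set N : A := a₁ ^ 2 + a₁ * a₂ + a₂ ^ 2 + W₀.a₂ * (a₁ + a₂) + W₀.a₄ - W₀.a₁ * b₁ with hN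
    have hDres : IsLocalRing.residue A D = IsLocalRing.residue A b₁ -
        (curveRes A W₀).toAffine.negY (IsLocalRing.residue A a₂) (IsLocalRing.residue A b₂) := by
      rw [hD, map_sub, Affine.map_negY]
    have hDne : IsLocalRing.residue A D ≠ 0 := by
      rw [hDres]; exact sub_ne_zero.2 hy
    obtain ⟨e, he⟩ := exists_inv_of_residue_ne_zero hDne
    obtain ⟨eK, ek⟩ := div_of_mul_eq_one (K := K) (n := N) he
    have hDK0 : (D : K) ≠ 0 := by
      have hK : (D : K) * (e : K) = 1 := by exact_mod_cast congrArg (fun z : A => (z : K)) he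
      exact left_ne_zero_of_mul_eq_one hK
    have hDK : (D : K) = (b₁ : K) - (curveK A W₀).toAffine.negY (a₂ : K) (b₂ : K) := by
      rw [hD]
      simp only [Affine.negY]
      push_cast
      rfl
    have hNK : (N : K) = (a₁ : K) ^ 2 + (a₁ : K) * (a₂ : K) + (a₂ : K) ^ 2
        + (curveK A W₀).a₂ * ((a₁ : K) + (a₂ : K)) + (curveK A W₀).a₄
        - (curveK A W₀).a₁ * (b₁ : K) := by
      rw [hN]
      push_cast
      rfl
    refine ⟨N * e, ?_, ?_⟩
    · rw [eK]
      by_cases hxK : (a₁ : K) = (a₂ : K)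
      · have hyK : (b₁ : K) ≠ (curveK A W₀).toAffine.negY (a₂ : K) (b₂ : K) := by
          intro h
          apply hDK0
          rw [hDK, h, sub_self]
        have hyyK : (b₁ : K) = (b₂ : K) := Affine.Y_eq_of_Y_ne h₁K h₂K hxK hyK
        rw [Affine.slope_of_Y_ne hxK hyK, hDK, hNK, ← hyyK, ← hxK]
        congr 1
        ring
      · rw [Affine.slope_of_X_ne hxK, div_eq_div_iff hDK0 (sub_ne_zero.2 hxK), hDK, hNK]
        have := secant_identity h₁K h₂K
        linear_combination -this
    · rw [ek, Affine.slope_of_Y_ne hx hy, hDres, ← hyy, ← hx]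
      congr 1
      rw [hN]
      simp only [map_sub, map_add, map_mul, map_pow, ← hx]
      have e₂ : (curveRes A W₀).a₂ = IsLocalRing.residue A W₀.a₂ := rfl
      have e₄ : (curveRes A W₀).a₄ = IsLocalRing.residue A W₀.a₄ := rfl
      have e₁ : (curveRes A W₀).a₁ = IsLocalRing.residue A W₀.a₁ := rfl
      rw [e₁, e₂, e₄]
      ring
  · -- different `x` in the residue field
    have hDne : IsLocalRing.residue A (a₁ - a₂) ≠ 0 := by
      rw [map_sub]; exact sub_ne_zero.2 hx
    obtain ⟨e, he⟩ := exists_inv_of_residue_ne_zero hDne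
    obtain ⟨eK, ek⟩ := div_of_mul_eq_one (K := K) (n := b₁ - b₂) he
    have hxK : (a₁ : K) ≠ (a₂ : K) := by
      intro h
      apply hx
      have : a₁ = a₂ := Subtype.ext h
      rw [this]
    refine ⟨(b₁ - b₂) * e, ?_, ?_⟩
    · rw [eK, Affine.slope_of_X_ne hxK]
      push_cast
      rfl
    · rw [ek, Affine.slope_of_X_ne hx, map_sub, map_sub]

/-- **F1.**  For integral points with non-opposite reductions, reduction commutes with the
addition. -/
theorem redPt_add_of_ne (hΔ : IsUnit W₀.Δ) {a₁ b₁ a₂ b₂ : A}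
    (h₁ : (curveK A W₀).toAffine.Nonsingular (a₁ : K) (b₁ : K))
    (h₂ : (curveK A W₀).toAffine.Nonsingular (a₂ : K) (b₂ : K))
    (hne : ¬(IsLocalRing.residue A a₁ = IsLocalRing.residue A a₂ ∧
      IsLocalRing.residue A b₁ = (curveRes A W₀).toAffine.negY (IsLocalRing.residue A a₂)
        (IsLocalRing.residue A b₂))) :
    redPt hΔ (Affine.Point.some _ _ h₁ + Affine.Point.some _ _ h₂) =
      redPt hΔ (Affine.Point.some _ _ h₁) + redPt hΔ (Affine.Point.some _ _ h₂) := by
  have e₁ := equation_of_coe A W₀ h₁.1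
  have e₂ := equation_of_coe A W₀ h₂.1
  obtain ⟨l, hlK, hlk⟩ := exists_slope (K := K) e₁ e₂ hne
  have hneK : ¬((a₁ : K) = (a₂ : K) ∧ (b₁ : K) = (curveK A W₀).toAffine.negY (a₂ : K) (b₂ : K)) := by
    rintro ⟨hx, hy⟩
    apply hne
    have hx' : a₁ = a₂ := Subtype.ext hx
    have hy' : b₁ = W₀.toAffine.negY a₂ b₂ := by
      apply Subtype.ext
      rw [hy]
      simp only [Affine.negY]
      push_cast
      rfl
    refine ⟨by rw [hx'], ?_⟩
    rw [hy', Affine.map_negY]
  rw [Affine.Point.add_some hneK, redPt_coe hΔ h₁, redPt_coe hΔ h₂, Affine.Point.add_some hne]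
  have hX : (curveK A W₀).toAffine.addX (a₁ : K) (a₂ : K)
      ((curveK A W₀).toAffine.slope (a₁ : K) (a₂ : K) (b₁ : K) (b₂ : K))
      = ((W₀.toAffine.addX a₁ a₂ l : A) : K) := by
    rw [← hlK]
    exact Affine.map_addX (W' := W₀) A.subtype a₁ a₂ l
  have hY : (curveK A W₀).toAffine.addY (a₁ : K) (a₂ : K) (b₁ : K)
      ((curveK A W₀).toAffine.slope (a₁ : K) (a₂ : K) (b₁ : K) (b₂ : K))
      = ((W₀.toAffine.addY a₁ a₂ b₁ l : A) : K) := by
    rw [← hlK]
    exact Affine.map_addY (W' := W₀) A.subtype a₁ b₁ a₂ l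
  have hsome : ∀ (x y : K) (h : (curveK A W₀).toAffine.Nonsingular x y) (a b : A)
      (hx : x = (a : K)) (hy : y = (b : K)),
      redPt hΔ (Affine.Point.some x y h) =
        Affine.Point.some (IsLocalRing.residue A a) (IsLocalRing.residue A b)
          (nonsingular_res hΔ (by rw [← hx, ← hy]; exact h.1)) := by
    intro x y h a b hx hy
    subst hx; subst hy
    exact redPt_coe hΔ h
  rw [hsome _ _ _ _ _ hX hY]
  refine some_congr _ _ ?_ ?_
  · rw [← hlk]
    exact (Affine.map_addX (W' := W₀) (IsLocalRing.residue A) a₁ a₂ l).symm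
  · rw [← hlk]
    exact (Affine.map_addY (W' := W₀) (IsLocalRing.residue A) a₁ b₁ a₂ l).symm

end Fermat.Agent.RED
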