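import Mathlib
import Fermat.Agent.RED.Slope
import Fermat.Agent.RED.Kernel

/-!
# Brick RED: the reduction map is a homomorphism

`Fermat.Agent.RED.red hΔ : (curveK A W₀).toAffine.Point →+ (curveRes A W₀).toAffine.Point`,
with kernel `{P | InKer P}` (`red_eq_zero_iff`).
-/

set_option autoImplicit false
set_option linter.unusedSectionVars false

namespace Fermat.Agent.RED

open WeierstrassCurve

variable {K : Type*} [Field K] [DecidableEq K] {A : ValuationSubring K}
  [DecidableEq (IsLocalRing.ResidueField A)] {W₀ : WeierstrassCurve A}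

theorem coe_negY (a b : A) :
    ((W₀.toAffine.negY a b : A) : K) = (curveK A W₀).toAffine.negY (a : K) (b : K) :=
  (Affine.map_negY (W' := W₀) A.subtype a b).symm

theorem residue_negY (a b : A) :
    IsLocalRing.residue A (W₀.toAffine.negY a b) =
      (curveRes A W₀).toAffine.negY (IsLocalRing.residue A a) (IsLocalRing.residue A b) :=
  (Affine.map_negY (W' := W₀) (IsLocalRing.residue A) a b).symm

/-- the opposite of an integral point, in coordinates of `A` -/
theorem neg_some_coe {a b : A} (h : (curveK A W₀).toAffine.Nonsingular (a : K) (b : K)) :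
    ∃ h' : (curveK A W₀).toAffine.Nonsingular (a : K) ((W₀.toAffine.negY a b : A) : K),
      -Affine.Point.some _ _ h = Affine.Point.some _ _ h' := by
  have h0 : (curveK A W₀).toAffine.Nonsingular (a : K)
      ((curveK A W₀).toAffine.negY (a : K) (b : K)) := (Affine.nonsingular_neg ..).mpr h
  have h' : (curveK A W₀).toAffine.Nonsingular (a : K) ((W₀.toAffine.negY a b : A) : K) := by
    rw [coe_negY]; exact h0
  refine ⟨h', ?_⟩
  rw [Affine.Point.neg_some]
  exact some_congr _ _ rfl (coe_negY a b).symm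

/-- Two integral points. -/
theorem redPt_add_int_int (hΔ : IsUnit W₀.Δ) {a₁ b₁ a₂ b₂ : A}
    (h₁ : (curveK A W₀).toAffine.Nonsingular (a₁ : K) (b₁ : K))
    (h₂ : (curveK A W₀).toAffine.Nonsingular (a₂ : K) (b₂ : K)) :
    redPt hΔ (Affine.Point.some _ _ h₁ + Affine.Point.some _ _ h₂) =
      redPt hΔ (Affine.Point.some _ _ h₁) + redPt hΔ (Affine.Point.some _ _ h₂) := by
  by_cases hne : IsLocalRing.residue A a₁ = IsLocalRing.residue A a₂ ∧
      IsLocalRing.residue A b₁ = (curveRes A W₀).toAffine.negY (IsLocalRing.residue A a₂)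
        (IsLocalRing.residue A b₂)
  · obtain ⟨hx, hy⟩ := hne
    rw [redPt_coe hΔ h₁, redPt_coe hΔ h₂, Affine.Point.add_of_Y_eq hx hy]
    rw [redPt_eq_zero_iff]
    obtain ⟨h₂', hneg⟩ := neg_some_coe h₂
    have hker := sub_inKer_of_res_eq hΔ h₁ h₂' hx (by rw [hy, residue_negY])
    rw [← hneg, sub_neg_eq_add] at hker
    exact hker
  · exact redPt_add_of_ne hΔ h₁ h₂ hne

/-- An integral point plus a nonzero point of the kernel. -/
theorem redPt_add_int_ker (hΔ : IsUnit W₀.Δ) {a b : A} {x₂ y₂ : K}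
    (h₁ : (curveK A W₀).toAffine.Nonsingular (a : K) (b : K))
    (h₂ : (curveK A W₀).toAffine.Nonsingular x₂ y₂) (hx₂ : x₂ ∉ A) :
    redPt hΔ (Affine.Point.some _ _ h₁ + Affine.Point.some _ _ h₂) =
      redPt hΔ (Affine.Point.some _ _ h₁) + redPt hΔ (Affine.Point.some _ _ h₂) := by
  obtain ⟨X, Y, h, hadd, hXA, hXx⟩ := add_ker_x h₁ h₂ a.2 hx₂
  rw [redPt_some_of_not_mem hΔ h₂ hx₂, add_zero, hadd]
  have hYA : Y ∈ A := y_mem_of_x_mem A W₀ h.1 hXA
  -- name the coordinates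
  obtain ⟨c, hc⟩ : ∃ c : A, (c : K) = X := ⟨⟨X, hXA⟩, rfl⟩
  obtain ⟨d, hd⟩ : ∃ d : A, (d : K) = Y := ⟨⟨Y, hYA⟩, rfl⟩
  subst hc; subst hd
  rw [redPt_coe hΔ h, redPt_coe hΔ h₁]
  have hca : IsLocalRing.residue A c = IsLocalRing.residue A a :=
    residue_eq_iff_sub_mem_nonunits.2 hXx
  have ec := nonsingular_res hΔ h.1
  have ea := nonsingular_res hΔ h₁.1
  by_cases hdb : IsLocalRing.residue A d = IsLocalRing.residue A b
  · exact some_congr _ _ hca hdb
  · exfalso
    -- `R + (-P) = Q` with `R`, `-P` integral and non-opposite reductions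
    obtain ⟨h₁', hneg⟩ := neg_some_coe h₁
    have hne : ¬(IsLocalRing.residue A c = IsLocalRing.residue A a ∧
        IsLocalRing.residue A d = (curveRes A W₀).toAffine.negY (IsLocalRing.residue A a)
          (IsLocalRing.residue A (W₀.toAffine.negY a b))) := by
      rintro ⟨-, hy⟩
      rw [residue_negY, Affine.negY_negY] at hy
      exact hdb hy
    have hF1 := redPt_add_of_ne hΔ h h₁' hne
    have hQ : Affine.Point.some _ _ h + Affine.Point.some _ _ h₁' = Affine.Point.some _ _ h₂ := by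
      rw [← hneg, ← hadd]
      abel
    rw [hQ, redPt_some_of_not_mem hΔ h₂ hx₂, redPt_coe hΔ h, redPt_coe hΔ h₁',
      Affine.Point.add_some hne] at hF1
    exact Affine.Point.some_ne_zero _ hF1.symm

/-- **The reduction map is additive.** -/
theorem redPt_add (hΔ : IsUnit W₀.Δ) (P Q : (curveK A W₀).toAffine.Point) :
    redPt hΔ (P + Q) = redPt hΔ P + redPt hΔ Q := by
  rcases P with _ | ⟨x₁, y₁, h₁⟩
  · have : (Affine.Point.zero : (curveK A W₀).toAffine.Point) = 0 := rfl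
    rw [this, zero_add, redPt_zero, zero_add]
  rcases Q with _ | ⟨x₂, y₂, h₂⟩
  · have : (Affine.Point.zero : (curveK A W₀).toAffine.Point) = 0 := rfl
    rw [this, add_zero, redPt_zero, add_zero]
  by_cases hx₁ : x₁ ∈ A
  · have hy₁ : y₁ ∈ A := y_mem_of_x_mem A W₀ h₁.1 hx₁
    by_cases hx₂ : x₂ ∈ A
    · have hy₂ : y₂ ∈ A := y_mem_of_x_mem A W₀ h₂.1 hx₂
      exact redPt_add_int_int hΔ (a₁ := ⟨x₁, hx₁⟩) (b₁ := ⟨y₁, hy₁⟩) (a₂ := ⟨x₂, hx₂⟩)
        (b₂ := ⟨y₂, hy₂⟩) h₁ h₂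
    · exact redPt_add_int_ker hΔ (a := ⟨x₁, hx₁⟩) (b := ⟨y₁, hy₁⟩) h₁ h₂ hx₂
  · by_cases hx₂ : x₂ ∈ A
    · have hy₂ : y₂ ∈ A := y_mem_of_x_mem A W₀ h₂.1 hx₂
      rw [add_comm, add_comm (redPt hΔ _)]
      exact redPt_add_int_ker hΔ (a := ⟨x₂, hx₂⟩) (b := ⟨y₂, hy₂⟩) h₂ h₁ hx₁
    · have hker := inKer_add (P := Affine.Point.some _ _ h₁) (Q := Affine.Point.some _ _ h₂)
        hx₁ hx₂
      rw [(redPt_eq_zero_iff hΔ _).2 hker, redPt_some_of_not_mem hΔ h₁ hx₁,
        redPt_some_of_not_mem hΔ h₂ hx₂, add_zero]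

/-- **The reduction homomorphism** at a place of good reduction. -/
noncomputable def red (hΔ : IsUnit W₀.Δ) :
    (curveK A W₀).toAffine.Point →+ (curveRes A W₀).toAffine.Point where
  toFun := redPt hΔ
  map_zero' := rfl
  map_add' := redPt_add hΔ

@[simp] theorem red_apply (hΔ : IsUnit W₀.Δ) (P : (curveK A W₀).toAffine.Point) :
    red hΔ P = redPt hΔ P := rfl

theorem red_eq_zero_iff (hΔ : IsUnit W₀.Δ) (P : (curveK A W₀).toAffine.Point) :
    red hΔ P = 0 ↔ InKer P := redPt_eq_zero_iff hΔ P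

/-- The kernel of reduction has no `n`-torsion for `n` a unit of `A`. -/
theorem eq_zero_of_red_eq_zero_of_nsmul (hΔ : IsUnit W₀.Δ) {n : ℕ} (hn : (n : K) ∉ A.nonunits)
    {P : (curveK A W₀).toAffine.Point} (hP : n • P = 0) (hred : red hΔ P = 0) : P = 0 := by
  rw [red_eq_zero_iff] at hred
  rcases P with _ | ⟨x, y, h⟩
  · rfl
  · exact absurd (Fermat.Agent.S05.no_torsion_of_not_mem A (curveK A W₀) (curveK_a₁_mem A W₀)
      (curveK_a₂_mem A W₀) (curveK_a₃_mem A W₀) (curveK_a₄_mem A W₀) (curveK_a₆_mem A W₀)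
      n hn h hP) hred

/-- Reduction is injective on `n`-torsion, `n` a unit of `A`. -/
theorem red_injOn_torsion (hΔ : IsUnit W₀.Δ) {n : ℕ} (hn : (n : K) ∉ A.nonunits)
    {P Q : (curveK A W₀).toAffine.Point} (hP : n • P = 0) (hQ : n • Q = 0)
    (h : red hΔ P = red hΔ Q) : P = Q := by
  have h1 : n • (P - Q) = 0 := by rw [smul_sub, hP, hQ, sub_zero]
  have h2 : red hΔ (P - Q) = 0 := by rw [map_sub, h, sub_self]
  exact sub_eq_zero.1 (eq_zero_of_red_eq_zero_of_nsmul hΔ hn h1 h2)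

end Fermat.Agent.RED
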