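import Mathlib
import Fermat.Prelude.Def_FLTPrelim_Modularity
import Fermat.Prelude.Def_FLTPrelim_Ramification
import Fermat.Prelude.Def_EllipticCurve_FrobeniusTrace
import Fermat.Agent.RED.Hom
import Fermat.Agent.RED.ResField
import Fermat.Agent.HW.Final
import Fermat.Agent.S05.FreyArith
import Fermat.Agent.S05.Inertia

/-!
# Brick RED, the LINK: `τ² − a_ℓ τ + ℓ = 0` on prime-to-`ℓ` torsion of `E(ℚ̄)`

`W : WeierstrassCurve ℤ`, `ℓ ≠ 2` a prime of good reduction of `W`, `A` a valuation subring of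
`ℚ̄` over `ℓ`, `τ` a Frobenius at `A`.  Then for every point `P` of
`(W.map (Int.castRingHom ℚ))⁄ℚ̄` killed by some `n` prime to `ℓ`:

  `τ • τ • P − W.apOfModel ℓ • τ • P + ℓ • P = 0`   (`frobenius_relation_of_torsion`).

Proof: reduction modulo `A` (`Fermat.Agent.RED.red`) is a homomorphism, injective on
prime-to-`ℓ` torsion, and intertwines `τ` with the Frobenius endomorphism of the reduced curve,
which satisfies the relation by the HW brick (`Fermat.Agent.HW.frobenius_relation`).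
-/

set_option autoImplicit false
set_option linter.unusedSectionVars false

namespace Fermat.Agent.RED

open WeierstrassCurve WeierstrassCurve.Affine

section Congr

variable {F : Type*} [Field F] [DecidableEq F]

/-- Transport of points along an equality of curves. -/
noncomputable def pointCongr {E₁ E₂ : WeierstrassCurve F} (h : E₁ = E₂) :
    E₁.toAffine.Point ≃+ E₂.toAffine.Point :=
  h ▸ AddEquiv.refl _

theorem pointCongr_zero {E₁ E₂ : WeierstrassCurve F} (h : E₁ = E₂) :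
    pointCongr h (0 : E₁.toAffine.Point) = 0 := by
  subst h; rfl

theorem pointCongr_some {E₁ E₂ : WeierstrassCurve F} (h : E₁ = E₂) {x y : F}
    (hxy : E₁.toAffine.Nonsingular x y) :
    pointCongr h (Point.some x y hxy) = Point.some x y (h ▸ hxy) := by
  subst h; rfl

end Congr

section Link

variable (W : WeierstrassCurve ℤ) {ℓ : ℕ} (A : ValuationSubring (AlgebraicClosure ℚ))

/-- The model over `A`. -/
noncomputable abbrev modelA : WeierstrassCurve A := W.map (Int.castRingHom A)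

/-- The curve over `ℚ̄` used by the prelude is the curve of the `RED` brick. -/
theorem baseChange_eq_curveK :
    ((W.map (Int.castRingHom ℚ)).toAffine⁄(AlgebraicClosure ℚ)) = curveK A (modelA W A) := by
  show (W.map (Int.castRingHom ℚ)).map (algebraMap ℚ (AlgebraicClosure ℚ)) =
    (W.map (Int.castRingHom A)).map A.subtype
  rw [WeierstrassCurve.map_map, WeierstrassCurve.map_map]
  congr 1

variable {W A}

/-- Good reduction: the discriminant of the model over `A` is a unit. -/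
theorem isUnit_Δ_modelA (hℓ : ℓ.Prime) (hA : A.LiesOverPrime ℓ) (hgood : W.IsGoodPrimeFor ℓ) :
    IsUnit (modelA W A).Δ := by
  rw [ValuationSubring.valuation_eq_one_iff]
  have e : (((modelA W A).Δ : A) : AlgebraicClosure ℚ) = ((W.Δ : ℤ) : AlgebraicClosure ℚ) := by
    rw [WeierstrassCurve.map_Δ]
    simp
  rw [e]
  exact (Fermat.Agent.S05.valuation_intCast_eq_one_iff A hℓ hA W.Δ).2 hgood

end Link

section Main

variable {W : WeierstrassCurve ℤ} {ℓ : ℕ} [Fact ℓ.Prime]
  {A : ValuationSubring (AlgebraicClosure ℚ)}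
  [DecidableEq (IsLocalRing.ResidueField A)] [Algebra (ZMod ℓ) (IsLocalRing.ResidueField A)]

/-- The reduced curve of the `RED` brick is the base change of `W.reductionMod ℓ`. -/
theorem curveRes_eq_baseChange :
    curveRes A (modelA W A) = ((W.reductionMod ℓ).toAffine⁄(IsLocalRing.ResidueField A)) := by
  show (W.map (Int.castRingHom A)).map (IsLocalRing.residue A) =
    (W.map (Int.castRingHom (ZMod ℓ))).map (algebraMap (ZMod ℓ) (IsLocalRing.ResidueField A))
  rw [WeierstrassCurve.map_map, WeierstrassCurve.map_map]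
  congr 1
  exact RingHom.ext_int _ _

/-- **Reduction modulo `A`** from the points of `W` over `ℚ̄` to the points of `W mod ℓ` over the
residue field of `A`. -/
noncomputable def redQ (hΔ : IsUnit (modelA W A).Δ) :
    ((W.map (Int.castRingHom ℚ)).toAffine⁄(AlgebraicClosure ℚ)).Point →+
      ((W.reductionMod ℓ).toAffine⁄(IsLocalRing.ResidueField A)).Point :=
  (pointCongr (curveRes_eq_baseChange (W := W) (ℓ := ℓ) (A := A))).toAddMonoidHom.comp
    ((red hΔ).comp (pointCongr (baseChange_eq_curveK W A)).toAddMonoidHom)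

theorem redQ_some_of_mem (hΔ : IsUnit (modelA W A).Δ) {x y : AlgebraicClosure ℚ}
    (h : ((W.map (Int.castRingHom ℚ)).toAffine⁄(AlgebraicClosure ℚ)).Nonsingular x y)
    (hx : x ∈ A) :
    ∃ (hy : y ∈ A) (h' : ((W.reductionMod ℓ).toAffine⁄(IsLocalRing.ResidueField A)).Nonsingular
        (IsLocalRing.residue A ⟨x, hx⟩) (IsLocalRing.residue A ⟨y, hy⟩)),
      redQ (ℓ := ℓ) hΔ (Point.some x y h) = Point.some _ _ h' := by
  have h2 : (curveK A (modelA W A)).toAffine.Nonsingular x y := (baseChange_eq_curveK W A) ▸ h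
  have hy : y ∈ A := y_mem_of_x_mem A (modelA W A) h2.1 hx
  have h3 := nonsingular_res hΔ (a := ⟨x, hx⟩) (b := ⟨y, hy⟩) h2.1
  refine ⟨hy, (curveRes_eq_baseChange (W := W) (ℓ := ℓ) (A := A)) ▸ h3, ?_⟩
  simp only [redQ, AddMonoidHom.comp_apply, AddEquiv.coe_toAddMonoidHom, pointCongr_some,
    red_apply]
  rw [redPt_some_of_mem hΔ _ hx, pointCongr_some]

theorem redQ_some_of_not_mem (hΔ : IsUnit (modelA W A).Δ) {x y : AlgebraicClosure ℚ}
    (h : ((W.map (Int.castRingHom ℚ)).toAffine⁄(AlgebraicClosure ℚ)).Nonsingular x y)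
    (hx : x ∉ A) : redQ (ℓ := ℓ) hΔ (Point.some x y h) = 0 := by
  simp only [redQ, AddMonoidHom.comp_apply, AddEquiv.coe_toAddMonoidHom, pointCongr_some,
    red_apply]
  rw [redPt_some_of_not_mem hΔ _ hx, pointCongr_zero]

/-- `redQ` is injective on prime-to-`ℓ` torsion. -/
theorem eq_zero_of_redQ_eq_zero (hΔ : IsUnit (modelA W A).Δ) (hA : A.LiesOverPrime ℓ)
    {n : ℕ} (hn : ¬ ℓ ∣ n)
    {P : ((W.map (Int.castRingHom ℚ)).toAffine⁄(AlgebraicClosure ℚ)).Point}
    (hP : n • P = 0) (hred : redQ (ℓ := ℓ) hΔ P = 0) : P = 0 := by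
  have hℓ : ℓ.Prime := Fact.out
  have hn' : (n : AlgebraicClosure ℚ) ∉ A.nonunits := fun h =>
    hn ((Fermat.Agent.S05.natCast_mem_nonunits_iff A hℓ hA n).1 h)
  simp only [redQ, AddMonoidHom.comp_apply, AddEquiv.coe_toAddMonoidHom] at hred
  have h1 : red hΔ (pointCongr (baseChange_eq_curveK W A) P) = 0 := by
    have := (pointCongr (curveRes_eq_baseChange (W := W) (ℓ := ℓ) (A := A))).injective
    apply this
    rw [hred, map_zero]
  have h2 : n • (pointCongr (baseChange_eq_curveK W A) P) = 0 := by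
    rw [← map_nsmul, hP, map_zero]
  have h3 := eq_zero_of_red_eq_zero_of_nsmul hΔ hn' h2 h1
  have := (pointCongr (baseChange_eq_curveK W A)).injective
  apply this
  rw [h3, map_zero]

/-- `redQ` intertwines a Frobenius at `A` with the Frobenius endomorphism of the reduced
curve. -/
theorem redQ_frob (hΔ : IsUnit (modelA W A).Δ)
    {τ : AlgebraicClosure ℚ ≃ₐ[ℚ] AlgebraicClosure ℚ} (hτ : A.IsFrobeniusAt τ ℓ)
    (P : ((W.map (Int.castRingHom ℚ)).toAffine⁄(AlgebraicClosure ℚ)).Point) :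
    redQ (ℓ := ℓ) hΔ (τ • P) =
      Point.map (W' := (W.reductionMod ℓ).toAffine)
        (FiniteField.frobeniusAlgHom (ZMod ℓ) (IsLocalRing.ResidueField A))
        (redQ (ℓ := ℓ) hΔ P) := by
  have hmem := hτ.mem_decompositionSubgroup
  rcases P with _ | ⟨x, y, h⟩
  · show redQ (ℓ := ℓ) hΔ (τ • (0 : ((W.map (Int.castRingHom ℚ)).toAffine⁄(AlgebraicClosure ℚ)).Point)) =
      Point.map (W' := (W.reductionMod ℓ).toAffine)
        (FiniteField.frobeniusAlgHom (ZMod ℓ) (IsLocalRing.ResidueField A)) (redQ (ℓ := ℓ) hΔ 0)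
    rw [Fermat.Agent.S05.galois_smul_zero, map_zero, map_zero]
  · rw [Fermat.Agent.S05.galois_smul_some]
    by_cases hx : x ∈ A
    · have hτx : τ x ∈ A := Fermat.Agent.S05.apply_mem_of_mem_decomposition hmem hx
      obtain ⟨hy, h', e⟩ := redQ_some_of_mem (ℓ := ℓ) hΔ h hx
      have hns : ((W.map (Int.castRingHom ℚ)).toAffine⁄(AlgebraicClosure ℚ)).Nonsingular
          (τ x) (τ y) :=
        ((W.map (Int.castRingHom ℚ)).toAffine.baseChange_nonsingular (f := τ.toAlgHom)
          τ.toAlgHom.injective x y).mpr h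
      obtain ⟨hτy, h'', e'⟩ := redQ_some_of_mem (ℓ := ℓ) hΔ hns hτx
      rw [e, Point.map_some]
      refine e'.trans (some_congr _ _ ?_ ?_)
      · have e2 := hτ.smul_residue_eq (IsLocalRing.residue A ⟨x, hx⟩)
        rw [← IsLocalRing.ResidueField.residue_smul] at e2
        have e3 : ((⟨τ, hmem⟩ : A.decompositionSubgroup ℚ) • (⟨x, hx⟩ : A) : A) = ⟨τ x, hτx⟩ :=
          Subtype.ext rfl
        rw [e3] at e2
        rw [e2, FiniteField.coe_frobeniusAlgHom, ZMod.card]
      · have e2 := hτ.smul_residue_eq (IsLocalRing.residue A ⟨y, hy⟩)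
        rw [← IsLocalRing.ResidueField.residue_smul] at e2
        have e3 : ((⟨τ, hmem⟩ : A.decompositionSubgroup ℚ) • (⟨y, hy⟩ : A) : A) = ⟨τ y, hτy⟩ :=
          Subtype.ext rfl
        rw [e3] at e2
        rw [e2, FiniteField.coe_frobeniusAlgHom, ZMod.card]
    · have hτx : τ x ∉ A := fun h' =>
        hx ((Fermat.Agent.S05.apply_mem_iff_of_mem_decomposition hmem x).1 h')
      have hns : ((W.map (Int.castRingHom ℚ)).toAffine⁄(AlgebraicClosure ℚ)).Nonsingular
          (τ x) (τ y) :=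
        ((W.map (Int.castRingHom ℚ)).toAffine.baseChange_nonsingular (f := τ.toAlgHom)
          τ.toAlgHom.injective x y).mpr h
      have e1 := redQ_some_of_not_mem (ℓ := ℓ) hΔ hns hτx
      have e2 := redQ_some_of_not_mem (ℓ := ℓ) hΔ h hx
      rw [e2, map_zero]
      exact e1

end Main

/-- **The LINK.**  For a prime `ℓ ≠ 2` of good reduction of `W`, a Frobenius `τ` at a place `A`
of `ℚ̄` over `ℓ` satisfies `τ² − a_ℓ τ + ℓ = 0` on the prime-to-`ℓ` torsion of
`(W.map (Int.castRingHom ℚ))(ℚ̄)`, with `a_ℓ = W.apOfModel ℓ`. -/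
theorem frobenius_relation_of_torsion (W : WeierstrassCurve ℤ) {ℓ : ℕ} (hℓ : ℓ.Prime)
    (hℓ2 : ℓ ≠ 2) (hgood : W.IsGoodPrimeFor ℓ) (A : ValuationSubring (AlgebraicClosure ℚ))
    (hA : A.LiesOverPrime ℓ) (τ : AlgebraicClosure ℚ ≃ₐ[ℚ] AlgebraicClosure ℚ)
    (hτ : A.IsFrobeniusAt τ ℓ) {n : ℕ} (hn : ¬ ℓ ∣ n)
    (P : ((W.map (Int.castRingHom ℚ)).toAffine⁄(AlgebraicClosure ℚ)).Point) (hP : n • P = 0) :
    τ • τ • P - W.apOfModel ℓ • τ • P + (ℓ : ℤ) • P = 0 := by
  have : Fact ℓ.Prime := ⟨hℓ⟩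
  let _ : DecidableEq (IsLocalRing.ResidueField A) := Classical.decEq _
  have : CharP (IsLocalRing.ResidueField A) ℓ := charP_residueField A hℓ hA
  let _ : Algebra (ZMod ℓ) (IsLocalRing.ResidueField A) := ZMod.algebra _ ℓ
  have : IsAlgClosed (IsLocalRing.ResidueField A) := isAlgClosed_residueField A
  have hΔ : IsUnit (modelA W A).Δ := isUnit_Δ_modelA hℓ hA hgood
  have hΔℓ : (W.reductionMod ℓ).Δ ≠ 0 := by
    rw [WeierstrassCurve.reductionMod, WeierstrassCurve.map_Δ]
    intro h0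
    apply hgood
    have : ((W.Δ : ℤ) : ZMod ℓ) = 0 := by simpa using h0
    exact (ZMod.intCast_zmod_eq_zero_iff_dvd W.Δ ℓ).1 this
  have hτn : ∀ Q : ((W.map (Int.castRingHom ℚ)).toAffine⁄(AlgebraicClosure ℚ)).Point,
      n • Q = 0 → n • (τ • Q) = 0 := by
    intro Q hQ
    have := Point.algEquiv_smul_zsmul τ (n : ℤ) Q
    rw [natCast_zsmul, natCast_zsmul, hQ, smul_zero] at this
    exact this.symm
  apply eq_zero_of_redQ_eq_zero (ℓ := ℓ) hΔ hA hn
  · rw [nsmul_add, nsmul_sub, smul_comm n (W.apOfModel ℓ), smul_comm n (ℓ : ℤ), hP,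
      hτn _ (hτn _ hP), hτn _ hP, zsmul_zero, zsmul_zero, sub_zero, add_zero]
  · rw [map_add, map_sub, map_zsmul, map_zsmul, redQ_frob hΔ hτ, redQ_frob hΔ hτ]
    exact Fermat.Agent.HW.frobenius_relation ℓ (W.reductionMod ℓ) (IsLocalRing.ResidueField A)
      hℓ2 hΔℓ _

/-- The LINK on the torsion module `E[n]` (prelude's Galois action). -/
theorem frobenius_relation_torsionBy (W : WeierstrassCurve ℤ) {ℓ : ℕ} (hℓ : ℓ.Prime)
    (hℓ2 : ℓ ≠ 2) (hgood : W.IsGoodPrimeFor ℓ) (A : ValuationSubring (AlgebraicClosure ℚ))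
    (hA : A.LiesOverPrime ℓ) (τ : AlgebraicClosure ℚ ≃ₐ[ℚ] AlgebraicClosure ℚ)
    (hτ : A.IsFrobeniusAt τ ℓ) {n : ℕ} (hn : ¬ ℓ ∣ n)
    (x : Submodule.torsionBy ℤ
      ((W.map (Int.castRingHom ℚ)).toAffine⁄(AlgebraicClosure ℚ)).Point n) :
    τ • τ • x - W.apOfModel ℓ • τ • x + (ℓ : ℤ) • x = 0 := by
  apply Subtype.ext
  have hx : n • (x : ((W.map (Int.castRingHom ℚ)).toAffine⁄(AlgebraicClosure ℚ)).Point) = 0 := by
    have := x.2
    rw [Submodule.mem_torsionBy_iff] at this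
    rw [← natCast_zsmul]
    exact this
  exact frobenius_relation_of_torsion W hℓ hℓ2 hgood A hA τ hτ hn x hx

end Fermat.Agent.RED
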