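import Fermat.Agent.EC.DetChar
import Fermat.Agent.EC.Tors
import Fermat.Agent.RED.Link

/-!
# Brick RED, consumer form: trace and determinant of Frobenius on `E[p]` for an integral model

For `W : WeierstrassCurve ℤ`, `Δ ≠ 0`, `E := W.map (Int.castRingHom ℚ)`:

* `frobRel_of_model` : the hypothesis (REL) of `Fermat.Agent.EC.DetChar` with `a := W.apOfModel`
  and any `S₀ ∋ 2` containing the bad primes.
* `card_torsQbar` : `#E[p](ℚ̄) = p²`.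
* `galoisTrace_frob_of_model` : `E[p]` irreducible, `ℓ ∤ 2pΔ`, `τ` a Frobenius at `ℓ` ⇒
  `galoisTrace ℚ E p τ = (W.apOfModel ℓ : ZMod p)`.
* `det_of_model` : `E[p]` irreducible ⇒ `det ρ̄(σ) = χ_p(σ)` for all `σ`.
* `exists_prime_not_dvd_of_model` : (S41 R4 for a model) for every finite `S` there is a prime
  `ℓ ∉ S`, good for `W`, `ℓ ≡ 1 mod M`, with `p ∤ a_ℓ(W) − (ℓ + 1)`.
-/

set_option autoImplicit false

namespace Fermat.Agent.RED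

open WeierstrassCurve WeierstrassCurve.Affine WeierstrassCurve.Affine.Point
open Fermat.Agent.EC.DetChar

/-- **(REL) for an integral model.** -/
theorem frobRel_of_model (W : WeierstrassCurve ℤ) (p : ℕ) (S₀ : Finset ℕ) (h2 : 2 ∈ S₀)
    (hpS : ∀ ℓ : ℕ, ℓ.Prime → ℓ ∣ p → ℓ ∈ S₀)
    (hbad : ∀ ℓ : ℕ, ℓ.Prime → ℓ ∉ S₀ → W.IsGoodPrimeFor ℓ) :
    FrobRel (W.map (Int.castRingHom ℚ)) p W.apOfModel S₀ := by
  intro ℓ hℓ hℓS A hA τ hτ x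
  have hℓ2 : ℓ ≠ 2 := fun h => hℓS (h ▸ h2)
  have hn : ¬ ℓ ∣ p := fun h => hℓS (hpS ℓ hℓ h)
  exact frobenius_relation_torsionBy W hℓ hℓ2 (hbad ℓ hℓ hℓS) A hA τ hτ hn x

/-- The canonical exceptional set `{2} ∪ {primes dividing p} ∪ {primes dividing Δ}`. -/
noncomputable def excSet (W : WeierstrassCurve ℤ) (p : ℕ) : Finset ℕ :=
  insert 2 (p.primeFactors ∪ W.Δ.natAbs.primeFactors)

theorem not_mem_excSet_iff (W : WeierstrassCurve ℤ) (hΔ : W.Δ ≠ 0) {p : ℕ} (hp : p ≠ 0) {ℓ : ℕ}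
    (hℓ : ℓ.Prime) : ℓ ∉ excSet W p ↔ ℓ ≠ 2 ∧ ¬ ℓ ∣ p ∧ W.IsGoodPrimeFor ℓ := by
  unfold excSet WeierstrassCurve.IsGoodPrimeFor
  rw [Finset.mem_insert, Finset.mem_union, Nat.mem_primeFactors, Nat.mem_primeFactors,
    Int.natCast_dvd]
  have hΔ' : W.Δ.natAbs ≠ 0 := Int.natAbs_ne_zero.mpr hΔ
  constructor
  · intro h
    refine ⟨fun h2 => h (Or.inl h2), fun hd => h (Or.inr (Or.inl ⟨hℓ, hd, hp⟩)),
      fun hd => h (Or.inr (Or.inr ⟨hℓ, hd, hΔ'⟩))⟩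
  · rintro ⟨h2, hd, hg⟩ (h | h | h)
    · exact h2 h
    · exact hd h.2.1
    · exact hg h.2.1

theorem frobRel_excSet (W : WeierstrassCurve ℤ) (hΔ : W.Δ ≠ 0) {p : ℕ} (hp : p ≠ 0) :
    FrobRel (W.map (Int.castRingHom ℚ)) p W.apOfModel (excSet W p) := by
  apply frobRel_of_model
  · exact Finset.mem_insert_self _ _
  · intro ℓ hℓ hd
    by_contra h
    exact ((not_mem_excSet_iff W hΔ hp hℓ).1 h).2.1 hd
  · intro ℓ hℓ h
    exact ((not_mem_excSet_iff W hΔ hp hℓ).1 h).2.2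

/-- (REL) for any finite set containing the canonical exceptional set. -/
theorem frobRel_union (W : WeierstrassCurve ℤ) (hΔ : W.Δ ≠ 0) {p : ℕ} (hp : p ≠ 0)
    (S : Finset ℕ) :
    FrobRel (W.map (Int.castRingHom ℚ)) p W.apOfModel (S ∪ excSet W p) := by
  intro ℓ hℓ hℓS
  exact frobRel_excSet W hΔ hp ℓ hℓ (fun h => hℓS (Finset.mem_union_right _ h))

/-- `#E[n](ℚ̄) = n²`. -/
theorem card_torsQbar (W : WeierstrassCurve ℤ) (hΔ : W.Δ ≠ 0) {n : ℕ} (hn : n ≠ 0) :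
    Nat.card (TorsQbar (W.map (Int.castRingHom ℚ)) n) = n ^ 2 := by
  have hΔ' : ((W.map (Int.castRingHom ℚ)).toAffine⁄(AlgebraicClosure ℚ)).Δ ≠ 0 := by
    show ((W.map (Int.castRingHom ℚ)).map (algebraMap ℚ (AlgebraicClosure ℚ))).Δ ≠ 0
    rw [WeierstrassCurve.map_Δ, WeierstrassCurve.map_Δ]
    simpa using hΔ
  exact Fermat.Agent.EC.ec_card_torsionBy hΔ' two_ne_zero (Nat.cast_ne_zero.mpr hn)

variable {p : ℕ} [Fact p.Prime]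

/-- **Trace of Frobenius on `E[p]` = `a_ℓ` of the model.** -/
theorem galoisTrace_frob_of_model (W : WeierstrassCurve ℤ) (hΔ : W.Δ ≠ 0)
    (hirr : W.ModRepIsIrreducible p) {ℓ : ℕ} (hℓ : ℓ.Prime) (hℓ2 : ℓ ≠ 2) (hℓp : ℓ ≠ p)
    (hgood : W.IsGoodPrimeFor ℓ) {A : ValuationSubring (AlgebraicClosure ℚ)}
    (hA : A.LiesOverPrime ℓ) {τ : AlgebraicClosure ℚ ≃ₐ[ℚ] AlgebraicClosure ℚ}
    (hτ : A.IsFrobeniusAt τ ℓ) :
    galoisTrace (K := AlgebraicClosure ℚ) ℚ (W.map (Int.castRingHom ℚ)) p τ =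
      (W.apOfModel ℓ : ZMod p) := by
  have hp : p.Prime := Fact.out
  have hd : ¬ ℓ ∣ p := fun h => hℓp ((Nat.prime_dvd_prime_iff_eq hℓ hp).1 h)
  exact galoisTrace_frob_of_irred hirr (card_torsQbar W hΔ hp.ne_zero)
    (frobRel_excSet W hΔ hp.ne_zero) hℓ
    ((not_mem_excSet_iff W hΔ hp.ne_zero hℓ).2 ⟨hℓ2, hd, hgood⟩) hℓp hA hτ

/-- **Determinant of the mod-`p` representation of a model = cyclotomic character.** -/
theorem det_of_model (W : WeierstrassCurve ℤ) (hΔ : W.Δ ≠ 0)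
    (hirr : W.ModRepIsIrreducible p) (σ : AlgebraicClosure ℚ ≃ₐ[ℚ] AlgebraicClosure ℚ) :
    LinearMap.det (rhoBar (W.map (Int.castRingHom ℚ)) p σ) =
      ((Fermat.Agent.S42.cycloChar p σ : (ZMod p)ˣ) : ZMod p) := by
  have hp : p.Prime := Fact.out
  exact det_rhoBar_eq_cycloChar_of_irred hirr (card_torsQbar W hΔ hp.ne_zero)
    (frobRel_excSet W hΔ hp.ne_zero) σ

/-- **S41 R4 for an integral model**: infinitely many good primes with `a_ℓ ≢ ℓ + 1 mod p`. -/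
theorem exists_prime_not_dvd_of_model (W : WeierstrassCurve ℤ) (hΔ : W.Δ ≠ 0) (hp2 : p ≠ 2)
    (hirr : W.ModRepIsIrreducible p) (S : Finset ℕ) {M : ℕ} (hM : 0 < M) :
    ∃ ℓ : ℕ, ℓ.Prime ∧ ℓ ∉ S ∧ ℓ ≠ 2 ∧ ℓ ≠ p ∧ W.IsGoodPrimeFor ℓ ∧ ℓ ≡ 1 [MOD M] ∧
      ¬ (p : ℤ) ∣ W.apOfModel ℓ - (ℓ + 1) := by
  have hp : p.Prime := Fact.out
  obtain ⟨ℓ, hℓ, hℓS, hmod, hnd⟩ := exists_prime_modEq_one_not_dvd hp2 hirr
    (card_torsQbar W hΔ hp.ne_zero) (frobRel_union W hΔ hp.ne_zero S) hM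
  rw [Finset.mem_union, not_or] at hℓS
  obtain ⟨h2, hd, hg⟩ := (not_mem_excSet_iff W hΔ hp.ne_zero hℓ).1 hℓS.2
  refine ⟨ℓ, hℓ, hℓS.1, h2, ?_, hg, hmod, hnd⟩
  rintro rfl
  exact hd dvd_rfl

end Fermat.Agent.RED
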