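import Fermat.Agent.RED.Unip
import Fermat.Agent.EC.TateLocal

/-!
# EC-adic (c): the Tate representation is unipotent on inertia at multiplicative primes

`W : WeierstrassCurve ℤ`, `Δ ≠ 0`, `ℓ ≠ 2` prime, `q ≠ 2` prime, `q ≠ ℓ`, `q ∣ Δ`, `q ∤ c₄`:
`(tateRepInt W hΔ ℓ).IsUnipotentOnInertiaAt q`; and the same at every prime `q ∉ {2, ℓ}` for a
semistable model.
-/

set_option autoImplicit false

namespace Fermat.Agent.RED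

open WeierstrassCurve Fermat.Agent.EC

/-- **EC-adic (c).** -/
theorem tateRepInt_isUnipotentOnInertiaAt_of_mult (W : WeierstrassCurve ℤ) (hΔ : W.Δ ≠ 0)
    (ℓ : ℕ) [hℓ : Fact ℓ.Prime] (hℓ2 : ℓ ≠ 2) {q : ℕ} (hq : q.Prime) (hq2 : q ≠ 2)
    (hne : q ≠ ℓ) (hbad : (q : ℤ) ∣ W.Δ) (hc₄ : ¬ (q : ℤ) ∣ W.c₄) :
    (tateRepInt W hΔ ℓ).IsUnipotentOnInertiaAt q :=
  tateRepInt_isUnipotentOnInertiaAt_of_torsion W hΔ ℓ
    (inertia_sub_sq_of_mult W hq hq2 hΔ hbad hc₄ hℓ.out hℓ2 hne)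

/-- **EC-adic (c)+(d) for a semistable model**: unipotent on inertia at every prime
`q ∉ {2, ℓ}`. -/
theorem tateRepInt_isUnipotentOnInertiaAt_of_semistable (W : WeierstrassCurve ℤ) (hΔ : W.Δ ≠ 0)
    (hss : W.IsSemistableModel)
    (ℓ : ℕ) [hℓ : Fact ℓ.Prime] (hℓ2 : ℓ ≠ 2) {q : ℕ} (hq : q.Prime) (hq2 : q ≠ 2)
    (hne : q ≠ ℓ) : (tateRepInt W hΔ ℓ).IsUnipotentOnInertiaAt q := by
  by_cases hbad : (q : ℤ) ∣ W.Δ
  · exact tateRepInt_isUnipotentOnInertiaAt_of_mult W hΔ ℓ hℓ2 hq hq2 hne hbad (hss q hq hbad)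
  · exact tateRepInt_isUnipotentOnInertiaAt_of_good W hΔ ℓ hq hbad hne

end Fermat.Agent.RED
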