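import Fermat.Agent.RED.UnipTwo
import Fermat.Agent.RED.UnipTate

/-!
# EC-adic (c) at every multiplicative prime, including `q = 2`

`W : WeierstrassCurve ℤ`, `Δ ≠ 0`, `q` a prime with `q ∣ Δ`, `q ∤ c₄` (multiplicative
reduction), `A` a valuation subring of `ℚ̄` over `q`, `σ, τ` in the inertia group of `A`,
`n` odd and prime to `q`, `n • P = 0`:

  `τ • (σ • P - P) = σ • P - P`     (`inertia_unipotent_of_mult_all`; `q = 2` is
  `inertia_unipotent_of_mult_two`),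

hence for `ℓ ≠ 2` and every prime `q ≠ ℓ` of multiplicative reduction
`(tateRepInt W hΔ ℓ).IsUnipotentOnInertiaAt q` (`tateRepInt_isUnipotentOnInertiaAt_of_mult_all`),
and for a semistable model at every prime `q ≠ ℓ`
(`tateRepInt_isUnipotentOnInertiaAt_of_semistable_all`).
-/

set_option autoImplicit false

namespace Fermat.Agent.RED

open WeierstrassCurve WeierstrassCurve.Affine Fermat.Agent.S05 Fermat.Agent.EC

/-- `ℚ̄` -/
local notation "Qbar" => AlgebraicClosure ℚ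

theorem unip_b₂ (W : WeierstrassCurve ℤ) :
    ((W.map (Int.castRingHom ℚ)).baseChange Qbar).b₂ = ((W.b₂ : ℤ) : Qbar) := by
  simp [WeierstrassCurve.baseChange, WeierstrassCurve.map_b₂]

/-- **Inertia at `2` is unipotent on odd torsion** when the reduction at `2` is
multiplicative. -/
theorem inertia_unipotent_of_mult_two (W : WeierstrassCurve ℤ)
    (hΔ0 : W.Δ ≠ 0) (hbad : ((2 : ℕ) : ℤ) ∣ W.Δ) (hc₄ : ¬ ((2 : ℕ) : ℤ) ∣ W.c₄)
    (A : ValuationSubring Qbar) (hA : A.LiesOverPrime 2)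
    {σ τ : Qbar ≃ₐ[ℚ] Qbar} (hσ : σ ∈ A.inertiaSubgroupIn ℚ) (hτ : τ ∈ A.inertiaSubgroupIn ℚ)
    {n : ℕ} (hodd : Odd n)
    (P : ((W.map (Int.castRingHom ℚ)).toAffine⁄Qbar).Point) (hP : n • P = 0) :
    τ • (σ • P - P) = σ • P - P := by
  have : Algebra.IsAlgebraic ℚ Qbar := isAlgebraic_rat_qbar
  have hq : (2 : ℕ).Prime := Nat.prime_two
  have h2 : A.valuation (2 : Qbar) < 1 := by
    have := (valuation_intCast_lt_one_iff A hq hA (2 : ℤ)).2 (by norm_num)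
    simpa using this
  have h40 : (4 : Qbar) ≠ 0 := by norm_num
  have h₁ : ((W.map (Int.castRingHom ℚ)).baseChange Qbar).a₁ ∈ A := by
    rw [unip_a₁]; exact intCast_mem A _
  have h₂ : ((W.map (Int.castRingHom ℚ)).baseChange Qbar).a₂ ∈ A := by
    rw [unip_a₂]; exact intCast_mem A _
  have h₃ : ((W.map (Int.castRingHom ℚ)).baseChange Qbar).a₃ ∈ A := by
    rw [unip_a₃]; exact intCast_mem A _
  have h₄ : ((W.map (Int.castRingHom ℚ)).baseChange Qbar).a₄ ∈ A := by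
    rw [unip_a₄]; exact intCast_mem A _
  have h₆ : ((W.map (Int.castRingHom ℚ)).baseChange Qbar).a₆ ∈ A := by
    rw [unip_a₆]; exact intCast_mem A _
  have hΔ0' : ((W.map (Int.castRingHom ℚ)).baseChange Qbar).Δ ≠ 0 := by
    rw [unip_Δ]; exact_mod_cast hΔ0
  have hΔv : A.valuation ((W.map (Int.castRingHom ℚ)).baseChange Qbar).Δ < 1 := by
    rw [unip_Δ]; exact (valuation_intCast_lt_one_iff A hq hA _).2 hbad
  have hb₂ : A.valuation ((W.map (Int.castRingHom ℚ)).baseChange Qbar).b₂ = 1 := by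
    rw [unip_b₂]
    refine (valuation_intCast_eq_one_iff A hq hA _).2 ?_
    intro hdvd
    apply hc₄
    have hc : W.c₄ = W.b₂ ^ 2 - 24 * W.b₄ := by rw [WeierstrassCurve.c₄]
    rw [hc]
    exact dvd_sub (dvd_pow hdvd two_ne_zero) (Dvd.dvd.mul_right (by norm_num) _)
  have hn' : (n : Qbar) ∉ A.nonunits := fun h =>
    (Nat.not_even_iff_odd.2 hodd) (even_iff_two_dvd.2 ((natCast_mem_nonunits_iff A hq hA n).1 h))
  exact unip_two_local A hσ hτ (W.map (Int.castRingHom ℚ)) h₁ h₂ h₃ h₄ h₆ h40 h2 hb₂ hΔ0' hΔv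
    n hn' hodd P hP

/-- **Inertia at a multiplicative prime `q` (any `q`, including `2`) is unipotent on odd
prime-to-`q` torsion.** -/
theorem inertia_unipotent_of_mult_all (W : WeierstrassCurve ℤ) {q : ℕ} (hq : q.Prime)
    (hΔ0 : W.Δ ≠ 0) (hbad : (q : ℤ) ∣ W.Δ) (hc₄ : ¬ (q : ℤ) ∣ W.c₄)
    (A : ValuationSubring Qbar) (hA : A.LiesOverPrime q)
    {σ τ : Qbar ≃ₐ[ℚ] Qbar} (hσ : σ ∈ A.inertiaSubgroupIn ℚ) (hτ : τ ∈ A.inertiaSubgroupIn ℚ)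
    {n : ℕ} (hn : ¬ q ∣ n) (hodd : Odd n)
    (P : ((W.map (Int.castRingHom ℚ)).toAffine⁄Qbar).Point) (hP : n • P = 0) :
    τ • (σ • P - P) = σ • P - P := by
  by_cases hq2 : q = 2
  · subst hq2
    exact inertia_unipotent_of_mult_two W hΔ0 hbad hc₄ A hA hσ hτ hodd P hP
  · exact inertia_unipotent_of_mult W hq hq2 hΔ0 hbad hc₄ A hA hσ hτ hn hodd P hP

/-- `(σ - 1)² = 0` on `ℓ`-power torsion (`ℓ ≠ 2`) at every multiplicative prime `q ≠ ℓ`, in the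
shape consumed by `Fermat.Agent.EC.tateRepInt_isUnipotentOnInertiaAt_of_torsion`. -/
theorem inertia_sub_sq_of_mult_all (W : WeierstrassCurve ℤ) {q : ℕ} (hq : q.Prime)
    (hΔ0 : W.Δ ≠ 0) (hbad : (q : ℤ) ∣ W.Δ) (hc₄ : ¬ (q : ℤ) ∣ W.c₄)
    {ℓ : ℕ} (hℓ : ℓ.Prime) (hℓ2 : ℓ ≠ 2) (hne : q ≠ ℓ) :
    ∀ A : ValuationSubring Qbar, A.LiesOverPrime q → ∀ σ ∈ A.inertiaSubgroupIn ℚ,
      ∀ (n : ℕ) (P : ((W.map (Int.castRingHom ℚ)).toAffine⁄Qbar).Point), ℓ ^ n • P = 0 →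
        σ • (σ • P - P) - (σ • P - P) = 0 := by
  intro A hA σ hσ n P hP
  rw [sub_eq_zero]
  refine inertia_unipotent_of_mult_all W hq hΔ0 hbad hc₄ A hA hσ hσ (n := ℓ ^ n) ?_ ?_ P hP
  · intro hdvd
    exact hne ((Nat.prime_dvd_prime_iff_eq hq hℓ).1 (hq.dvd_of_dvd_pow hdvd))
  · exact (hℓ.odd_of_ne_two hℓ2).pow

/-- **EC-adic (c)** at every multiplicative prime `q ≠ ℓ` (including `q = 2`). -/
theorem tateRepInt_isUnipotentOnInertiaAt_of_mult_all (W : WeierstrassCurve ℤ) (hΔ : W.Δ ≠ 0)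
    (ℓ : ℕ) [hℓ : Fact ℓ.Prime] (hℓ2 : ℓ ≠ 2) {q : ℕ} (hq : q.Prime)
    (hne : q ≠ ℓ) (hbad : (q : ℤ) ∣ W.Δ) (hc₄ : ¬ (q : ℤ) ∣ W.c₄) :
    (tateRepInt W hΔ ℓ).IsUnipotentOnInertiaAt q :=
  tateRepInt_isUnipotentOnInertiaAt_of_torsion W hΔ ℓ
    (inertia_sub_sq_of_mult_all W hq hΔ hbad hc₄ hℓ.out hℓ2 hne)

/-- **EC-adic (c)+(d) for a semistable model**: unipotent on inertia at every prime `q ≠ ℓ`
(`ℓ ≠ 2`). -/
theorem tateRepInt_isUnipotentOnInertiaAt_of_semistable_all (W : WeierstrassCurve ℤ)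
    (hΔ : W.Δ ≠ 0) (hss : W.IsSemistableModel)
    (ℓ : ℕ) [hℓ : Fact ℓ.Prime] (hℓ2 : ℓ ≠ 2) {q : ℕ} (hq : q.Prime)
    (hne : q ≠ ℓ) : (tateRepInt W hΔ ℓ).IsUnipotentOnInertiaAt q := by
  by_cases hbad : (q : ℤ) ∣ W.Δ
  · exact tateRepInt_isUnipotentOnInertiaAt_of_mult_all W hΔ ℓ hℓ2 hq hne hbad (hss q hq hbad)
  · exact tateRepInt_isUnipotentOnInertiaAt_of_good W hΔ ℓ hq hbad hne

end Fermat.Agent.RED
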