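import Mathlib
import Fermat.Agent.S05.Key

/-!
# Brick RED / EC-adic (c): the key lemma at a node, unit case

`key_node_unit`: two points `P`, `P'` near a node (center `r`, `X = x - r`, `X' = x' - r`,
`v X = v X' < 1`), on the same branch (`η'/X' ≡ η/X`, a unit whose square is `≡ b₂ + 12 r`),
with `X'/X` a unit `≢ 1` (`v (X' - X) = v X`): then `P' - P` has integral `x`-coordinate with
`x(P' - P) - r` a UNIT, i.e. `P' - P` reduces to a nonsingular point.

(The complementary case `v (X' - X) < v X` is `Fermat.Agent.S05.key_node`: `P' - P` is in the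
kernel of reduction.)
-/

set_option autoImplicit false

namespace Fermat.Agent.RED

open WeierstrassCurve WeierstrassCurve.Affine Fermat.Agent.S05

variable {K : Type*} [Field K] [DecidableEq K]
variable {Γ₀ : Type*} [LinearOrderedCommGroupWithZero Γ₀] (v : Valuation K Γ₀)

/-- Division-free form of `key_node_unit`. -/
theorem key_node_unit_aux {W : WeierstrassCurve K} (h2 : v (2 : K) = 1)
    {x y x' y' : K} (h : W.toAffine.Nonsingular x y) (h' : W.toAffine.Nonsingular x' y')
    (r t t' : K) (hη : eta W x y = t * (x - r)) (hη' : eta W x' y' = t' * (x' - r))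
    (hX1 : v (x - r) < 1) (hX0 : x - r ≠ 0) (hXX : v (x' - r) = v (x - r))
    (hD : v (x' - x) = v (x - r)) (ht : v t = 1) (htt : v (t' - t) < 1)
    (hC : v (t ^ 2 - (W.b₂ + 12 * r)) < 1) :
    ∃ (x'' y'' : K) (h'' : W.toAffine.Nonsingular x'' y''),
      Point.some x' y' h' - Point.some x y h = Point.some x'' y'' h'' ∧ v (x'' - r) = 1 := by
  have h4 : v (4 : K) = 1 := key_val_four v h2
  have hν0 : 0 < v (x - r) := by rw [v.pos_iff]; exact hX0
  have hν0' : v (x - r) ≠ 0 := ne_of_gt hν0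
  have hne : x' ≠ x := by
    intro hxe
    rw [hxe, sub_self, map_zero] at hD
    exact hν0' hD.symm
  obtain ⟨x₃, y₃, h₃, hsub, hX, -⟩ := sub_of_X_ne h' h hne
  refine ⟨x₃, y₃, h₃, hsub, ?_⟩
  -- the main identity
  have key : 4 * (x₃ - r) * (x' - x) ^ 2 =
      4 * t ^ 2 * (x - r) * (x' - r) +
        ((t ^ 2 - (W.b₂ + 12 * r)) * (x' - x) ^ 2 +
          ((t' - t) * (x' - r) * (2 * t * ((x' - r) + (x - r)) + (t' - t) * (x' - r)) +
            -(4 * ((x - r) + (x' - r)) * (x' - x) ^ 2))) := by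
    rw [hη, hη'] at hX
    linear_combination hX
  -- valuations
  have hmain : v (4 * t ^ 2 * (x - r) * (x' - r)) = v (x - r) ^ 2 := by
    rw [map_mul, map_mul, map_mul, map_pow, h4, ht, hXX]
    simp [sq]
  have hsq0 : 0 < v (x - r) ^ 2 := pow_pos hν0 2
  have hE1 : v ((t ^ 2 - (W.b₂ + 12 * r)) * (x' - x) ^ 2) < v (x - r) ^ 2 := by
    rw [map_mul, map_pow, hD]
    calc v (t ^ 2 - (W.b₂ + 12 * r)) * v (x - r) ^ 2 < 1 * v (x - r) ^ 2 :=
          mul_lt_mul_of_pos_right hC hsq0
      _ = v (x - r) ^ 2 := one_mul _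
  have htle : v (t' - t) ≤ 1 := htt.le
  have h2t : v (2 * t * ((x' - r) + (x - r)) + (t' - t) * (x' - r)) ≤ v (x - r) := by
    apply v.map_add_le
    · rw [map_mul, map_mul, h2, ht, one_mul, one_mul]
      exact v.map_add_le hXX.le le_rfl
    · rw [map_mul, hXX]
      calc v (t' - t) * v (x - r) ≤ 1 * v (x - r) := by gcongr
        _ = v (x - r) := one_mul _
  have hE2 : v ((t' - t) * (x' - r) *
      (2 * t * ((x' - r) + (x - r)) + (t' - t) * (x' - r))) < v (x - r) ^ 2 := by
    rw [map_mul, map_mul, hXX]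
    calc v (t' - t) * v (x - r) *
          v (2 * t * ((x' - r) + (x - r)) + (t' - t) * (x' - r))
        ≤ v (t' - t) * v (x - r) * v (x - r) := by gcongr
      _ = v (t' - t) * v (x - r) ^ 2 := by rw [sq, mul_assoc]
      _ < 1 * v (x - r) ^ 2 := mul_lt_mul_of_pos_right htt hsq0
      _ = v (x - r) ^ 2 := one_mul _
  have hsum : v ((x - r) + (x' - r)) ≤ v (x - r) := v.map_add_le le_rfl hXX.le
  have hE3 : v (-(4 * ((x - r) + (x' - r)) * (x' - x) ^ 2)) < v (x - r) ^ 2 := by
    rw [Valuation.map_neg, map_mul, map_mul, map_pow, h4, one_mul, hD]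
    calc v ((x - r) + (x' - r)) * v (x - r) ^ 2 ≤ v (x - r) * v (x - r) ^ 2 := by gcongr
      _ < 1 * v (x - r) ^ 2 := mul_lt_mul_of_pos_right hX1 hsq0
      _ = v (x - r) ^ 2 := one_mul _
  have hE : v ((t ^ 2 - (W.b₂ + 12 * r)) * (x' - x) ^ 2 +
      ((t' - t) * (x' - r) * (2 * t * ((x' - r) + (x - r)) + (t' - t) * (x' - r)) +
        -(4 * ((x - r) + (x' - r)) * (x' - x) ^ 2))) < v (x - r) ^ 2 :=
    v.map_add_lt hE1 (v.map_add_lt hE2 hE3)
  have htot : v (4 * (x₃ - r) * (x' - x) ^ 2) = v (x - r) ^ 2 := by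
    rw [key, v.map_add_eq_of_lt_left (by rw [hmain]; exact hE), hmain]
  rw [map_mul, map_mul, map_pow, h4, one_mul, hD] at htot
  have := mul_right_cancel₀ (ne_of_gt hsq0) (htot.trans (one_mul _).symm)
  exact this

/-- **Key lemma at a node, unit case.** -/
theorem key_node_unit {W : WeierstrassCurve K} (h2 : v (2 : K) = 1)
    {x y x' y' : K} (h : W.toAffine.Nonsingular x y) (h' : W.toAffine.Nonsingular x' y')
    (r : K) (hX1 : v (x - r) < 1) (hX0 : x - r ≠ 0) (hXX : v (x' - r) = v (x - r))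
    (hD : v (x' - x) = v (x - r)) (ht : v (eta W x y / (x - r)) = 1)
    (htt : v (eta W x' y' / (x' - r) - eta W x y / (x - r)) < 1)
    (hC : v ((eta W x y / (x - r)) ^ 2 - (W.b₂ + 12 * r)) < 1) :
    ∃ (x'' y'' : K) (h'' : W.toAffine.Nonsingular x'' y''),
      Point.some x' y' h' - Point.some x y h = Point.some x'' y'' h'' ∧ v (x'' - r) = 1 := by
  have hX0' : x' - r ≠ 0 := by
    rw [← v.pos_iff, hXX, v.pos_iff]; exact hX0
  exact key_node_unit_aux v h2 h h' r (eta W x y / (x - r)) (eta W x' y' / (x' - r))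
    (by field_simp) (by field_simp) hX1 hX0 hXX hD ht htt hC

end Fermat.Agent.RED
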