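import Mathlib
import Fermat.Agent.S05.LocalFix
import Fermat.Agent.S05.Tropical
import Fermat.Agent.RED.UnipKey

/-!
# Brick RED / EC-adic (c): inertia is unipotent on odd torsion at a node (local statement)

`W₀` a Weierstrass curve over `ℚ`, `L/ℚ` algebraic, `A` a valuation subring of `L` of odd
residue characteristic at which `W₀` has integral coefficients and the 2-division cubic is
`4 (x - r₁)(x - r₁ - e₂)(x - r₁ - e₃)` with a node at `r₁` (`0 < v e₂ < 1`, `e₃`, `e₃ - e₂`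
units).  For `σ, τ` in the inertia group of `A` and an `n`-torsion point `P` (`n` odd, a unit
at `A`):  `τ • (σ • P - P) = σ • P - P`   (`unip_local`).
-/

set_option autoImplicit false
set_option linter.unusedSectionVars false
set_option linter.unusedVariables false

namespace Fermat.Agent.RED

open WeierstrassCurve WeierstrassCurve.Affine Fermat.Agent.S05

variable {L : Type*} [Field L] [DecidableEq L] [Algebra ℚ L]

section Galois

variable (W₀ : WeierstrassCurve ℚ) (σ : L ≃ₐ[ℚ] L)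

theorem galois_b₂ : σ (W₀.baseChange L).b₂ = (W₀.baseChange L).b₂ := by
  simp [WeierstrassCurve.baseChange, WeierstrassCurve.map_b₂]

/-- `σ` permutes the roots of the 2-division cubic and moves integral elements by elements of
the maximal ideal: it fixes the simple root, hence the midpoint `r₁ + e₂ / 2` of the two
close roots. -/
theorem galois_midpoint (A : ValuationSubring L) (hσ : σ ∈ A.inertiaSubgroupIn ℚ)
    (h2 : A.valuation (2 : L) = 1) {r₁ e₂ e₃ : L}
    (hr : RootData (W₀.baseChange L) r₁ e₂ e₃) (hr₁ : r₁ ∈ A)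
    (he₃ : A.valuation e₃ = 1) (he₂₃ : A.valuation (e₃ - e₂) = 1) :
    σ (r₁ + e₂ / 2) = r₁ + e₂ / 2 := by
  have h20 : (2 : L) ≠ 0 := key_val_two_ne_zero _ h2
  have h40 : (4 : L) ≠ 0 := by
    have : (4 : L) = 2 * 2 := by norm_num
    rw [this]; exact mul_ne_zero h20 h20
  have he₃A : e₃ ∈ A := (A.valuation_le_one_iff _).1 he₃.le
  have hsA : r₁ + e₃ ∈ A := add_mem hr₁ he₃A
  -- `s = r₁ + e₃` is a root of the cubic, so is `σ s`
  have hb₂ := hr.hb₂
  have hb₄ := hr.hb₄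
  have hb₆ := hr.hb₆
  have hroot : 4 * (r₁ + e₃) ^ 3 + (W₀.baseChange L).b₂ * (r₁ + e₃) ^ 2
      + 2 * (W₀.baseChange L).b₄ * (r₁ + e₃) + (W₀.baseChange L).b₆ = 0 := by
    rw [hb₂, hb₄, hb₆]; ring
  have hσb₂ : σ (W₀.baseChange L).b₂ = (W₀.baseChange L).b₂ := by
    simp [WeierstrassCurve.baseChange, WeierstrassCurve.map_b₂]
  have hσb₄ : σ (W₀.baseChange L).b₄ = (W₀.baseChange L).b₄ := by
    simp [WeierstrassCurve.baseChange, WeierstrassCurve.map_b₄]
  have hσb₆ : σ (W₀.baseChange L).b₆ = (W₀.baseChange L).b₆ := by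
    simp [WeierstrassCurve.baseChange, WeierstrassCurve.map_b₆]
  have hroot' : 4 * (σ (r₁ + e₃)) ^ 3 + (W₀.baseChange L).b₂ * (σ (r₁ + e₃)) ^ 2
      + 2 * (W₀.baseChange L).b₄ * (σ (r₁ + e₃)) + (W₀.baseChange L).b₆ = 0 := by
    have := congrArg σ hroot
    simpa only [map_add, map_mul, map_pow, map_ofNat, hσb₂, hσb₄, hσb₆, map_zero] using this
  have hfac : 4 * ((σ (r₁ + e₃) - r₁) * (σ (r₁ + e₃) - r₁ - e₂) * (σ (r₁ + e₃) - r₁ - e₃))
      = 0 := by
    rw [← hroot', hb₂, hb₄, hb₆]; ring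
  have hmove := inertia_apply_sub_mem_nonunits hσ hsA
  rw [ValuationSubring.mem_nonunits_iff] at hmove
  have hs : σ (r₁ + e₃) = r₁ + e₃ := by
    rcases mul_eq_zero.1 hfac with h | h
    · exact absurd h h40
    rcases mul_eq_zero.1 h with h | h
    rcases mul_eq_zero.1 h with h | h
    · -- `σ s = r₁`
      exfalso
      have : σ (r₁ + e₃) - (r₁ + e₃) = -e₃ := by linear_combination h
      rw [this, Valuation.map_neg, he₃] at hmove
      exact lt_irrefl _ hmove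
    · -- `σ s = r₁ + e₂`
      exfalso
      have : σ (r₁ + e₃) - (r₁ + e₃) = -(e₃ - e₂) := by linear_combination h
      rw [this, Valuation.map_neg, he₂₃] at hmove
      exact lt_irrefl _ hmove
    · linear_combination h
  have hmid : r₁ + e₂ / 2 = (-(W₀.baseChange L).b₂ / 4 - (r₁ + e₃)) / 2 := by
    rw [hb₂]; field_simp; ring
  rw [hmid, map_div₀, map_sub, map_div₀, map_neg, hσb₂, hs, map_ofNat, map_ofNat]

end Galois

section Fix

/-- **Nonsingular case.** An `n`-torsion point (`n` a unit at `A`) whose `x`-coordinate is not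
congruent to the node is fixed by inertia. -/
theorem fix_of_nonsing (A : ValuationSubring L) {σ : L ≃ₐ[ℚ] L}
    (hσ : σ ∈ A.inertiaSubgroupIn ℚ) (W₀ : WeierstrassCurve ℚ)
    (h₁ : (W₀.baseChange L).a₁ ∈ A) (h₂ : (W₀.baseChange L).a₂ ∈ A)
    (h₃ : (W₀.baseChange L).a₃ ∈ A) (h₄ : (W₀.baseChange L).a₄ ∈ A)
    (h₆ : (W₀.baseChange L).a₆ ∈ A)
    (h2 : A.valuation (2 : L) = 1) (n : ℕ) (hn : (n : L) ∉ A.nonunits)
    {r₁ e₂ e₃ : L} (hr : RootData (W₀.baseChange L) r₁ e₂ e₃) (hr₁ : r₁ ∈ A)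
    (he₂ : A.valuation e₂ < 1) (he₃ : A.valuation e₃ = 1)
    {x y : L} (h : (W₀.baseChange L).toAffine.Nonsingular x y)
    (htors : n • Point.some x y h = 0) (hx : A.valuation (x - r₁) = 1) :
    σ • (Point.some x y h : (W₀⁄L).Point) = Point.some x y h := by
  classical
  obtain ⟨hb₂, hb₄, hb₆, hb₈⟩ := kernel_b_mem A h₁ h₂ h₃ h₄ h₆
  have hxA : x ∈ A := no_torsion_of_not_mem A _ h₁ h₂ h₃ h₄ h₆ n hn h htors
  have hyA : y ∈ A := no_torsion_of_not_mem_y A _ h₁ h₂ h₃ h₄ h₆ n hn h htors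
  have h' : (W₀.baseChange L).toAffine.Nonsingular (σ x) (σ y) :=
    (WeierstrassCurve.Affine.baseChange_nonsingular W₀ (f := σ.toAlgHom)
      σ.toAlgHom.injective x y).mpr h
  have hsm : σ • (Point.some x y h : (W₀⁄L).Point) = Point.some (σ x) (σ y) h' :=
    galois_smul_some σ h
  rw [hsm]
  by_contra hne
  have htors' : n • Point.some (σ x) (σ y) h' = 0 := by
    have := Point.algEquiv_smul_zsmul σ (n : ℤ) (Point.some x y h : (W₀⁄L).Point)
    rw [natCast_zsmul, natCast_zsmul, htors, hsm] at this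
    rw [← this]
    rfl
  have htorsQ : n • (Point.some (σ x) (σ y) h' - Point.some x y h) = 0 := by
    rw [smul_sub, htors, htors', sub_zero]
  suffices hclaim : ∃ (x'' y'' : L) (h'' : (W₀.baseChange L).toAffine.Nonsingular x'' y''),
      Point.some (σ x) (σ y) h' - Point.some x y h = Point.some x'' y'' h'' ∧
        1 < A.valuation x'' by
    obtain ⟨x'', y'', h'', hQ, hlt⟩ := hclaim
    rw [hQ] at htorsQ
    have := no_torsion_of_not_mem A _ h₁ h₂ h₃ h₄ h₆ n hn h'' htorsQ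
    rw [← A.valuation_le_one_iff] at this
    exact absurd hlt (not_lt.2 this)
  have hvb₂ : A.valuation (W₀.baseChange L).b₂ ≤ 1 := (A.valuation_le_one_iff _).2 hb₂
  have hvb₄ : A.valuation (W₀.baseChange L).b₄ ≤ 1 := (A.valuation_le_one_iff _).2 hb₄
  have hvx : A.valuation x ≤ 1 := (A.valuation_le_one_iff _).2 hxA
  have hηA : eta (W₀.baseChange L) x y ∈ A := by
    simp only [eta]
    exact add_mem (add_mem (mul_mem (ofNat_mem A 2) hyA) (mul_mem h₁ hxA)) h₃
  have hvη : A.valuation (eta (W₀.baseChange L) x y) ≤ 1 := (A.valuation_le_one_iff _).2 hηA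
  have hxx : A.valuation (σ x - x) < 1 :=
    (A.mem_nonunits_iff).1 (inertia_apply_sub_mem_nonunits hσ hxA)
  have hηη : A.valuation (eta (W₀.baseChange L) (σ x) (σ y) - eta (W₀.baseChange L) x y) < 1 := by
    rw [eta_galois]
    exact (A.mem_nonunits_iff).1 (inertia_apply_sub_mem_nonunits hσ hηA)
  have hη_sq : eta (W₀.baseChange L) x y ^ 2 = 4 * (x - r₁) * (x - r₁ - e₂) * (x - r₁ - e₃) := by
    rw [eta_sq _ h.1, hr.cub_eq]
  have hdc := hr.dcub_eq x
  have he₃A : e₃ ∈ A := (A.valuation_le_one_iff _).1 he₃.le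
  have hs₃ : A.valuation (x - r₁ - e₃) ≤ 1 :=
    (A.valuation_le_one_iff _).2 (sub_mem (sub_mem hxA hr₁) he₃A)
  have hs₂ : A.valuation (x - r₁ - e₂) = 1 := by
    rw [Valuation.map_sub_eq_of_lt_left _ (by rw [hx]; exact he₂), hx]
  have hns := hns_of_two_units A.valuation h2 (η := eta (W₀.baseChange L) x y)
    (c := 0) (d := dcub (W₀.baseChange L) x) (u₁ := x - r₁) (u₂ := x - r₁ - e₂)
    (s := x - r₁ - e₃) (hη_sq.trans (by ring)) (hdc.trans (by ring)) hx hs₂ hs₃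
  have hne' : Point.some (σ x) (σ y) h' ≠ Point.some x y h := hne
  exact key_nonsing _ hvb₂ hvb₄ h2 h h' hvx hvη hxx hηη hne' hns

end Fix

section Unip

variable [Algebra.IsAlgebraic ℚ L]

/-- **Node case.** For an odd-torsion point `P` reducing to the node, `σ • P - P` is `0` or a
point whose `x`-coordinate is integral and not congruent to the node. -/
theorem sub_of_node (A : ValuationSubring L) {σ : L ≃ₐ[ℚ] L}
    (hσ : σ ∈ A.inertiaSubgroupIn ℚ) (W₀ : WeierstrassCurve ℚ)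
    (h₁ : (W₀.baseChange L).a₁ ∈ A) (h₂ : (W₀.baseChange L).a₂ ∈ A)
    (h₃ : (W₀.baseChange L).a₃ ∈ A) (h₄ : (W₀.baseChange L).a₄ ∈ A)
    (h₆ : (W₀.baseChange L).a₆ ∈ A)
    (h2 : A.valuation (2 : L) = 1) (n : ℕ) (hn : (n : L) ∉ A.nonunits) (hodd : Odd n)
    {r₁ e₂ e₃ : L} (hr : RootData (W₀.baseChange L) r₁ e₂ e₃) (hr₁ : r₁ ∈ A)
    (he₂ : A.valuation e₂ < 1) (he₂0 : e₂ ≠ 0) (he₃ : A.valuation e₃ = 1)
    (he₂₃ : A.valuation (e₃ - e₂) = 1)
    {x y : L} (h : (W₀.baseChange L).toAffine.Nonsingular x y)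
    (htors : n • Point.some x y h = 0) (hx : A.valuation (x - r₁) < 1) :
    σ • (Point.some x y h : (W₀⁄L).Point) = Point.some x y h ∨
    ∃ (x'' y'' : L) (h'' : (W₀.baseChange L).toAffine.Nonsingular x'' y''),
      σ • (Point.some x y h : (W₀⁄L).Point) - Point.some x y h = Point.some x'' y'' h'' ∧
        A.valuation (x'' - r₁) = 1 := by
  classical
  have h20 : (2 : L) ≠ 0 := key_val_two_ne_zero _ h2
  have h4 : A.valuation (4 : L) = 1 := key_val_four _ h2
  obtain ⟨hb₂, hb₄, hb₆, hb₈⟩ := kernel_b_mem A h₁ h₂ h₃ h₄ h₆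
  have hxA : x ∈ A := no_torsion_of_not_mem A _ h₁ h₂ h₃ h₄ h₆ n hn h htors
  have hyA : y ∈ A := no_torsion_of_not_mem_y A _ h₁ h₂ h₃ h₄ h₆ n hn h htors
  have h' : (W₀.baseChange L).toAffine.Nonsingular (σ x) (σ y) :=
    (WeierstrassCurve.Affine.baseChange_nonsingular W₀ (f := σ.toAlgHom)
      σ.toAlgHom.injective x y).mpr h
  have hsm : σ • (Point.some x y h : (W₀⁄L).Point) = Point.some (σ x) (σ y) h' :=
    galois_smul_some σ h
  rw [hsm]
  by_cases hne : Point.some (σ x) (σ y) h' = Point.some x y h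
  · exact Or.inl hne
  right
  have htors' : n • Point.some (σ x) (σ y) h' = 0 := by
    have := Point.algEquiv_smul_zsmul σ (n : ℤ) (Point.some x y h : (W₀⁄L).Point)
    rw [natCast_zsmul, natCast_zsmul, htors, hsm] at this
    rw [← this]
    rfl
  have htorsQ : n • (Point.some (σ x) (σ y) h' - Point.some x y h) = 0 := by
    rw [smul_sub, htors, htors', sub_zero]
  have hvb₂ : A.valuation (W₀.baseChange L).b₂ ≤ 1 := (A.valuation_le_one_iff _).2 hb₂
  have hvx : A.valuation x ≤ 1 := (A.valuation_le_one_iff _).2 hxA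
  have hx'A : σ x ∈ A := (inertia_apply_mem_iff hσ x).2 hxA
  have hvx' : A.valuation (σ x) ≤ 1 := (A.valuation_le_one_iff _).2 hx'A
  -- the tropical step: the point lies in the open annulus
  obtain ⟨hlow, -⟩ := tropical_torsion A.valuation hr.hb₂ hr.hb₄ hr.hb₆ h2 he₃ he₂ he₂0 hodd h
    htors hx
  -- the midpoint
  have hσr : σ (r₁ + e₂ / 2) = r₁ + e₂ / 2 := galois_midpoint W₀ σ A hσ h2 hr hr₁ he₃ he₂₃
  have hve2 : A.valuation (e₂ / 2) = A.valuation e₂ := by
    rw [map_div₀, h2, div_one]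
  have hXe : x - (r₁ + e₂ / 2) = (x - r₁) - e₂ / 2 := by ring
  have hvX : A.valuation (x - (r₁ + e₂ / 2)) = A.valuation (x - r₁) := by
    rw [hXe, Valuation.map_sub_eq_of_lt_left _ (by rw [hve2]; exact hlow)]
  have hX1 : A.valuation (x - (r₁ + e₂ / 2)) < 1 := by rw [hvX]; exact hx
  have hν0 : 0 < A.valuation (x - r₁) := lt_of_le_of_lt zero_le hlow
  have hX0 : x - (r₁ + e₂ / 2) ≠ 0 := by
    rw [← Valuation.pos_iff A.valuation, hvX]; exact hν0
  have hvX0 : A.valuation (x - (r₁ + e₂ / 2)) ≠ 0 := (Valuation.ne_zero_iff _).2 hX0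
  -- `η`
  have hη_sq : eta (W₀.baseChange L) x y ^ 2 = 4 * (x - r₁) * (x - r₁ - e₂) * (x - r₁ - e₃) := by
    rw [eta_sq _ h.1, hr.cub_eq]
  have hs₂ : A.valuation (x - r₁ - e₂) = A.valuation (x - r₁) :=
    Valuation.map_sub_eq_of_lt_left _ hlow
  have hs₃ : A.valuation (x - r₁ - e₃) = 1 := by
    rw [Valuation.map_sub_eq_of_lt_right _ (by rw [he₃]; exact hx), he₃]
  have hηv : A.valuation (eta (W₀.baseChange L) x y) = A.valuation (x - (r₁ + e₂ / 2)) := by
    have : A.valuation (eta (W₀.baseChange L) x y) ^ 2 = A.valuation (x - r₁) ^ 2 := by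
      rw [← map_pow, hη_sq, map_mul, map_mul, map_mul, h4, hs₂, hs₃, one_mul, mul_one, sq]
    rw [hvX]
    exact (pow_left_inj₀ zero_le zero_le two_ne_zero).1 this
  have ht : A.valuation (eta (W₀.baseChange L) x y / (x - (r₁ + e₂ / 2))) = 1 := by
    rw [map_div₀, hηv, div_self hvX0]
  have htA : eta (W₀.baseChange L) x y / (x - (r₁ + e₂ / 2)) ∈ A :=
    (A.valuation_le_one_iff _).1 ht.le
  have htt : A.valuation (eta (W₀.baseChange L) (σ x) (σ y) / (σ x - (r₁ + e₂ / 2)) -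
      eta (W₀.baseChange L) x y / (x - (r₁ + e₂ / 2))) < 1 := by
    have e : eta (W₀.baseChange L) (σ x) (σ y) / (σ x - (r₁ + e₂ / 2)) =
        σ (eta (W₀.baseChange L) x y / (x - (r₁ + e₂ / 2))) := by
      rw [map_div₀, map_sub, hσr, eta_galois]
    rw [e]
    exact (A.mem_nonunits_iff).1 (inertia_apply_sub_mem_nonunits hσ htA)
  have hXX : A.valuation (σ x - (r₁ + e₂ / 2)) = A.valuation (x - (r₁ + e₂ / 2)) := by
    have e : σ x - (r₁ + e₂ / 2) = σ (x - (r₁ + e₂ / 2)) := by rw [map_sub, hσr]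
    rw [e, inertia_valuation_apply hσ]
  have hDle : A.valuation (σ x - x) ≤ A.valuation (x - (r₁ + e₂ / 2)) := by
    have e : σ x - x = (σ x - (r₁ + e₂ / 2)) - (x - (r₁ + e₂ / 2)) := by ring
    rw [e]
    exact Valuation.map_sub_le _ hXX.le le_rfl
  rcases hDle.lt_or_eq with hlt | heq
  · -- `P' - P` is in the kernel of reduction: impossible
    exfalso
    obtain ⟨x'', y'', h'', hQ, hgt⟩ := key_node _ hvb₂ h2 h h' (r₁ + e₂ / 2) hvx hvx' hX0 hlt ht
      htt hne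
    rw [hQ] at htorsQ
    have := no_torsion_of_not_mem A _ h₁ h₂ h₃ h₄ h₆ n hn h'' htorsQ
    rw [← A.valuation_le_one_iff] at this
    exact absurd hgt (not_lt.2 this)
  · -- the unit case
    have hC : A.valuation ((eta (W₀.baseChange L) x y / (x - (r₁ + e₂ / 2))) ^ 2 -
        ((W₀.baseChange L).b₂ + 12 * (r₁ + e₂ / 2))) < 1 := by
      have hsq0 : 0 < A.valuation (x - (r₁ + e₂ / 2)) ^ 2 :=
        pow_pos (zero_lt_iff.2 hvX0) 2
      have key : ((eta (W₀.baseChange L) x y / (x - (r₁ + e₂ / 2))) ^ 2 -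
          ((W₀.baseChange L).b₂ + 12 * (r₁ + e₂ / 2))) * (x - (r₁ + e₂ / 2)) ^ 2 =
          4 * (x - (r₁ + e₂ / 2)) ^ 3 - e₂ ^ 2 * (x - r₁ - e₃) := by
        rw [div_pow, sub_mul, div_mul_cancel₀ _ (pow_ne_zero 2 hX0), hη_sq, hr.hb₂]
        field_simp
        ring
      have hA1 : A.valuation (4 * (x - (r₁ + e₂ / 2)) ^ 3) <
          A.valuation (x - (r₁ + e₂ / 2)) ^ 2 := by
        rw [map_mul, h4, one_mul, map_pow, pow_succ]
        calc A.valuation (x - (r₁ + e₂ / 2)) ^ 2 * A.valuation (x - (r₁ + e₂ / 2))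
            < A.valuation (x - (r₁ + e₂ / 2)) ^ 2 * 1 := by
              exact mul_lt_mul_of_pos_left hX1 hsq0
          _ = A.valuation (x - (r₁ + e₂ / 2)) ^ 2 := mul_one _
      have hA2 : A.valuation (e₂ ^ 2 * (x - r₁ - e₃)) <
          A.valuation (x - (r₁ + e₂ / 2)) ^ 2 := by
        rw [map_mul, hs₃, mul_one, map_pow, hvX]
        exact pow_lt_pow_left₀ hlow zero_le two_ne_zero
      have hlt2 : A.valuation (((eta (W₀.baseChange L) x y / (x - (r₁ + e₂ / 2))) ^ 2 -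
          ((W₀.baseChange L).b₂ + 12 * (r₁ + e₂ / 2))) * (x - (r₁ + e₂ / 2)) ^ 2) <
          A.valuation (x - (r₁ + e₂ / 2)) ^ 2 := by
        rw [key]
        exact Valuation.map_sub_lt _ hA1 hA2
      rw [map_mul, map_pow] at hlt2
      by_contra hge
      rw [not_lt] at hge
      have : A.valuation (x - (r₁ + e₂ / 2)) ^ 2 ≤
          A.valuation ((eta (W₀.baseChange L) x y / (x - (r₁ + e₂ / 2))) ^ 2 -
            ((W₀.baseChange L).b₂ + 12 * (r₁ + e₂ / 2))) *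
            A.valuation (x - (r₁ + e₂ / 2)) ^ 2 := by
        calc A.valuation (x - (r₁ + e₂ / 2)) ^ 2
            = 1 * A.valuation (x - (r₁ + e₂ / 2)) ^ 2 := (one_mul _).symm
          _ ≤ _ := by gcongr
      exact absurd hlt2 (not_lt.2 this)
    obtain ⟨x'', y'', h'', hQ, hu⟩ := key_node_unit A.valuation h2 h h' (r₁ + e₂ / 2) hX1 hX0
      hXX heq ht htt hC
    refine ⟨x'', y'', h'', hQ, ?_⟩
    have e : x'' - r₁ = (x'' - (r₁ + e₂ / 2)) + e₂ / 2 := by ring
    rw [e, Valuation.map_add_eq_of_lt_left _ (by rw [hu, hve2]; exact he₂), hu]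

/-- **Inertia is unipotent on odd torsion at a node** (local statement). -/
theorem unip_local (A : ValuationSubring L) {σ τ : L ≃ₐ[ℚ] L}
    (hσ : σ ∈ A.inertiaSubgroupIn ℚ) (hτ : τ ∈ A.inertiaSubgroupIn ℚ)
    (W₀ : WeierstrassCurve ℚ)
    (h₁ : (W₀.baseChange L).a₁ ∈ A) (h₂ : (W₀.baseChange L).a₂ ∈ A)
    (h₃ : (W₀.baseChange L).a₃ ∈ A) (h₄ : (W₀.baseChange L).a₄ ∈ A)
    (h₆ : (W₀.baseChange L).a₆ ∈ A)
    (h2 : A.valuation (2 : L) = 1) (n : ℕ) (hn : (n : L) ∉ A.nonunits) (hodd : Odd n)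
    {r₁ e₂ e₃ : L} (hr : RootData (W₀.baseChange L) r₁ e₂ e₃) (hr₁ : r₁ ∈ A)
    (he₂ : A.valuation e₂ < 1) (he₂0 : e₂ ≠ 0) (he₃ : A.valuation e₃ = 1)
    (he₂₃ : A.valuation (e₃ - e₂) = 1)
    (P : (W₀⁄L).Point) (hP : n • P = 0) :
    τ • (σ • P - P) = σ • P - P := by
  classical
  obtain ⟨hb₂, hb₄, hb₆, hb₈⟩ := kernel_b_mem A h₁ h₂ h₃ h₄ h₆
  have hτ0 : τ • (0 : (W₀⁄L).Point) = 0 := galois_smul_zero τ
  rcases P with _ | ⟨x, y, h⟩
  · have h0 : σ • (0 : (W₀⁄L).Point) - 0 = 0 := by rw [galois_smul_zero, sub_zero]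
    show τ • (σ • (0 : (W₀⁄L).Point) - 0) = σ • (0 : (W₀⁄L).Point) - 0
    rw [h0, hτ0]
  · have hxA : x ∈ A := no_torsion_of_not_mem A _ h₁ h₂ h₃ h₄ h₆ n hn h hP
    have hs₁ : A.valuation (x - r₁) ≤ 1 := (A.valuation_le_one_iff _).2 (sub_mem hxA hr₁)
    have hσn : n • (σ • (Point.some x y h : (W₀⁄L).Point)) = 0 := by
      have := Point.algEquiv_smul_zsmul σ (n : ℤ) (Point.some x y h : (W₀⁄L).Point)
      rw [natCast_zsmul, natCast_zsmul, hP] at this
      rw [← this]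
      exact galois_smul_zero σ
    rcases hs₁.lt_or_eq with hlt | heq
    · rcases sub_of_node A hσ W₀ h₁ h₂ h₃ h₄ h₆ h2 n hn hodd hr hr₁ he₂ he₂0 he₃ he₂₃ h hP hlt
        with hfix | ⟨x'', y'', h'', hQ, hu⟩
      · rw [hfix, sub_self, hτ0]
      · rw [hQ]
        have htorsQ : n • (Point.some x'' y'' h'' : (W₀⁄L).Point) = 0 := by
          rw [← hQ, smul_sub, hσn, hP, sub_zero]
        exact fix_of_nonsing A hτ W₀ h₁ h₂ h₃ h₄ h₆ h2 n hn hr hr₁ he₂ he₃ h'' htorsQ hu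
    · have hfix := fix_of_nonsing A hσ W₀ h₁ h₂ h₃ h₄ h₆ h2 n hn hr hr₁ he₂ he₃ h hP heq
      rw [hfix, sub_self, hτ0]

end Unip

end Fermat.Agent.RED
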