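import Mathlib
import Fermat.Agent.S05.Assembly

/-!
# Brick RED / EC-adic (c): root data at a multiplicative place of odd residue characteristic

`W` a Weierstrass curve over an algebraically closed field `L`, `v` a valuation with `v 2 = 1`,
integral coefficients, `v Δ < 1`, `Δ ≠ 0`, `v c₄ = 1`.  Then the 2-division cubic
`4x³ + b₂x² + 2b₄x + b₆` is `4 (x - r₁)(x - r₁ - e₂)(x - r₁ - e₃)` with `r₁, e₂, e₃` integral,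
`0 < v e₂ < 1` (a node at `x ≡ r₁`) and `e₃`, `e₃ - e₂` units (`exists_rootData`).
-/

set_option autoImplicit false
set_option linter.unusedSectionVars false

namespace Fermat.Agent.RED

open WeierstrassCurve Fermat.Agent.S05 Polynomial

variable {L : Type*} [Field L] [DecidableEq L]
variable {Γ₀ : Type*} [LinearOrderedCommGroupWithZero Γ₀] (v : Valuation L Γ₀)

/-- A root of a cubic `4x³ + b₂x² + cx + d` with integral coefficients is integral. -/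
theorem root_integral (h2 : v (2 : L) = 1) {b c d ρ : L} (hb : v b ≤ 1) (hc : v c ≤ 1)
    (hd : v d ≤ 1) (hρ : 4 * ρ ^ 3 + b * ρ ^ 2 + c * ρ + d = 0) : v ρ ≤ 1 := by
  by_contra hlt
  rw [not_le] at hlt
  have h4 : v (4 : L) = 1 := key_val_four v h2
  have h0 : (0 : Γ₀) < v ρ := lt_trans zero_lt_one hlt
  have h3 : v (4 * ρ ^ 3) = v ρ ^ 3 := by rw [map_mul, h4, one_mul, map_pow]
  have hρ2 : v ρ ^ 2 < v ρ ^ 3 := by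
    calc v ρ ^ 2 = 1 * v ρ ^ 2 := (one_mul _).symm
      _ < v ρ * v ρ ^ 2 := mul_lt_mul_of_pos_right hlt (pow_pos h0 2)
      _ = v ρ ^ 3 := (pow_succ' _ _).symm
  have hρ1 : v ρ < v ρ ^ 2 := by
    calc v ρ = 1 * v ρ := (one_mul _).symm
      _ < v ρ * v ρ := mul_lt_mul_of_pos_right hlt h0
      _ = v ρ ^ 2 := (sq _).symm
  have e1 : v (b * ρ ^ 2) < v ρ ^ 3 := by
    rw [map_mul, map_pow]
    calc v b * v ρ ^ 2 ≤ 1 * v ρ ^ 2 := by gcongr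
      _ = v ρ ^ 2 := one_mul _
      _ < v ρ ^ 3 := hρ2
  have e2 : v (c * ρ) < v ρ ^ 3 := by
    rw [map_mul]
    calc v c * v ρ ≤ 1 * v ρ := by gcongr
      _ = v ρ := one_mul _
      _ < v ρ ^ 2 := hρ1
      _ < v ρ ^ 3 := hρ2
  have e3 : v d < v ρ ^ 3 := lt_of_le_of_lt hd (lt_trans hlt (lt_trans hρ1 hρ2))
  have e : 4 * ρ ^ 3 + b * ρ ^ 2 + c * ρ + d = 4 * ρ ^ 3 + (b * ρ ^ 2 + (c * ρ + d)) := by ring
  have : v (4 * ρ ^ 3 + b * ρ ^ 2 + c * ρ + d) = v ρ ^ 3 := by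
    rw [e, v.map_add_eq_of_lt_left (by rw [h3]; exact v.map_add_lt e1 (v.map_add_lt e2 e3)), h3]
  rw [hρ, map_zero] at this
  exact (ne_of_gt (pow_pos h0 3)) this.symm

/-- Over an algebraically closed field a monic cubic splits. -/
theorem exists_three_roots_monic [IsAlgClosed L] (β γ δ : L) :
    ∃ ρ₁ ρ₂ ρ₃ : L, β = -(ρ₁ + ρ₂ + ρ₃) ∧ γ = ρ₁ * ρ₂ + ρ₁ * ρ₃ + ρ₂ * ρ₃ ∧
      δ = -(ρ₁ * ρ₂ * ρ₃) := by
  have hdeg : (C (1 : L) * X ^ 3 + C β * X ^ 2 + C γ * X + C δ).degree ≠ 0 := by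
    rw [degree_cubic one_ne_zero]; decide
  obtain ⟨ρ₁, hρ₁⟩ := IsAlgClosed.exists_root _ hdeg
  simp only [IsRoot.def, eval_add, eval_mul, eval_C, eval_pow, eval_X, one_mul] at hρ₁
  have hdeg2 : (C (1 : L) * X ^ 2 + C (ρ₁ + β) * X + C (ρ₁ ^ 2 + β * ρ₁ + γ)).degree ≠ 0 := by
    rw [degree_quadratic one_ne_zero]; decide
  obtain ⟨ρ₂, hρ₂⟩ := IsAlgClosed.exists_root _ hdeg2
  simp only [IsRoot.def, eval_add, eval_mul, eval_C, eval_pow, eval_X, one_mul] at hρ₂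
  refine ⟨ρ₁, ρ₂, -(ρ₁ + β) - ρ₂, ?_, ?_, ?_⟩
  · ring
  · linear_combination hρ₂
  · linear_combination hρ₁ - ρ₁ * hρ₂

/-- Over an algebraically closed field a cubic `4x³ + bx² + cx + d` splits (`4 ≠ 0`). -/
theorem exists_three_roots [IsAlgClosed L] (h4 : (4 : L) ≠ 0) (b c d : L) :
    ∃ ρ₁ ρ₂ ρ₃ : L, b = -4 * (ρ₁ + ρ₂ + ρ₃) ∧ c = 4 * (ρ₁ * ρ₂ + ρ₁ * ρ₃ + ρ₂ * ρ₃) ∧
      d = -4 * (ρ₁ * ρ₂ * ρ₃) := by
  obtain ⟨ρ₁, ρ₂, ρ₃, h1, h2, h3⟩ := exists_three_roots_monic (b / 4) (c / 4) (d / 4)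
  refine ⟨ρ₁, ρ₂, ρ₃, ?_, ?_, ?_⟩
  · rw [div_eq_iff h4] at h1
    linear_combination h1
  · rw [div_eq_iff h4] at h2
    linear_combination h2
  · rw [div_eq_iff h4] at h3
    linear_combination h3

/-- Symmetric helper: the roots `ρ₂, ρ₃` are close. -/
theorem rootData_of_close (W : WeierstrassCurve L) (h2 : v (2 : L) = 1)
    {ρ₁ ρ₂ ρ₃ : L} (hb₂ : W.b₂ = -4 * (ρ₁ + ρ₂ + ρ₃))
    (hb₄ : W.b₄ = 2 * (ρ₁ * ρ₂ + ρ₁ * ρ₃ + ρ₂ * ρ₃)) (hb₆ : W.b₆ = -4 * (ρ₁ * ρ₂ * ρ₃))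
    (h₁ : v ρ₁ ≤ 1) (h₂ : v ρ₂ ≤ 1) (h₃ : v ρ₃ ≤ 1)
    (hΔ0 : W.Δ ≠ 0) (hc₄ : v W.c₄ = 1) (h23 : v (ρ₂ - ρ₃) < 1) :
    ∃ r₁ e₂ e₃ : L, RootData W r₁ e₂ e₃ ∧ v r₁ ≤ 1 ∧ v e₂ < 1 ∧ e₂ ≠ 0 ∧ v e₃ = 1 ∧
      v (e₃ - e₂) = 1 := by
  have h8 : v (8 : L) = 1 := by
    have : (8 : L) = 2 * 2 * 2 := by norm_num
    rw [this, map_mul, map_mul, h2, one_mul, one_mul]
  have hc₄eq : W.c₄ = 8 * ((ρ₁ - ρ₂) ^ 2 + (ρ₁ - ρ₃) ^ 2 + (ρ₂ - ρ₃) ^ 2) := by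
    rw [WeierstrassCurve.c₄, hb₂, hb₄]; ring
  have hΔeq : W.Δ = 16 * ((ρ₁ - ρ₂) * (ρ₁ - ρ₃) * (ρ₂ - ρ₃)) ^ 2 := by
    have hrel := W.b_relation
    rw [hb₂, hb₄, hb₆] at hrel
    rw [WeierstrassCurve.Δ, hb₂, hb₄, hb₆]
    linear_combination (-4 * (ρ₁ + ρ₂ + ρ₃) ^ 2) * hrel
  have hd12 : v (ρ₁ - ρ₂) ≤ 1 := v.map_sub_le h₁ h₂
  have hd13 : v (ρ₁ - ρ₃) ≤ 1 := v.map_sub_le h₁ h₃
  -- both other differences are units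
  have hsmall : ∀ {a b c : L}, v a < 1 → v b < 1 → v c < 1 →
      v (8 * (a ^ 2 + b ^ 2 + c ^ 2)) < 1 := by
    intro a b c ha hb hc
    rw [map_mul, h8, one_mul]
    have hsq : ∀ {z : L}, v z < 1 → v (z ^ 2) < 1 := by
      intro z hz
      rw [map_pow]
      exact pow_lt_one₀ zero_le hz two_ne_zero
    exact v.map_add_lt (v.map_add_lt (hsq ha) (hsq hb)) (hsq hc)
  have hu12 : v (ρ₁ - ρ₂) = 1 := by
    rcases hd12.lt_or_eq with hlt | heq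
    · exfalso
      have h13 : v (ρ₁ - ρ₃) < 1 := by
        have : ρ₁ - ρ₃ = (ρ₁ - ρ₂) + (ρ₂ - ρ₃) := by ring
        rw [this]
        exact v.map_add_lt hlt h23
      have := hsmall hlt h13 h23
      rw [← hc₄eq, hc₄] at this
      exact lt_irrefl _ this
    · exact heq
  have hu13 : v (ρ₁ - ρ₃) = 1 := by
    rcases hd13.lt_or_eq with hlt | heq
    · exfalso
      have h12 : v (ρ₁ - ρ₂) < 1 := by
        have : ρ₁ - ρ₂ = (ρ₁ - ρ₃) - (ρ₂ - ρ₃) := by ring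
        rw [this]
        exact v.map_sub_lt hlt h23
      rw [hu12] at h12
      exact lt_irrefl _ h12
    · exact heq
  refine ⟨ρ₂, ρ₃ - ρ₂, ρ₁ - ρ₂, ⟨?_, ?_, ?_⟩, h₂, ?_, ?_, hu12, ?_⟩
  · rw [hb₂]; ring
  · rw [hb₄]; ring
  · rw [hb₆]; ring
  · rw [← Valuation.map_neg, neg_sub]; exact h23
  · intro h0
    apply hΔ0
    rw [hΔeq]
    have : ρ₂ - ρ₃ = 0 := by linear_combination (-1 : L) * h0
    rw [this]; ring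
  · have : ρ₁ - ρ₂ - (ρ₃ - ρ₂) = ρ₁ - ρ₃ := by ring
    rw [this]; exact hu13

/-- **Root data at a multiplicative place** (odd residue characteristic). -/
theorem exists_rootData [IsAlgClosed L] (W : WeierstrassCurve L) (h2 : v (2 : L) = 1)
    (hb₂ : v W.b₂ ≤ 1) (hb₄ : v W.b₄ ≤ 1) (hb₆ : v W.b₆ ≤ 1)
    (hΔ0 : W.Δ ≠ 0) (hΔ : v W.Δ < 1) (hc₄ : v W.c₄ = 1) :
    ∃ r₁ e₂ e₃ : L, RootData W r₁ e₂ e₃ ∧ v r₁ ≤ 1 ∧ v e₂ < 1 ∧ e₂ ≠ 0 ∧ v e₃ = 1 ∧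
      v (e₃ - e₂) = 1 := by
  have h20 : (2 : L) ≠ 0 := key_val_two_ne_zero v h2
  have h4v : v (4 : L) = 1 := key_val_four v h2
  have h40 : (4 : L) ≠ 0 := by
    intro h0; rw [h0, map_zero] at h4v; exact zero_ne_one h4v
  obtain ⟨ρ₁, ρ₂, ρ₃, e₂, e₄, e₆⟩ := exists_three_roots h40 W.b₂ (2 * W.b₄) W.b₆
  have e₄' : W.b₄ = 2 * (ρ₁ * ρ₂ + ρ₁ * ρ₃ + ρ₂ * ρ₃) := by
    apply mul_left_cancel₀ h20
    linear_combination e₄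
  have h2b₄ : v (2 * W.b₄) ≤ 1 := by rw [map_mul, h2, one_mul]; exact hb₄
  have hr₁ : v ρ₁ ≤ 1 := root_integral v h2 hb₂ h2b₄ hb₆ (by rw [e₂, e₄, e₆]; ring)
  have hr₂ : v ρ₂ ≤ 1 := root_integral v h2 hb₂ h2b₄ hb₆ (by rw [e₂, e₄, e₆]; ring)
  have hr₃ : v ρ₃ ≤ 1 := root_integral v h2 hb₂ h2b₄ hb₆ (by rw [e₂, e₄, e₆]; ring)
  have hΔeq : W.Δ = 16 * ((ρ₁ - ρ₂) * (ρ₁ - ρ₃) * (ρ₂ - ρ₃)) ^ 2 := by
    have hrel := W.b_relation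
    rw [e₂, e₄', e₆] at hrel
    rw [WeierstrassCurve.Δ, e₂, e₄', e₆]
    linear_combination (-4 * (ρ₁ + ρ₂ + ρ₃) ^ 2) * hrel
  have h16 : v (16 : L) = 1 := by
    have : (16 : L) = 4 * 4 := by norm_num
    rw [this, map_mul, h4v, one_mul]
  have hprod : v ((ρ₁ - ρ₂) * (ρ₁ - ρ₃) * (ρ₂ - ρ₃)) < 1 := by
    rw [hΔeq, map_mul, h16, one_mul, map_pow] at hΔ
    by_contra hge
    rw [not_lt] at hge
    have := one_le_pow₀ hge (n := 2)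
    exact absurd hΔ (not_lt.2 this)
  have hd12 : v (ρ₁ - ρ₂) ≤ 1 := v.map_sub_le hr₁ hr₂
  have hd13 : v (ρ₁ - ρ₃) ≤ 1 := v.map_sub_le hr₁ hr₃
  have hd23 : v (ρ₂ - ρ₃) ≤ 1 := v.map_sub_le hr₂ hr₃
  rcases hd23.lt_or_eq with h23 | h23
  · exact rootData_of_close v W h2 e₂ e₄' e₆ hr₁ hr₂ hr₃ hΔ0 hc₄ h23
  rcases hd13.lt_or_eq with h13 | h13
  · -- `ρ₁, ρ₃` close: use the order `(ρ₂, ρ₁, ρ₃)`
    exact rootData_of_close v W h2 (ρ₁ := ρ₂) (ρ₂ := ρ₁) (ρ₃ := ρ₃)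
      (by rw [e₂]; ring) (by rw [e₄']; ring) (by rw [e₆]; ring) hr₂ hr₁ hr₃ hΔ0 hc₄ h13
  rcases hd12.lt_or_eq with h12 | h12
  · -- `ρ₁, ρ₂` close: use the order `(ρ₃, ρ₁, ρ₂)`
    exact rootData_of_close v W h2 (ρ₁ := ρ₃) (ρ₂ := ρ₁) (ρ₃ := ρ₂)
      (by rw [e₂]; ring) (by rw [e₄']; ring) (by rw [e₆]; ring) hr₃ hr₁ hr₂ hΔ0 hc₄ h12
  · exfalso
    rw [map_mul, map_mul, h12, h13, h23] at hprod
    simp at hprod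

end Fermat.Agent.RED
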