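import Fermat.Agent.RED.UnipFix
import Fermat.Agent.RED.UnipRoots
import Fermat.Prelude.Def_FLTPrelim_Modularity

/-!
# Brick RED / EC-adic (c): inertia at a multiplicative prime `q ≠ 2` is unipotent on odd torsion

`W : WeierstrassCurve ℤ`, `Δ ≠ 0`, `q` an odd prime with `q ∣ Δ`, `q ∤ c₄` (multiplicative
reduction), `A` a valuation subring of `ℚ̄` over `q`, `σ, τ` in the inertia group of `A`,
`n` odd and prime to `q`, `n • P = 0`:

  `τ • (σ • P - P) = σ • P - P`     (`inertia_unipotent_of_mult`),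

in particular `(σ - 1)² P = 0` (`inertia_sub_sq_of_mult`, the hypothesis of
`Fermat.Agent.EC.tateRepInt_isUnipotentOnInertiaAt_of_torsion`).
-/

set_option autoImplicit false

namespace Fermat.Agent.RED

open WeierstrassCurve WeierstrassCurve.Affine Fermat.Agent.S05

/-- `ℚ̄` -/
local notation "Qbar" => AlgebraicClosure ℚ

section Coeff

variable (W : WeierstrassCurve ℤ)

theorem unip_a₁ : ((W.map (Int.castRingHom ℚ)).baseChange Qbar).a₁ = ((W.a₁ : ℤ) : Qbar) := by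
  simp [WeierstrassCurve.baseChange]

theorem unip_a₂ : ((W.map (Int.castRingHom ℚ)).baseChange Qbar).a₂ = ((W.a₂ : ℤ) : Qbar) := by
  simp [WeierstrassCurve.baseChange]

theorem unip_a₃ : ((W.map (Int.castRingHom ℚ)).baseChange Qbar).a₃ = ((W.a₃ : ℤ) : Qbar) := by
  simp [WeierstrassCurve.baseChange]

theorem unip_a₄ : ((W.map (Int.castRingHom ℚ)).baseChange Qbar).a₄ = ((W.a₄ : ℤ) : Qbar) := by
  simp [WeierstrassCurve.baseChange]

theorem unip_a₆ : ((W.map (Int.castRingHom ℚ)).baseChange Qbar).a₆ = ((W.a₆ : ℤ) : Qbar) := by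
  simp [WeierstrassCurve.baseChange]

theorem unip_Δ : ((W.map (Int.castRingHom ℚ)).baseChange Qbar).Δ = ((W.Δ : ℤ) : Qbar) := by
  simp [WeierstrassCurve.baseChange, WeierstrassCurve.map_Δ]

theorem unip_c₄ : ((W.map (Int.castRingHom ℚ)).baseChange Qbar).c₄ = ((W.c₄ : ℤ) : Qbar) := by
  simp [WeierstrassCurve.baseChange, WeierstrassCurve.map_c₄]

end Coeff

/-- **Inertia at a multiplicative prime `q ≠ 2` is unipotent on odd prime-to-`q` torsion.** -/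
theorem inertia_unipotent_of_mult (W : WeierstrassCurve ℤ) {q : ℕ} (hq : q.Prime) (hq2 : q ≠ 2)
    (hΔ0 : W.Δ ≠ 0) (hbad : (q : ℤ) ∣ W.Δ) (hc₄ : ¬ (q : ℤ) ∣ W.c₄)
    (A : ValuationSubring Qbar) (hA : A.LiesOverPrime q)
    {σ τ : Qbar ≃ₐ[ℚ] Qbar} (hσ : σ ∈ A.inertiaSubgroupIn ℚ) (hτ : τ ∈ A.inertiaSubgroupIn ℚ)
    {n : ℕ} (hn : ¬ q ∣ n) (hodd : Odd n)
    (P : ((W.map (Int.castRingHom ℚ)).toAffine⁄Qbar).Point) (hP : n • P = 0) :
    τ • (σ • P - P) = σ • P - P := by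
  have : Algebra.IsAlgebraic ℚ Qbar := isAlgebraic_rat_qbar
  have h2 : A.valuation (2 : Qbar) = 1 := valuation_two_eq_one A hq hA hq2
  have h₁ : ((W.map (Int.castRingHom ℚ)).baseChange Qbar).a₁ ∈ A := by
    rw [unip_a₁]; exact intCast_mem A _
  have h₂ : ((W.map (Int.castRingHom ℚ)).baseChange Qbar).a₂ ∈ A := by
    rw [unip_a₂]; exact intCast_mem A _
  have h₃ : ((W.map (Int.castRingHom ℚ)).baseChange Qbar).a₃ ∈ A := by
    rw [unip_a₃]; exact intCast_mem A _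
  have h₄ : ((W.map (Int.castRingHom ℚ)).baseChange Qbar).a₄ ∈ A := by
    rw [unip_a₄]; exact intCast_mem A _
  have h₆ : ((W.map (Int.castRingHom ℚ)).baseChange Qbar).a₆ ∈ A := by
    rw [unip_a₆]; exact intCast_mem A _
  obtain ⟨hb₂, hb₄, hb₆, -⟩ := kernel_b_mem A h₁ h₂ h₃ h₄ h₆
  have hΔ0' : ((W.map (Int.castRingHom ℚ)).baseChange Qbar).Δ ≠ 0 := by
    rw [unip_Δ]; exact_mod_cast hΔ0
  have hΔv : A.valuation ((W.map (Int.castRingHom ℚ)).baseChange Qbar).Δ < 1 := by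
    rw [unip_Δ]; exact (valuation_intCast_lt_one_iff A hq hA _).2 hbad
  have hc₄v : A.valuation ((W.map (Int.castRingHom ℚ)).baseChange Qbar).c₄ = 1 := by
    rw [unip_c₄]; exact (valuation_intCast_eq_one_iff A hq hA _).2 hc₄
  obtain ⟨r₁, e₂, e₃, hr, hr₁, he₂, he₂0, he₃, he₂₃⟩ :=
    exists_rootData A.valuation ((W.map (Int.castRingHom ℚ)).baseChange Qbar) h2
      ((A.valuation_le_one_iff _).2 hb₂) ((A.valuation_le_one_iff _).2 hb₄)
      ((A.valuation_le_one_iff _).2 hb₆) hΔ0' hΔv hc₄v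
  have hn' : (n : Qbar) ∉ A.nonunits := fun h => hn ((natCast_mem_nonunits_iff A hq hA n).1 h)
  exact unip_local A hσ hτ (W.map (Int.castRingHom ℚ)) h₁ h₂ h₃ h₄ h₆ h2 n hn' hodd hr
    ((A.valuation_le_one_iff _).1 hr₁) he₂ he₂0 he₃ he₂₃ P hP

/-- `(σ - 1)² = 0` on odd prime-to-`q` torsion, in the shape consumed by
`Fermat.Agent.EC.tateRepInt_isUnipotentOnInertiaAt_of_torsion`. -/
theorem inertia_sub_sq_of_mult (W : WeierstrassCurve ℤ) {q : ℕ} (hq : q.Prime) (hq2 : q ≠ 2)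
    (hΔ0 : W.Δ ≠ 0) (hbad : (q : ℤ) ∣ W.Δ) (hc₄ : ¬ (q : ℤ) ∣ W.c₄)
    {ℓ : ℕ} (hℓ : ℓ.Prime) (hℓ2 : ℓ ≠ 2) (hne : q ≠ ℓ) :
    ∀ A : ValuationSubring Qbar, A.LiesOverPrime q → ∀ σ ∈ A.inertiaSubgroupIn ℚ,
      ∀ (n : ℕ) (P : ((W.map (Int.castRingHom ℚ)).toAffine⁄Qbar).Point), ℓ ^ n • P = 0 →
        σ • (σ • P - P) - (σ • P - P) = 0 := by
  intro A hA σ hσ n P hP
  rw [sub_eq_zero]
  refine inertia_unipotent_of_mult W hq hq2 hΔ0 hbad hc₄ A hA hσ hσ (n := ℓ ^ n) ?_ ?_ P hP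
  · intro hdvd
    exact hne ((Nat.prime_dvd_prime_iff_eq hq hℓ).1 (hq.dvd_of_dvd_pow hdvd))
  · exact (hℓ.odd_of_ne_two hℓ2).pow

end Fermat.Agent.RED
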