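import Mathlib
import Fermat.Agent.RED.UnipRoots
import Fermat.Agent.S13.Local.AtTwoVal
import Fermat.Agent.EC.VarChange

/-!
# Brick RED / EC-adic (c) at residue characteristic 2: root data

`W` a Weierstrass curve over an algebraically closed field `L`, `v` a valuation with `v 2 < 1`,
`2 ≠ 0`, integral coefficients, `v b₂ = 1` (equivalently `v c₄ = 1`), `Δ ≠ 0`, `v Δ < 1`
(multiplicative reduction at a place above `2`).

* `two_exists_integral_root`: the 2-division cubic `4x³ + b₂x² + 2b₄x + b₆` has an integral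
  root `xT`.  With `yT := -(a₁ xT + a₃) / 2` the point `T = (xT, yT)` is a point of order 2
  reducing to the node.
* `twoVC xT yT`: the translation moving `T` to the origin; the translated curve
  `twoVC xT yT • W` is `y² + a₁xy = x³ + a₂''x² + a₄''x` with `v b₂'' = 1`, `0 < v a₄'' < 1`
  (`two_data`).
* `two_root_close`: every integral root `x'` of the cubic has
  `v (x' - xT) ≤ v 4 * v a₄''`.
-/

set_option autoImplicit false
set_option linter.unusedSectionVars false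
set_option linter.unusedVariables false

namespace Fermat.Agent.RED

open WeierstrassCurve Fermat.Agent.S13 Fermat.Agent.EC

variable {L : Type*} [Field L] [DecidableEq L]
variable {Γ₀ : Type*} [LinearOrderedCommGroupWithZero Γ₀] (v : Valuation L Γ₀)

/-- A root of a monic quadratic with integral coefficients is integral. -/
theorem two_quad_integral {β γ y : L} (hβ : v β ≤ 1) (hγ : v γ ≤ 1)
    (h : y ^ 2 + β * y + γ = 0) : v y ≤ 1 := by
  by_contra hcon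
  rw [not_le] at hcon
  have hs0 : 0 < v y := lt_trans zero_lt_one hcon
  have hl2 : v y < v (y ^ 2) := by
    rw [map_pow, sq]
    calc v y = 1 * v y := (one_mul _).symm
      _ < v y * v y := mul_lt_mul_of_pos_right hcon hs0
  have ha : v (β * y) < v (y ^ 2) := by
    rw [map_mul]
    calc v β * v y ≤ 1 * v y := mul_le_mul' hβ le_rfl
      _ = v y := one_mul _
      _ < v (y ^ 2) := hl2
  have e1 : v (y ^ 2 + β * y) = v (y ^ 2) := v.map_add_eq_of_lt_left ha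
  have e2 : v (y ^ 2 + β * y + γ) = v (y ^ 2) := by
    rw [v.map_add_eq_of_lt_left (by rw [e1]; exact lt_of_le_of_lt hγ (lt_trans hcon hl2)), e1]
  rw [h, map_zero] at e2
  rw [← e2] at hl2
  exact not_lt_zero hl2

/-- If `ρ` is a non-integral root of `4x³ + bx² + 2cx + d` (`c, d` integral) then
`4ρ + b` lies in the maximal ideal. -/
theorem two_root_shift_lt {b c d ρ : L} (hc : v c ≤ 1) (hd : v d ≤ 1)
    (hρ : 4 * ρ ^ 3 + b * ρ ^ 2 + 2 * c * ρ + d = 0) (hlt : 1 < v ρ) : v (4 * ρ + b) < 1 := by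
  have h0 : 0 < v ρ := lt_trans zero_lt_one hlt
  have e : ρ ^ 2 * (4 * ρ + b) = -(2 * c * ρ + d) := by linear_combination hρ
  have h1 : v (2 * c * ρ + d) ≤ v ρ := by
    apply v.map_add_le
    · rw [map_mul]
      calc v (2 * c) * v ρ ≤ 1 * v ρ :=
            mul_le_mul' (keyAny_mul_le_one v (keyAny_val_two_le v) hc) le_rfl
        _ = v ρ := one_mul _
    · exact hd.trans hlt.le
  have h2 := congrArg v e
  rw [map_mul, map_pow, v.map_neg] at h2
  by_contra hge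
  rw [not_lt] at hge
  have h3 : v ρ ^ 2 ≤ v ρ := by
    calc v ρ ^ 2 = v ρ ^ 2 * 1 := (mul_one _).symm
      _ ≤ v ρ ^ 2 * v (4 * ρ + b) := mul_le_mul' le_rfl hge
      _ = v (2 * c * ρ + d) := h2
      _ ≤ v ρ := h1
  have h4 : v ρ < v ρ ^ 2 := by
    rw [sq]
    calc v ρ = 1 * v ρ := (one_mul _).symm
      _ < v ρ * v ρ := mul_lt_mul_of_pos_right hlt h0
  exact absurd h4 (not_lt.2 h3)

/-- **An integral root of the 2-division cubic** at a place above `2` with `v b = 1`. -/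
theorem two_exists_integral_root [IsAlgClosed L] (h40 : (4 : L) ≠ 0) (h2 : v (2 : L) < 1)
    {b c d : L} (hb : v b = 1) (hc : v c ≤ 1) (hd : v d ≤ 1) :
    ∃ ρ : L, v ρ ≤ 1 ∧ 4 * ρ ^ 3 + b * ρ ^ 2 + 2 * c * ρ + d = 0 := by
  obtain ⟨ρ₁, ρ₂, ρ₃, e₂, e₄, e₆⟩ := exists_three_roots h40 b (2 * c) d
  have r₁ : 4 * ρ₁ ^ 3 + b * ρ₁ ^ 2 + 2 * c * ρ₁ + d = 0 := by rw [e₂, e₄, e₆]; ring
  have r₂ : 4 * ρ₂ ^ 3 + b * ρ₂ ^ 2 + 2 * c * ρ₂ + d = 0 := by rw [e₂, e₄, e₆]; ring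
  have r₃ : 4 * ρ₃ ^ 3 + b * ρ₃ ^ 2 + 2 * c * ρ₃ + d = 0 := by rw [e₂, e₄, e₆]; ring
  by_contra hcon
  have h₁ : 1 < v ρ₁ := by
    by_contra h; exact hcon ⟨ρ₁, not_lt.1 h, r₁⟩
  have h₂ : 1 < v ρ₂ := by
    by_contra h; exact hcon ⟨ρ₂, not_lt.1 h, r₂⟩
  have h₃ : 1 < v ρ₃ := by
    by_contra h; exact hcon ⟨ρ₃, not_lt.1 h, r₃⟩
  have m₁ := two_root_shift_lt v hc hd r₁ h₁
  have m₂ := two_root_shift_lt v hc hd r₂ h₂
  have m₃ := two_root_shift_lt v hc hd r₃ h₃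
  have key : b ^ 2 = (4 * ρ₁ + b) * (4 * ρ₂ + b) + (4 * ρ₁ + b) * (4 * ρ₃ + b) +
      (4 * ρ₂ + b) * (4 * ρ₃ + b) - 8 * c := by
    linear_combination (-2 * b) * e₂ + 4 * e₄
  have h8 : v (8 * c) < 1 := by
    have : (8 : L) * c = 2 * (4 * c) := by ring
    rw [this, map_mul]
    have h4c : v (4 * c) ≤ 1 := by
      have : (4 : L) = 2 * 2 := by norm_num
      rw [this]
      exact keyAny_mul_le_one v (keyAny_mul_le_one v h2.le h2.le) hc
    calc v 2 * v (4 * c) ≤ v 2 * 1 := mul_le_mul' le_rfl h4c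
      _ = v 2 := mul_one _
      _ < 1 := h2
  have hlt : v (b ^ 2) < 1 := by
    rw [key]
    exact v.map_sub_lt (v.map_add_lt (v.map_add_lt (keyAny_mul_lt_one v m₁.le m₂)
      (keyAny_mul_lt_one v m₁.le m₃)) (keyAny_mul_lt_one v m₂.le m₃)) h8
  rw [map_pow, hb, one_pow] at hlt
  exact lt_irrefl _ hlt

/-! ### The translation moving a point of order 2 to the origin -/

/-- translation by the point `(xT, yT)` -/
def twoVC (xT yT : L) : VariableChange L := ⟨1, xT, 0, yT⟩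

variable (W : WeierstrassCurve L) (xT yT : L)

lemma twoVC_a₁ : (twoVC xT yT • W).a₁ = W.a₁ := by
  simp [twoVC, variableChange_a₁]

lemma twoVC_a₂ : (twoVC xT yT • W).a₂ = W.a₂ + 3 * xT := by
  simp [twoVC, variableChange_a₂]

lemma twoVC_a₃ : (twoVC xT yT • W).a₃ = 2 * yT + W.a₁ * xT + W.a₃ := by
  simp [twoVC, variableChange_a₃]; ring

lemma twoVC_a₄ : (twoVC xT yT • W).a₄ = W.a₄ + 2 * W.a₂ * xT + 3 * xT ^ 2 - W.a₁ * yT := by
  simp [twoVC, variableChange_a₄]; ring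

lemma twoVC_a₆ : (twoVC xT yT • W).a₆ =
    W.a₆ + xT * W.a₄ + xT ^ 2 * W.a₂ + xT ^ 3 - yT * W.a₃ - yT ^ 2 - xT * yT * W.a₁ := by
  simp [twoVC, variableChange_a₆]

lemma twoVC_b₂ : (twoVC xT yT • W).b₂ = W.b₂ + 12 * xT := by
  simp [twoVC, variableChange_b₂]

lemma twoVC_Δ : (twoVC xT yT • W).Δ = W.Δ := by
  simp [twoVC, variableChange_Δ]

lemma twoVC_vcX (x : L) : vcX (twoVC xT yT) x = x + xT := by
  simp [vcX, twoVC]

lemma twoVC_vcY (x y : L) : vcY (twoVC xT yT) x y = y + yT := by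
  simp [vcY, twoVC]

lemma twoVC_polyY (x y : L) :
    polyY (twoVC xT yT • W) (x - xT) (y - yT) = polyY W x y := by
  simp only [polyY, twoVC_a₁, twoVC_a₃]; ring

lemma twoVC_polyX (x y : L) :
    polyX (twoVC xT yT • W) (x - xT) (y - yT) = polyX W x y := by
  simp only [polyX, twoVC_a₁, twoVC_a₂, twoVC_a₄]; ring

/-- The discriminant of `y² + a₁xy = x³ + a₂x² + a₄x`. -/
lemma two_Δ_eq {W : WeierstrassCurve L} (ha₃ : W.a₃ = 0) (ha₆ : W.a₆ = 0) :
    W.Δ = W.a₄ ^ 2 * (W.b₂ ^ 2 - 64 * W.a₄) := by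
  simp only [WeierstrassCurve.Δ, WeierstrassCurve.b₂, WeierstrassCurve.b₄, WeierstrassCurve.b₆,
    WeierstrassCurve.b₈, ha₃, ha₆]
  ring

/-- `(xT, yT)` is a point of order 2: `η = 0` and `xT` is a root of the 2-division cubic. -/
structure TwoData (W : WeierstrassCurve L) (xT yT : L) : Prop where
  hη : 2 * yT + W.a₁ * xT + W.a₃ = 0
  hcub : 4 * xT ^ 3 + W.b₂ * xT ^ 2 + 2 * W.b₄ * xT + W.b₆ = 0

variable {W xT yT}

lemma TwoData.a₃_eq (hT : TwoData W xT yT) : (twoVC xT yT • W).a₃ = 0 := by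
  rw [twoVC_a₃]; exact hT.hη

lemma TwoData.a₆_eq (hT : TwoData W xT yT) (h40 : (4 : L) ≠ 0) :
    (twoVC xT yT • W).a₆ = 0 := by
  rw [twoVC_a₆]
  apply mul_left_cancel₀ h40
  have h1 := hT.hη
  have h2 := hT.hcub
  simp only [WeierstrassCurve.b₂, WeierstrassCurve.b₄, WeierstrassCurve.b₆] at h2
  linear_combination h2 - (2 * yT + W.a₁ * xT + W.a₃) * h1

/-- `2 a₄'' = 6 xT² + b₂ xT + b₄`. -/
lemma TwoData.two_a₄ (hT : TwoData W xT yT) :
    2 * (twoVC xT yT • W).a₄ = 6 * xT ^ 2 + W.b₂ * xT + W.b₄ := by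
  rw [twoVC_a₄]
  have h1 := hT.hη
  simp only [WeierstrassCurve.b₂, WeierstrassCurve.b₄]
  linear_combination (-W.a₁) * h1

/-- `yT` is integral. -/
lemma TwoData.val_y_le (hT : TwoData W xT yT) (h40 : (4 : L) ≠ 0)
    (h₁ : v W.a₁ ≤ 1) (h₂ : v W.a₂ ≤ 1) (h₃ : v W.a₃ ≤ 1) (h₄ : v W.a₄ ≤ 1) (h₆ : v W.a₆ ≤ 1)
    (hx : v xT ≤ 1) : v yT ≤ 1 := by
  have e := hT.a₆_eq h40
  rw [twoVC_a₆] at e
  have hβ : v (W.a₁ * xT + W.a₃) ≤ 1 := v.map_add_le (keyAny_mul_le_one v h₁ hx) h₃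
  have hγ : v (-(xT ^ 3 + W.a₂ * xT ^ 2 + W.a₄ * xT + W.a₆)) ≤ 1 := by
    rw [v.map_neg]
    exact v.map_add_le (v.map_add_le (v.map_add_le (keyAny_pow_le_one v hx 3)
      (keyAny_mul_le_one v h₂ (keyAny_pow_le_one v hx 2))) (keyAny_mul_le_one v h₄ hx)) h₆
  exact two_quad_integral v hβ hγ (by linear_combination -e)

/-- **The translated curve** has a node at the origin. -/
theorem two_data (hT : TwoData W xT yT) (h40 : (4 : L) ≠ 0) (h2 : v (2 : L) < 1)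
    (h₁ : v W.a₁ ≤ 1) (h₂ : v W.a₂ ≤ 1) (h₃ : v W.a₃ ≤ 1) (h₄ : v W.a₄ ≤ 1) (h₆ : v W.a₆ ≤ 1)
    (hb₂ : v W.b₂ = 1) (hΔ0 : W.Δ ≠ 0) (hΔ : v W.Δ < 1) (hx : v xT ≤ 1) :
    v (twoVC xT yT • W).a₂ ≤ 1 ∧ v (twoVC xT yT • W).b₂ = 1 ∧
      v (twoVC xT yT • W).a₄ < 1 ∧ (twoVC xT yT • W).a₄ ≠ 0 := by
  have hy := hT.val_y_le v h40 h₁ h₂ h₃ h₄ h₆ hx
  have h2le := keyAny_val_two_le v
  have h3le := keyAny_val_three_le v
  have ha₂ : v (twoVC xT yT • W).a₂ ≤ 1 := by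
    rw [twoVC_a₂]
    exact v.map_add_le h₂ (keyAny_mul_le_one v h3le hx)
  have h12 : v (12 * xT) < 1 := by
    have : (12 : L) * xT = (6 * xT) * 2 := by ring
    rw [this]
    refine keyAny_mul_lt_one v (keyAny_mul_le_one v ?_ hx) h2
    have : (6 : L) = 2 * 3 := by norm_num
    rw [this]
    exact keyAny_mul_le_one v h2le h3le
  have hb₂' : v (twoVC xT yT • W).b₂ = 1 := by
    rw [twoVC_b₂, v.map_add_eq_of_lt_left (by rw [hb₂]; exact h12), hb₂]
  have ha₄le : v (twoVC xT yT • W).a₄ ≤ 1 := by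
    rw [twoVC_a₄]
    refine v.map_sub_le (v.map_add_le (v.map_add_le h₄ ?_) ?_) (keyAny_mul_le_one v h₁ hy)
    · exact keyAny_mul_le_one v (keyAny_mul_le_one v h2le h₂) hx
    · exact keyAny_mul_le_one v h3le (keyAny_pow_le_one v hx 2)
  have hΔeq : W.Δ = (twoVC xT yT • W).a₄ ^ 2 *
      ((twoVC xT yT • W).b₂ ^ 2 - 64 * (twoVC xT yT • W).a₄) := by
    rw [← two_Δ_eq hT.a₃_eq (hT.a₆_eq h40), twoVC_Δ]
  refine ⟨ha₂, hb₂', ?_, ?_⟩
  · rcases ha₄le.lt_or_eq with hlt | heq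
    · exact hlt
    · exfalso
      have h64 : v (64 * (twoVC xT yT • W).a₄) < 1 := by
        have : (64 : L) * (twoVC xT yT • W).a₄ = (32 * (twoVC xT yT • W).a₄) * 2 := by ring
        rw [this]
        refine keyAny_mul_lt_one v (keyAny_mul_le_one v ?_ ha₄le) h2
        have : (32 : L) = 2 * 2 * 2 * 2 * 2 := by norm_num
        rw [this]
        exact keyAny_mul_le_one v (keyAny_mul_le_one v (keyAny_mul_le_one v
          (keyAny_mul_le_one v h2le h2le) h2le) h2le) h2le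
      have hu : v ((twoVC xT yT • W).b₂ ^ 2 - 64 * (twoVC xT yT • W).a₄) = 1 := by
        rw [v.map_sub_eq_of_lt_left (by rw [map_pow, hb₂', one_pow]; exact h64), map_pow, hb₂',
          one_pow]
      rw [hΔeq, map_mul, map_pow, heq, hu, one_pow, one_mul] at hΔ
      exact lt_irrefl _ hΔ
  · intro h0
    apply hΔ0
    rw [hΔeq, h0]
    ring

/-- **Closeness of the integral roots**: an integral root `x'` of the 2-division cubic has
`v (x' - xT) ≤ v 4 * v a₄''`. -/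
theorem two_root_close (hT : TwoData W xT yT) (h2 : v (2 : L) < 1)
    (hb₂ : v W.b₂ = 1) (hx : v xT ≤ 1) {x' : L} (hx' : v x' ≤ 1)
    (hroot : 4 * x' ^ 3 + W.b₂ * x' ^ 2 + 2 * W.b₄ * x' + W.b₆ = 0) :
    v (x' - xT) ≤ v 4 * v (twoVC xT yT • W).a₄ := by
  by_cases h0 : x' - xT = 0
  · rw [h0, map_zero]; exact zero_le
  have hfac : (x' - xT) * ((x' - xT) * (4 * (x' - xT) + (W.b₂ + 12 * xT)) +
      4 * (twoVC xT yT • W).a₄) = 0 := by
    have e := hT.two_a₄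
    linear_combination hroot - hT.hcub + (2 * (x' - xT)) * e
  have hq : (x' - xT) * (4 * (x' - xT) + (W.b₂ + 12 * xT)) =
      -(4 * (twoVC xT yT • W).a₄) := by
    rcases mul_eq_zero.1 hfac with h | h
    · exact absurd h h0
    · linear_combination h
  have hd : v (x' - xT) ≤ 1 := v.map_sub_le hx' hx
  have h2le := keyAny_val_two_le v
  have h4lt : v (4 * (x' - xT) + 12 * xT) < 1 := by
    have : 4 * (x' - xT) + 12 * xT = (2 * (x' - xT) + 6 * xT) * 2 := by ring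
    rw [this]
    refine keyAny_mul_lt_one v (v.map_add_le (keyAny_mul_le_one v h2le hd)
      (keyAny_mul_le_one v ?_ hx)) h2
    have : (6 : L) = 2 * 3 := by norm_num
    rw [this]
    exact keyAny_mul_le_one v h2le (keyAny_val_three_le v)
  have hu : v (4 * (x' - xT) + (W.b₂ + 12 * xT)) = 1 := by
    have : 4 * (x' - xT) + (W.b₂ + 12 * xT) = W.b₂ + (4 * (x' - xT) + 12 * xT) := by ring
    rw [this, v.map_add_eq_of_lt_left (by rw [hb₂]; exact h4lt), hb₂]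
  have := congrArg v hq
  rw [map_mul, hu, mul_one, v.map_neg, map_mul] at this
  exact this.le

end Fermat.Agent.RED
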