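import Mathlib
import Fermat.Agent.RED.UnipTwoRoots
import Fermat.Agent.S13.Local.AtTwo

/-!
# Brick RED / EC-adic (c) at residue characteristic 2: inertia is unipotent on odd torsion

`W₀` a Weierstrass curve over `ℚ`, `L/ℚ` algebraic and algebraically closed, `A` a valuation
subring of `L` of residue characteristic `2` at which `W₀` has integral coefficients and
multiplicative reduction (`v b₂ = 1`, `v Δ < 1`, `Δ ≠ 0`).  For `σ, τ` in the inertia group of `A`
and an `n`-torsion point `P` (`n` odd):  `τ • (σ • P - P) = σ • P - P`   (`unip_two_local`).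

Method: translate a point `T` of order 2 reducing to the node to the origin
(`UnipTwoRoots.lean`) and use the branch lemmas of `S13/Local` on the translated curve
`y² + a₁xy = x³ + a₂''x² + a₄''x`; `T` is moved by inertia by at most `v a₄''`, which is smaller
than the distance of any odd torsion point to the node.
-/

set_option autoImplicit false
set_option linter.unusedSectionVars false
set_option linter.unusedVariables false

namespace Fermat.Agent.RED

open WeierstrassCurve WeierstrassCurve.Affine Fermat.Agent.S05 Fermat.Agent.S13 Fermat.Agent.EC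

section Translate

variable {L : Type*} [Field L] [DecidableEq L]

/-- the translated point -/
lemma two_vcEquiv_sub (W : WeierstrassCurve L) (xT yT : L) {x y : L}
    (h : W.toAffine.Nonsingular x y) :
    ∃ h'' : (twoVC xT yT • W).toAffine.Nonsingular (x - xT) (y - yT),
      vcEquiv W (twoVC xT yT) (Point.some (x - xT) (y - yT) h'') = Point.some x y h := by
  have h'' : (twoVC xT yT • W).toAffine.Nonsingular (x - xT) (y - yT) := by
    rw [vc_nonsingular_iff, twoVC_vcX, twoVC_vcY, sub_add_cancel, sub_add_cancel]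
    exact h
  refine ⟨h'', ?_⟩
  rw [vcEquiv_apply, vcFun_some, Point.some.injEq, twoVC_vcX, twoVC_vcY, sub_add_cancel,
    sub_add_cancel]
  exact ⟨rfl, rfl⟩

/-- the image of a point of the translated curve -/
lemma two_vcEquiv_add (W : WeierstrassCurve L) (xT yT : L) {X Y : L}
    (h'' : (twoVC xT yT • W).toAffine.Nonsingular X Y) :
    ∃ h : W.toAffine.Nonsingular (X + xT) (Y + yT),
      vcEquiv W (twoVC xT yT) (Point.some X Y h'') = Point.some (X + xT) (Y + yT) h := by
  have h : W.toAffine.Nonsingular (X + xT) (Y + yT) := by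
    have := (vc_nonsingular_iff W (twoVC xT yT) X Y).1 h''
    rwa [twoVC_vcX, twoVC_vcY] at this
  refine ⟨h, ?_⟩
  rw [vcEquiv_apply, vcFun_some, Point.some.injEq, twoVC_vcX, twoVC_vcY]
  exact ⟨rfl, rfl⟩

/-- A branch slope exists over an algebraically closed field. -/
theorem two_exists_slope [IsAlgClosed L] (h2 : (2 : L) ≠ 0) (W : WeierstrassCurve L) :
    ∃ s : L, s ^ 2 + W.a₁ * s - W.a₂ = 0 := by
  obtain ⟨r, hr⟩ := IsAlgClosed.exists_pow_nat_eq W.b₂ (n := 2) (by norm_num)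
  refine ⟨(r - W.a₁) / 2, ?_⟩
  simp only [WeierstrassCurve.b₂] at hr
  field_simp
  linear_combination hr

end Translate

variable {L : Type*} [Field L] [DecidableEq L] [Algebra ℚ L]

section Galois

variable (W₀ : WeierstrassCurve ℚ) (σ : L ≃ₐ[ℚ] L)

/-- `σ` permutes the roots of the 2-division cubic. -/
theorem two_galois_root {x : L}
    (h : 4 * x ^ 3 + (W₀.baseChange L).b₂ * x ^ 2 + 2 * (W₀.baseChange L).b₄ * x +
      (W₀.baseChange L).b₆ = 0) :
    4 * (σ x) ^ 3 + (W₀.baseChange L).b₂ * (σ x) ^ 2 + 2 * (W₀.baseChange L).b₄ * (σ x) +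
      (W₀.baseChange L).b₆ = 0 := by
  have hσb₂ : σ (W₀.baseChange L).b₂ = (W₀.baseChange L).b₂ := by
    simp [WeierstrassCurve.baseChange, WeierstrassCurve.map_b₂]
  have hσb₄ : σ (W₀.baseChange L).b₄ = (W₀.baseChange L).b₄ := by
    simp [WeierstrassCurve.baseChange, WeierstrassCurve.map_b₄]
  have hσb₆ : σ (W₀.baseChange L).b₆ = (W₀.baseChange L).b₆ := by
    simp [WeierstrassCurve.baseChange, WeierstrassCurve.map_b₆]
  have := congrArg σ h
  simpa only [map_add, map_mul, map_pow, map_ofNat, hσb₂, hσb₄, hσb₆, map_zero] using this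

/-- `2 (σ yT - yT) = -a₁ (σ xT - xT)`. -/
theorem two_galois_y {xT yT : L} (hT : TwoData (W₀.baseChange L) xT yT) :
    2 * (σ yT - yT) = -((W₀.baseChange L).a₁ * (σ xT - xT)) := by
  have h := hT.hη
  have h' := congrArg σ h
  rw [map_add, map_add, map_mul, map_mul, galois_a₁, galois_a₃, map_ofNat, map_zero] at h'
  linear_combination h' - h

end Galois

section Fix

/-- **Nonsingular case.** An `n`-torsion point (`n` a unit at `A`) whose `x`-coordinate is not
congruent to the node is fixed by inertia. -/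
theorem two_fix_of_nonsing (A : ValuationSubring L) {σ : L ≃ₐ[ℚ] L}
    (hσ : σ ∈ A.inertiaSubgroupIn ℚ) (W₀ : WeierstrassCurve ℚ)
    (h₁ : (W₀.baseChange L).a₁ ∈ A) (h₂ : (W₀.baseChange L).a₂ ∈ A)
    (h₃ : (W₀.baseChange L).a₃ ∈ A) (h₄ : (W₀.baseChange L).a₄ ∈ A)
    (h₆ : (W₀.baseChange L).a₆ ∈ A)
    (h40 : (4 : L) ≠ 0) (h2 : A.valuation (2 : L) < 1)
    (hb₂ : A.valuation (W₀.baseChange L).b₂ = 1)
    (hΔ0 : (W₀.baseChange L).Δ ≠ 0) (hΔ : A.valuation (W₀.baseChange L).Δ < 1)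
    (n : ℕ) (hn : (n : L) ∉ A.nonunits)
    {xT yT : L} (hT : TwoData (W₀.baseChange L) xT yT) (hxT : xT ∈ A)
    {x y : L} (h : (W₀.baseChange L).toAffine.Nonsingular x y)
    (htors : n • Point.some x y h = 0) (hx : A.valuation (x - xT) = 1) :
    σ • (Point.some x y h : (W₀⁄L).Point) = Point.some x y h := by
  classical
  have hv₁ : A.valuation (W₀.baseChange L).a₁ ≤ 1 := (A.valuation_le_one_iff _).2 h₁
  have hv₂ : A.valuation (W₀.baseChange L).a₂ ≤ 1 := (A.valuation_le_one_iff _).2 h₂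
  have hv₃ : A.valuation (W₀.baseChange L).a₃ ≤ 1 := (A.valuation_le_one_iff _).2 h₃
  have hv₄ : A.valuation (W₀.baseChange L).a₄ ≤ 1 := (A.valuation_le_one_iff _).2 h₄
  have hv₆ : A.valuation (W₀.baseChange L).a₆ ≤ 1 := (A.valuation_le_one_iff _).2 h₆
  have hvxT : A.valuation xT ≤ 1 := (A.valuation_le_one_iff _).2 hxT
  have hvyT : A.valuation yT ≤ 1 := hT.val_y_le A.valuation h40 hv₁ hv₂ hv₃ hv₄ hv₆ hvxT
  obtain ⟨ha₂'', hb₂'', ha₄'', ha₄0''⟩ :=
    two_data A.valuation hT h40 h2 hv₁ hv₂ hv₃ hv₄ hv₆ hb₂ hΔ0 hΔ hvxT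
  have hxA : x ∈ A := no_torsion_of_not_mem A _ h₁ h₂ h₃ h₄ h₆ n hn h htors
  have hyA : y ∈ A := no_torsion_of_not_mem_y A _ h₁ h₂ h₃ h₄ h₆ n hn h htors
  have hvx : A.valuation x ≤ 1 := (A.valuation_le_one_iff _).2 hxA
  have hvy : A.valuation y ≤ 1 := (A.valuation_le_one_iff _).2 hyA
  have h' : (W₀.baseChange L).toAffine.Nonsingular (σ x) (σ y) :=
    (WeierstrassCurve.Affine.baseChange_nonsingular W₀ (f := σ.toAlgHom)
      σ.toAlgHom.injective x y).mpr h
  have hsm : σ • (Point.some x y h : (W₀⁄L).Point) = Point.some (σ x) (σ y) h' :=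
    galois_smul_some σ h
  rw [hsm]
  by_contra hne
  have htors' : n • Point.some (σ x) (σ y) h' = 0 := by
    have := Point.algEquiv_smul_zsmul σ (n : ℤ) (Point.some x y h : (W₀⁄L).Point)
    rw [natCast_zsmul, natCast_zsmul, htors, hsm] at this
    rw [← this]
    rfl
  have htorsQ : n • (Point.some (σ x) (σ y) h' - Point.some x y h) = 0 := by
    rw [smul_sub, htors, htors', sub_zero]
  have hxx : A.valuation (σ x - x) < 1 :=
    (A.mem_nonunits_iff).1 (inertia_apply_sub_mem_nonunits hσ hxA)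
  have hyy : A.valuation (σ y - y) < 1 :=
    (A.mem_nonunits_iff).1 (inertia_apply_sub_mem_nonunits hσ hyA)
  obtain ⟨h'', -⟩ := two_vcEquiv_sub (W₀.baseChange L) xT yT h
  have ha₁'' : A.valuation (twoVC xT yT • (W₀.baseChange L)).a₁ ≤ 1 := by
    rw [twoVC_a₁]; exact hv₁
  have hns'' := nonsing_of_unit_x A.valuation hT.a₃_eq (hT.a₆_eq h40) ha₁'' ha₂'' hb₂'' ha₄''
    h''.1 hx (A.valuation.map_sub_le hvy hvyT)
  rw [twoVC_polyY, twoVC_polyX] at hns''
  obtain ⟨x'', y'', hQ'', hQ, hlt⟩ :=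
    key_nonsing_any A.valuation hv₁ hv₂ hv₃ h h' hvx hvy hxx hyy hne hns''
  rw [hQ] at htorsQ
  have := no_torsion_of_not_mem A _ h₁ h₂ h₃ h₄ h₆ n hn hQ'' htorsQ
  rw [← A.valuation_le_one_iff] at this
  exact absurd hlt (not_lt.2 this)

end Fix

section Unip

variable [Algebra.IsAlgebraic ℚ L] [IsAlgClosed L]

/-- **Node case.** For an odd-torsion point `P` reducing to the node, `σ • P - P` is `0` or a
point whose `x`-coordinate is integral and not congruent to the node. -/
theorem two_sub_of_node (A : ValuationSubring L) {σ : L ≃ₐ[ℚ] L}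
    (hσ : σ ∈ A.inertiaSubgroupIn ℚ) (W₀ : WeierstrassCurve ℚ)
    (h₁ : (W₀.baseChange L).a₁ ∈ A) (h₂ : (W₀.baseChange L).a₂ ∈ A)
    (h₃ : (W₀.baseChange L).a₃ ∈ A) (h₄ : (W₀.baseChange L).a₄ ∈ A)
    (h₆ : (W₀.baseChange L).a₆ ∈ A)
    (h40 : (4 : L) ≠ 0) (h2 : A.valuation (2 : L) < 1)
    (hb₂ : A.valuation (W₀.baseChange L).b₂ = 1)
    (hΔ0 : (W₀.baseChange L).Δ ≠ 0) (hΔ : A.valuation (W₀.baseChange L).Δ < 1)
    (n : ℕ) (hn : (n : L) ∉ A.nonunits) (hodd : Odd n)
    {xT yT : L} (hT : TwoData (W₀.baseChange L) xT yT) (hxT : xT ∈ A)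
    {x y : L} (h : (W₀.baseChange L).toAffine.Nonsingular x y)
    (htors : n • Point.some x y h = 0) (hx : A.valuation (x - xT) < 1) :
    σ • (Point.some x y h : (W₀⁄L).Point) = Point.some x y h ∨
    ∃ (x'' y'' : L) (h'' : (W₀.baseChange L).toAffine.Nonsingular x'' y''),
      σ • (Point.some x y h : (W₀⁄L).Point) - Point.some x y h = Point.some x'' y'' h'' ∧
        A.valuation (x'' - xT) = 1 := by
  classical
  have h20 : (2 : L) ≠ 0 := by
    intro h0
    apply h40
    have : (4 : L) = 2 * 2 := by norm_num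
    rw [this, h0, mul_zero]
  have hv₁ : A.valuation (W₀.baseChange L).a₁ ≤ 1 := (A.valuation_le_one_iff _).2 h₁
  have hv₂ : A.valuation (W₀.baseChange L).a₂ ≤ 1 := (A.valuation_le_one_iff _).2 h₂
  have hv₃ : A.valuation (W₀.baseChange L).a₃ ≤ 1 := (A.valuation_le_one_iff _).2 h₃
  have hv₄ : A.valuation (W₀.baseChange L).a₄ ≤ 1 := (A.valuation_le_one_iff _).2 h₄
  have hv₆ : A.valuation (W₀.baseChange L).a₆ ≤ 1 := (A.valuation_le_one_iff _).2 h₆
  have hvxT : A.valuation xT ≤ 1 := (A.valuation_le_one_iff _).2 hxT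
  have hvyT : A.valuation yT ≤ 1 := hT.val_y_le A.valuation h40 hv₁ hv₂ hv₃ hv₄ hv₆ hvxT
  obtain ⟨ha₂'', hb₂'', ha₄'', ha₄0''⟩ :=
    two_data A.valuation hT h40 h2 hv₁ hv₂ hv₃ hv₄ hv₆ hb₂ hΔ0 hΔ hvxT
  have ha₁'' : A.valuation (twoVC xT yT • (W₀.baseChange L)).a₁ ≤ 1 := by
    rw [twoVC_a₁]; exact hv₁
  have ha₃'' := hT.a₃_eq
  have ha₆'' := hT.a₆_eq h40
  have hxA : x ∈ A := no_torsion_of_not_mem A _ h₁ h₂ h₃ h₄ h₆ n hn h htors
  have hyA : y ∈ A := no_torsion_of_not_mem_y A _ h₁ h₂ h₃ h₄ h₆ n hn h htors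
  have h' : (W₀.baseChange L).toAffine.Nonsingular (σ x) (σ y) :=
    (WeierstrassCurve.Affine.baseChange_nonsingular W₀ (f := σ.toAlgHom)
      σ.toAlgHom.injective x y).mpr h
  have hsm : σ • (Point.some x y h : (W₀⁄L).Point) = Point.some (σ x) (σ y) h' :=
    galois_smul_some σ h
  rw [hsm]
  by_cases hne : Point.some (σ x) (σ y) h' = Point.some x y h
  · exact Or.inl hne
  right
  have htors' : n • Point.some (σ x) (σ y) h' = 0 := by
    have := Point.algEquiv_smul_zsmul σ (n : ℤ) (Point.some x y h : (W₀⁄L).Point)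
    rw [natCast_zsmul, natCast_zsmul, htors, hsm] at this
    rw [← this]
    rfl
  have htorsQ : n • (Point.some (σ x) (σ y) h' - Point.some x y h) = 0 := by
    rw [smul_sub, htors, htors', sub_zero]
  -- the translated points
  obtain ⟨hP'', eP⟩ := two_vcEquiv_sub (W₀.baseChange L) xT yT h
  obtain ⟨hPσ'', ePσ⟩ := two_vcEquiv_sub (W₀.baseChange L) xT yT h'
  have htors'' : n • Point.some (x - xT) (y - yT) hP'' = 0 := by
    apply (vcEquiv (W₀.baseChange L) (twoVC xT yT)).injective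
    rw [map_nsmul, eP, map_zero]
    exact htors
  have hne'' : Point.some (σ x - xT) (σ y - yT) hPσ'' ≠ Point.some (x - xT) (y - yT) hP'' := by
    intro he
    apply hne
    rw [← ePσ, ← eP, he]
  -- the tropical step
  obtain ⟨hlow, -⟩ := tropical_torsion_any A.valuation ha₃'' ha₆'' h20 h2.le hb₂'' ha₄'' ha₄0''
    hodd hP'' htors'' hx
  have hX0 : x - xT ≠ 0 := by
    intro h0
    rw [h0, map_zero] at hlow
    exact not_lt_zero hlow
  have hXpos : 0 < A.valuation (x - xT) := lt_of_le_of_lt zero_le hlow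
  -- the displacement of `T`
  have h4le : A.valuation (4 : L) ≤ 1 := by
    have : (4 : L) = 2 * 2 := by norm_num
    rw [this]
    exact keyAny_mul_le_one _ h2.le h2.le
  have hσxT : σ xT ∈ A := (inertia_apply_mem_iff hσ xT).2 hxT
  have hδx4 : A.valuation (σ xT - xT) ≤
      A.valuation 4 * A.valuation (twoVC xT yT • (W₀.baseChange L)).a₄ :=
    two_root_close A.valuation hT h2 hb₂ hvxT ((A.valuation_le_one_iff _).2 hσxT)
      (two_galois_root W₀ σ hT.hcub)
  have hδx : A.valuation (σ xT - xT) ≤ A.valuation (twoVC xT yT • (W₀.baseChange L)).a₄ := by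
    refine hδx4.trans ?_
    calc A.valuation 4 * A.valuation (twoVC xT yT • (W₀.baseChange L)).a₄
        ≤ 1 * A.valuation (twoVC xT yT • (W₀.baseChange L)).a₄ := mul_le_mul' h4le le_rfl
      _ = _ := one_mul _
  have hδy : A.valuation (σ yT - yT) ≤ A.valuation (twoVC xT yT • (W₀.baseChange L)).a₄ := by
    have e := congrArg A.valuation (two_galois_y W₀ σ hT)
    rw [map_mul, Valuation.map_neg, map_mul] at e
    have h2pos : 0 < A.valuation (2 : L) := by
      rw [Valuation.pos_iff]; exact h20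
    have h44 : A.valuation (4 : L) = A.valuation 2 * A.valuation 2 := by
      have : (4 : L) = 2 * 2 := by norm_num
      rw [this, map_mul]
    have h1 : A.valuation 2 * A.valuation (σ yT - yT) ≤
        A.valuation 2 * (A.valuation 2 * A.valuation (twoVC xT yT • (W₀.baseChange L)).a₄) := by
      rw [e, ← mul_assoc, ← h44]
      calc A.valuation (W₀.baseChange L).a₁ * A.valuation (σ xT - xT)
          ≤ 1 * A.valuation (σ xT - xT) := mul_le_mul' hv₁ le_rfl
        _ = A.valuation (σ xT - xT) := one_mul _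
        _ ≤ _ := hδx4
    have h3 := le_of_mul_le_mul_left h1 h2pos
    refine h3.trans ?_
    calc A.valuation 2 * A.valuation (twoVC xT yT • (W₀.baseChange L)).a₄
        ≤ 1 * A.valuation (twoVC xT yT • (W₀.baseChange L)).a₄ := mul_le_mul' h2.le le_rfl
      _ = _ := one_mul _
  have hδxlt : A.valuation (σ xT - xT) < A.valuation (x - xT) := lt_of_le_of_lt hδx hlow
  have hδylt : A.valuation (σ yT - yT) < A.valuation (x - xT) := lt_of_le_of_lt hδy hlow
  have hσX : A.valuation (σ (x - xT)) = A.valuation (x - xT) := inertia_valuation_apply hσ _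
  have hXX : A.valuation (σ x - xT) = A.valuation (x - xT) := by
    have e : σ x - xT = σ (x - xT) + (σ xT - xT) := by rw [map_sub]; ring
    rw [e, Valuation.map_add_eq_of_lt_left _ (by rw [hσX]; exact hδxlt), hσX]
  -- the claim for a branch slope
  have key : ∀ t : L, t ^ 2 + (twoVC xT yT • (W₀.baseChange L)).a₁ * t -
        (twoVC xT yT • (W₀.baseChange L)).a₂ = 0 →
      A.valuation ((y - yT) - t * (x - xT)) < A.valuation (x - xT) →
      ∃ (X Y : L) (hQ'' : (twoVC xT yT • (W₀.baseChange L)).toAffine.Nonsingular X Y),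
        Point.some (σ x - xT) (σ y - yT) hPσ'' - Point.some (x - xT) (y - yT) hP'' =
          Point.some X Y hQ'' ∧ 1 ≤ A.valuation X := by
    intro t ht hb
    have htv : A.valuation t ≤ 1 := branch_root_val_le A.valuation ha₁'' ha₂'' ht
    have htA : t ∈ A := (A.valuation_le_one_iff _).1 htv
    have htt : A.valuation (σ t - t) < 1 :=
      (A.mem_nonunits_iff).1 (inertia_apply_sub_mem_nonunits hσ htA)
    have hb' : A.valuation ((σ y - yT) - t * (σ x - xT)) < A.valuation (σ x - xT) := by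
      have e : (σ y - yT) - t * (σ x - xT) =
          σ ((y - yT) - t * (x - xT)) + (σ t - t) * σ (x - xT) + (σ yT - yT) -
            t * (σ xT - xT) := by
        simp only [map_sub, map_mul]; ring
      rw [e, hXX]
      refine Valuation.map_sub_lt _ (Valuation.map_add_lt _ (Valuation.map_add_lt _ ?_ ?_)
        hδylt) ?_
      · rw [inertia_valuation_apply hσ]; exact hb
      · rw [map_mul, hσX]
        calc A.valuation (σ t - t) * A.valuation (x - xT)
            < 1 * A.valuation (x - xT) := mul_lt_mul_of_pos_right htt hXpos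
          _ = _ := one_mul _
      · rw [map_mul]
        calc A.valuation t * A.valuation (σ xT - xT)
            ≤ 1 * A.valuation (σ xT - xT) := mul_le_mul' htv le_rfl
          _ = A.valuation (σ xT - xT) := one_mul _
          _ < _ := hδxlt
    exact branch_sub_val A.valuation ha₃'' hb₂'' ht hP'' hPσ'' hX0 hx hXX hb hb' hne''
  obtain ⟨s, hs⟩ := two_exists_slope h20 (twoVC xT yT • (W₀.baseChange L))
  have hQ : ∃ (X Y : L) (hQ'' : (twoVC xT yT • (W₀.baseChange L)).toAffine.Nonsingular X Y),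
      Point.some (σ x - xT) (σ y - yT) hPσ'' - Point.some (x - xT) (y - yT) hP'' =
        Point.some X Y hQ'' ∧ 1 ≤ A.valuation X := by
    rcases branch_exists A.valuation ha₃'' ha₆'' hs hP''.1 hx hlow with hb | hb
    · exact key s hs hb
    · exact key _ (branch_other_root hs) hb
  obtain ⟨X, Y, hQ'', hQe, hge⟩ := hQ
  obtain ⟨hQ', eQ⟩ := two_vcEquiv_add (W₀.baseChange L) xT yT hQ''
  have hsub : Point.some (σ x) (σ y) h' - Point.some x y h =
      Point.some (X + xT) (Y + yT) hQ' := by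
    rw [← ePσ, ← eP, ← map_sub, hQe, eQ]
  refine ⟨X + xT, Y + yT, hQ', hsub, ?_⟩
  rw [hsub] at htorsQ
  have hxQ : X + xT ∈ A := no_torsion_of_not_mem A _ h₁ h₂ h₃ h₄ h₆ n hn hQ' htorsQ
  have hXA : X ∈ A := by
    have : X = (X + xT) - xT := by ring
    rw [this]
    exact sub_mem hxQ hxT
  rw [add_sub_cancel_right]
  exact le_antisymm ((A.valuation_le_one_iff _).2 hXA) hge

/-- **Inertia at a place above `2` is unipotent on odd torsion at a node** (local statement). -/
theorem unip_two_local (A : ValuationSubring L) {σ τ : L ≃ₐ[ℚ] L}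
    (hσ : σ ∈ A.inertiaSubgroupIn ℚ) (hτ : τ ∈ A.inertiaSubgroupIn ℚ)
    (W₀ : WeierstrassCurve ℚ)
    (h₁ : (W₀.baseChange L).a₁ ∈ A) (h₂ : (W₀.baseChange L).a₂ ∈ A)
    (h₃ : (W₀.baseChange L).a₃ ∈ A) (h₄ : (W₀.baseChange L).a₄ ∈ A)
    (h₆ : (W₀.baseChange L).a₆ ∈ A)
    (h40 : (4 : L) ≠ 0) (h2 : A.valuation (2 : L) < 1)
    (hb₂ : A.valuation (W₀.baseChange L).b₂ = 1)
    (hΔ0 : (W₀.baseChange L).Δ ≠ 0) (hΔ : A.valuation (W₀.baseChange L).Δ < 1)
    (n : ℕ) (hn : (n : L) ∉ A.nonunits) (hodd : Odd n)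
    (P : (W₀⁄L).Point) (hP : n • P = 0) :
    τ • (σ • P - P) = σ • P - P := by
  classical
  obtain ⟨hb₂A, hb₄A, hb₆A, -⟩ := kernel_b_mem A h₁ h₂ h₃ h₄ h₆
  have h20 : (2 : L) ≠ 0 := by
    intro h0
    apply h40
    have : (4 : L) = 2 * 2 := by norm_num
    rw [this, h0, mul_zero]
  -- the point of order 2 at the node
  obtain ⟨xT, hvxT, hcub⟩ := two_exists_integral_root A.valuation h40 h2 hb₂
    ((A.valuation_le_one_iff _).2 hb₄A) ((A.valuation_le_one_iff _).2 hb₆A)
  have hxT : xT ∈ A := (A.valuation_le_one_iff _).1 hvxT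
  have hT : TwoData (W₀.baseChange L) xT
      (-((W₀.baseChange L).a₁ * xT + (W₀.baseChange L).a₃) / 2) :=
    ⟨by field_simp; ring, hcub⟩
  have hτ0 : τ • (0 : (W₀⁄L).Point) = 0 := galois_smul_zero τ
  rcases P with _ | ⟨x, y, h⟩
  · have h0 : σ • (0 : (W₀⁄L).Point) - 0 = 0 := by rw [galois_smul_zero, sub_zero]
    show τ • (σ • (0 : (W₀⁄L).Point) - 0) = σ • (0 : (W₀⁄L).Point) - 0
    rw [h0, hτ0]
  · have hxA : x ∈ A := no_torsion_of_not_mem A _ h₁ h₂ h₃ h₄ h₆ n hn h hP
    have hs₁ : A.valuation (x - xT) ≤ 1 := (A.valuation_le_one_iff _).2 (sub_mem hxA hxT)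
    have hσn : n • (σ • (Point.some x y h : (W₀⁄L).Point)) = 0 := by
      have := Point.algEquiv_smul_zsmul σ (n : ℤ) (Point.some x y h : (W₀⁄L).Point)
      rw [natCast_zsmul, natCast_zsmul, hP] at this
      rw [← this]
      exact galois_smul_zero σ
    rcases hs₁.lt_or_eq with hlt | heq
    · rcases two_sub_of_node A hσ W₀ h₁ h₂ h₃ h₄ h₆ h40 h2 hb₂ hΔ0 hΔ n hn hodd hT hxT h hP hlt
        with hfix | ⟨x'', y'', h'', hQ, hu⟩
      · rw [hfix, sub_self, hτ0]
      · rw [hQ]
        have htorsQ : n • (Point.some x'' y'' h'' : (W₀⁄L).Point) = 0 := by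
          rw [← hQ, smul_sub, hσn, hP, sub_zero]
        exact two_fix_of_nonsing A hτ W₀ h₁ h₂ h₃ h₄ h₆ h40 h2 hb₂ hΔ0 hΔ n hn hT hxT h''
          htorsQ hu
    · have hfix := two_fix_of_nonsing A hσ W₀ h₁ h₂ h₃ h₄ h₆ h40 h2 hb₂ hΔ0 hΔ n hn hT hxT h hP
        heq
      rw [hfix, sub_self, hτ0]

end Unip

end Fermat.Agent.RED
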